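import Mathlib
import Fermat.Agent.Lowering.P4.Interface
import Fermat.Agent.DeligneSerre.Interface
import Fermat.Agent.DetCyclo.Basic
import Fermat.Agent.FlatLocal.Interface
import Fermat.Prelude.Def_CuspForm_HeckeAlgebra

/-!
# The localised cohomology modules with auxiliary primes: interface

For `p` different from two, allowing `p` in the level: `Setup` is the residual situation at the level `M0` with the set `T` of primes to be removed,
`Aux` a set of auxiliary primes. `LevelData` lists what the patching uses at one level: two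
modules free over the group ring of the auxiliary `p`-group, congruent modulo the maximal ideal
of `O`, a local algebra of twisted traces with a representation, its inertial relations and its
realisation inside torsion. `Geometry` is the geometric input.
-/

set_option autoImplicit false
set_option linter.unusedSectionVars false
set_option linter.style.haveILetI false

noncomputable section

set_option synthInstance.maxHeartbeats 400000
set_option maxHeartbeats 1000000

open IsLocalRing
open scoped MatrixGroups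

namespace FLTAgent.ModLift

open FLTAgent.Lowering

local notation "LL" => AlgebraicClosure ℚ
local notation "GG" => (AlgebraicClosure ℚ ≃ₐ[ℚ] AlgebraicClosure ℚ)

/-- The residual situation. -/
structure Setup (p : ℕ) [Fact p.Prime] (O : Type) [CommRing O] [IsDomain O]
    [IsDiscreteValuationRing O] [Algebra ℤ_[p] O] where
  p_ne : p ≠ 2
  M0 : ℕ
  [M0_neZero : NeZero M0]
  M0_squarefree : Squarefree M0
  five_le : 5 ≤ M0
  /-- Classes lift: three is invertible, or `Γ₀(M0)` has no element of order three. -/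
  tors : 5 ≤ p ∨ ∀ a : ZMod M0, a ^ 2 - a + 1 ≠ 0
  T : Finset ℕ
  T_prime : ∀ t ∈ T, t.Prime ∧ t ∣ M0 ∧ p ∣ t - 1
  bad : Finset ℕ
  bad_prime : ∀ l ∈ bad, l.Prime
  p_mem : p ∈ bad
  two_mem : 2 ∈ bad
  three_mem : 3 ∈ bad
  level_mem : ∀ l : ℕ, l.Prime → l ∣ M0 → l ∈ bad
  /-- The residual representation. -/
  rb : GG →* GL (Fin 2) (ResidueField O)
  rb_level : ∃ L : IntermediateField ℚ LL, FiniteDimensional ℚ L ∧
    ∀ σ : GG, (∀ x ∈ L, σ x = x) → rb σ = 1
  rb_det : ∀ (σ : GG) (c : ℕ), DetCyclo.CycloExponent p 1 σ c →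
    detGL (rb σ) = (c : ResidueField O)
  rb_unramified : ∀ l : ℕ, l.Prime → l ∉ bad → ∀ V : ValuationSubring LL, V.LiesOverPrime l →
    ∀ σ ∈ V.inertiaSubgroupIn ℚ, rb σ = 1
  /-- Absolute irreducibility on every abelian extension. -/
  rb_big : ∃ g h : GG, trGL (rb (g * h * g⁻¹ * h⁻¹)) ≠ 2
  modular : ∃ θ : CuspForm.heckeAlgebra M0 2 (↑bad : Set ℕ) →+* ResidueField O,
    ∀ (l : ℕ) (hl : l.Prime) (hlM : ¬ l ∣ M0) (hlb : l ∉ (↑bad : Set ℕ)),
      ∀ V : ValuationSubring LL, V.LiesOverPrime l → ∀ σ : GG, V.IsFrobeniusAt σ l →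
        θ (CuspForm.heckeAlgebra.T hl hlM hlb) = trGL (rb σ)
  /-- The twist at a prime of `T`, faithful on the quotient of order `p`. -/
  χ : ∀ t ∈ T, (ZMod t)ˣ →* Oˣ
  χ_pow : ∀ t ht u, χ t ht u ^ p = 1
  χ_ne : ∀ t ht, χ t ht ≠ 1

attribute [instance] Setup.M0_neZero

variable {p : ℕ} [Fact p.Prime] {O : Type} [CommRing O] [IsDomain O] [IsDiscreteValuationRing O]
  [Algebra ℤ_[p] O]

/-- A set of auxiliary primes with a chosen residual eigenvalue. -/
structure Aux (S : Setup p O) where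
  Q : Finset ℕ
  prime : ∀ q ∈ Q, q.Prime
  notMem : ∀ q ∈ Q, q ∉ S.bad
  one_mod : ∀ q ∈ Q, p ∣ q - 1
  α : ℕ → ResidueField O
  α_sq : ∀ q ∈ Q, α q ^ 2 ≠ 1
  α_root : ∀ q ∈ Q, ∀ V : ValuationSubring LL, V.LiesOverPrime q → ∀ σ : GG,
    V.IsFrobeniusAt σ q → α q ^ 2 - trGL (S.rb σ) * α q + 1 = 0

namespace Aux

variable {S : Setup p O}

variable (S) in
/-- No auxiliary primes. -/
def empty : Aux S where
  Q := ∅
  prime q h := absurd h (Finset.notMem_empty q)
  notMem q h := absurd h (Finset.notMem_empty q)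
  one_mod q h := absurd h (Finset.notMem_empty q)
  α _ := 0
  α_sq q h := absurd h (Finset.notMem_empty q)
  α_root q h := absurd h (Finset.notMem_empty q)

variable (X : Aux S)

/-- The level. -/
def level : ℕ := S.M0 * ∏ q ∈ X.Q, q

/-- The units modulo the auxiliary primes. -/
abbrev Units' : Type := ∀ q : X.Q, (ZMod (q : ℕ))ˣ

/-- Prime to `p` part of the units: the image of a large `p`-power. -/
def coSylow : Subgroup X.Units' :=
  (powMonoidHom (p ^ Nat.card X.Units') : X.Units' →* X.Units').range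

/-- The diamond group: the maximal `p`-quotient of the units modulo the auxiliary primes. -/
def Dia : Type := X.Units' ⧸ X.coSylow

instance : CommGroup X.Dia := inferInstanceAs (CommGroup (X.Units' ⧸ X.coSylow))

/-- The coefficient ring of the level. -/
abbrev Coef : Type := MonoidAlgebra O X.Dia

/-- The class of a residue at an auxiliary prime. -/
def diaAt (q : ℕ) (hq : q ∈ X.Q) (u : (ZMod q)ˣ) : X.Dia :=
  QuotientGroup.mk' X.coSylow (Pi.mulSingle (⟨q, hq⟩ : X.Q) u)

/-- Its square root. -/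
def halfAt (q : ℕ) (hq : q ∈ X.Q) (u : (ZMod q)ˣ) : X.Dia :=
  X.diaAt q hq u ^ ((Nat.card X.Dia + 1) / 2)

/-- The augmentation. -/
def aug : X.Coef →ₐ[O] O := MonoidAlgebra.lift O O X.Dia 1

/-- The level of the forms carrying the twisted traces. -/
def bigLevel : ℕ := X.level * ∏ r ∈ S.T ∪ X.Q, r

instance neZero_bigLevel : NeZero X.bigLevel :=
  ⟨Nat.mul_ne_zero
    (Nat.mul_ne_zero (NeZero.ne S.M0) (Finset.prod_ne_zero_iff.mpr fun q hq => (X.prime q hq).ne_zero))
    (Finset.prod_ne_zero_iff.mpr fun r hr => ((Finset.mem_union.mp hr).elim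
      (fun h => (S.T_prime r h).1) (X.prime r)).ne_zero)⟩

/-- The primes omitted from the Hecke algebra of forms. -/
def badQ : Finset ℕ := S.bad ∪ X.Q

end Aux

/-! ### The geometric input -/

variable {S : Setup p O}

/-- Auxiliary levels allowed for `X`. -/
structure Aux.Allowed (X : Aux S) (M : ℕ) : Prop where
  aux : DeligneSerre.AuxLevel M
  dvd : X.level ∣ M
  support : ∀ l : ℕ, l.Prime → l ∣ M → l ∈ S.bad ∨ l ∈ X.Q

/-- The geometric input: realisations, with the inertial bounds at the primes of the level and,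
at every other prime different from `p`, a realisation at a level prime to it. -/
def Geometry (X : Aux S) : Prop :=
  (∃ (M : ℕ) (_ : NeZero M), X.Allowed M ∧ (¬ p ∣ S.M0 → ¬ p ∣ M) ∧
      Nonempty (Realisation p M)) ∧
  (∀ l : ℕ, l.Prime → l ≠ p → l ∣ X.level → ∃ (M : ℕ) (_ : NeZero M) (R : Realisation p M),
    X.Allowed M ∧ ¬ l ^ 2 ∣ M ∧ R.InertiaBound l ∧ R.UnipotentBound l) ∧
  ∀ l : ℕ, l.Prime → l ≠ p → ¬ l ∣ X.level →
    ∃ (M : ℕ) (_ : NeZero M), X.Allowed M ∧ ¬ l ∣ M ∧ Nonempty (Realisation p M)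

/-! ### The output at one level -/

/-- The modules, the twisted trace algebra and its representation at one level. The index `false`
is the untwisted module, `true` the module twisted by the characters at `T`. -/
structure LevelData (X : Aux S) where
  M : Bool → Type
  [addCommGroup : ∀ e, AddCommGroup (M e)]
  [moduleCoef : ∀ e, Module X.Coef (M e)]
  [moduleBase : ∀ e, Module O (M e)]
  [tower : ∀ e, IsScalarTower O X.Coef (M e)]
  [smulComm : ∀ e, SMulCommClass X.Coef O (M e)]
  finite : ∀ e, Module.Finite X.Coef (M e)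
  free : ∀ e, Module.Free X.Coef (M e)
  /-- The twisted trace algebra. -/
  R : Type
  [commRing : CommRing R]
  [algebra : Algebra O R]
  [isLocalRing : IsLocalRing R]
  finite_R : Module.Finite O R
  red : R →ₐ[O] ResidueField O
  act : ∀ e, R →ₐ[O] Module.End X.Coef (M e)
  faithful : ∀ t : R, (∀ e, act e t = 0) → t = 0
  ρ : GG →* GL (Fin 2) R
  generated : Algebra.adjoin O (Set.range fun σ => trGL (ρ σ)) = ⊤
  det_cyclotomic : ∀ (n : ℕ) (σ : GG) (c : ℕ), DetCyclo.CycloExponent p n σ c →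
    detGL (ρ σ) - (c : R) ∈ Ideal.span {(p : R) ^ n}
  continuous : ∀ n : ℕ, ∃ L : IntermediateField ℚ LL, FiniteDimensional ℚ L ∧
    ∀ σ : GG, (∀ x ∈ L, σ x = x) →
      ∀ i j, (ρ σ : Matrix (Fin 2) (Fin 2) R) i j -
        (1 : Matrix (Fin 2) (Fin 2) R) i j ∈ Ideal.span {(p : R) ^ n}
  residual : ∀ σ : GG, red (trGL (ρ σ)) = trGL (S.rb σ)
  unramified : ∀ l : ℕ, l.Prime → l ≠ p → ¬ l ∣ X.level → ∀ V : ValuationSubring LL,
    V.LiesOverPrime l → ∀ σ ∈ V.inertiaSubgroupIn ℚ, ρ σ = 1
  /-- Inertia at the remaining primes of `M0` different from `p` is unipotent. -/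
  unipotent : ∀ l : ℕ, l.Prime → l ≠ p → l ∣ S.M0 → l ∉ S.T → ∀ V : ValuationSubring LL,
    V.LiesOverPrime l → ∀ σ ∈ V.inertiaSubgroupIn ℚ,
      trGL (ρ σ) = 2 ∧ detGL (ρ σ) = 1 ∧
        ((ρ σ : Matrix (Fin 2) (Fin 2) R) - 1) ^ 2 = 0
  inertia_T_untwisted : ∀ t ∈ S.T, ∀ V : ValuationSubring LL, V.LiesOverPrime t →
    ∀ σ ∈ V.inertiaSubgroupIn ℚ, act false (trGL (ρ σ)) = 2 ∧ detGL (ρ σ) = 1
  inertia_T_twisted : ∀ (t : ℕ) (ht : t ∈ S.T), ∀ V : ValuationSubring LL,
    V.LiesOverPrime t → ∀ σ ∈ V.inertiaSubgroupIn ℚ, ∀ c : (ZMod t)ˣ,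
      (∀ ζ : LL, ζ ^ t = 1 → σ ζ = ζ ^ (c : ZMod t).val) →
      (act true (trGL (ρ σ)) -
        algebraMap O (Module.End X.Coef (M true))
          (((S.χ t ht c) ^ ((p + 1) / 2) : Oˣ) +
            (((S.χ t ht c) ^ ((p + 1) / 2))⁻¹ : Oˣ))) ^ inertiaExp = 0
  inertia_Q : ∀ (q : ℕ) (hq : q ∈ X.Q), ∀ V : ValuationSubring LL,
    V.LiesOverPrime q → ∀ σ ∈ V.inertiaSubgroupIn ℚ, ∀ c : (ZMod q)ˣ,
      (∀ ζ : LL, ζ ^ q = 1 → σ ζ = ζ ^ (c : ZMod q).val) → ∀ e : Bool,
      (act e (trGL (ρ σ)) -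
        ((MonoidAlgebra.of O X.Dia (X.halfAt q hq c) +
          MonoidAlgebra.of O X.Dia (X.halfAt q hq c)⁻¹ : X.Coef) •
            (1 : Module.End X.Coef (M e)))) ^ inertiaExp = 0
  /-- The traces come from forms on `Γ₀`. -/
  hecke : ∃ π : CuspForm.heckeAlgebra X.bigLevel 2 (↑X.badQ : Set ℕ) →+* R,
    ∀ (l : ℕ) (hl : l.Prime) (hlM : ¬ l ∣ X.bigLevel) (hlb : l ∉ (↑X.badQ : Set ℕ)),
      ∀ V : ValuationSubring LL, V.LiesOverPrime l → ∀ σ : GG, V.IsFrobeniusAt σ l →
        π (CuspForm.heckeAlgebra.T hl hlM hlb) = trGL (ρ σ)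
  /-- The two modules agree modulo the maximal ideal of `O`. -/
  congr : (M false ⧸ (maximalIdeal O • ⊤ : Submodule O (M false))) ≃ₗ[O]
    (M true ⧸ (maximalIdeal O • ⊤ : Submodule O (M true)))
  congr_act : ∀ (t : R) (x : M false) (y : M true),
    congr (Submodule.Quotient.mk x) = Submodule.Quotient.mk y →
      congr (Submodule.Quotient.mk (act false t x)) = Submodule.Quotient.mk (act true t y)
  congr_smul : ∀ (a : X.Coef) (x : M false) (y : M true),
    congr (Submodule.Quotient.mk x) = Submodule.Quotient.mk y →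
      congr (Submodule.Quotient.mk (a • x)) = Submodule.Quotient.mk (a • y)
  /-- Finite pieces of the representation inside the torsion of a level prime to `p`, up to a
  twist unramified at `p`: the quadratic relation and faithfulness up to a fixed power of `p`. -/
  torsion : ∃ (M' : ℕ) (_ : NeZero M') (Z : Realisation p M') (s : ℕ), X.Allowed M' ∧ (¬ p ∣ S.M0 → ¬ p ∣ M') ∧
    ∀ n : ℕ, ∃ (W : Type) (_ : AddCommGroup W) (_ : Module R W) (_ : Finite W)
      (actW : GG →* Module.End R W),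
      (∀ w : W, p ^ n • w = 0) ∧
      (∀ (σ : GG) (w : W), actW σ (actW σ w) + detGL (ρ σ) • w = trGL (ρ σ) • actW σ w) ∧
      (∀ t : R, (∀ w : W, t • w = 0) → t ∈ Ideal.span {(p : R) ^ (n - s)}) ∧
      ∃ (d : ℕ)
        (j : W →+ (Fin d → PeriodHecke.Hpar (CongruenceSubgroup.Gamma1 M') (ZMod (p ^ n))))
        (tw : GG →* AddMonoid.End
          (Fin d → PeriodHecke.Hpar (CongruenceSubgroup.Gamma1 M') (ZMod (p ^ n)))),
        Function.Injective j ∧
        (∀ σ : GG, (∀ ζ : LL, ζ ^ M' = 1 → σ ζ = ζ) → tw σ = 1) ∧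
        (∀ V : ValuationSubring LL, V.LiesOverPrime p →
          ∀ σ ∈ V.inertiaSubgroupIn ℚ, tw σ = 1) ∧
        (∀ σ τ : GG, ∀ f, tw σ (fun i => (Z.gt n).act τ (f i)) =
          fun i => (Z.gt n).act τ (tw σ f i)) ∧
        ∀ (σ : GG) (w : W), j (actW σ w) = tw σ fun i => (Z.gt n).act σ (j w i)

attribute [instance] LevelData.addCommGroup LevelData.moduleCoef LevelData.moduleBase
  LevelData.tower LevelData.smulComm LevelData.commRing LevelData.algebra LevelData.isLocalRing

/-- All levels, with the comparison to the level without auxiliary primes. -/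
structure Output (S : Setup p O) where
  base : LevelData (Aux.empty S)
  base_nontrivial : Nontrivial (base.M false)
  /-- The untwisted module of the base comes from forms on `Γ₀(M0)`. -/
  base_forms : ∃ f : CuspForm.heckeAlgebra S.M0 2 (↑S.bad : Set ℕ) →+*
      Module.End (Aux.empty S).Coef (base.M false),
    ∀ (l : ℕ) (hl : l.Prime) (hlM : ¬ l ∣ S.M0) (hlb : l ∉ (↑S.bad : Set ℕ)),
      ∀ V : ValuationSubring LL, V.LiesOverPrime l → ∀ σ : GG, V.IsFrobeniusAt σ l →
        f (CuspForm.heckeAlgebra.T hl hlM hlb) = base.act false (trGL (base.ρ σ))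
  level : ∀ X : Aux S, Geometry X → LevelData X
  res : ∀ X hX, (level X hX).R →ₐ[O] base.R
  res_trace : ∀ X hX σ, res X hX (trGL ((level X hX).ρ σ)) = trGL (base.ρ σ)
  coinv : ∀ X hX e, (level X hX).M e →ₗ[O] base.M e
  coinv_surjective : ∀ X hX e, Function.Surjective (coinv X hX e)
  coinv_eq_zero_iff : ∀ X hX e x, coinv X hX e x = 0 ↔
    x ∈ (RingHom.ker X.aug • ⊤ : Submodule X.Coef ((level X hX).M e))
  coinv_act : ∀ X hX e t x,
    coinv X hX e ((level X hX).act e t x) = base.act e (res X hX t) (coinv X hX e x)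
  coinv_congr : ∀ X hX (x : (level X hX).M false) (y : (level X hX).M true),
    (level X hX).congr (Submodule.Quotient.mk x) = Submodule.Quotient.mk y →
      base.congr (Submodule.Quotient.mk (coinv X hX false x)) =
        Submodule.Quotient.mk (coinv X hX true y)

/-- The statement of the package of modules. -/
def TargetModules : Prop :=
  ∀ (p : ℕ) [Fact p.Prime] (O : Type) [CommRing O] [IsDomain O] [IsDiscreteValuationRing O]
    [Algebra ℤ_[p] O] [Module.Finite ℤ_[p] O] [CharZero O] (S : Setup p O),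
    Geometry (Aux.empty S) → Nonempty (Output S)

end FLTAgent.ModLift
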