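import Fermat.Agent.ModLift.Modules.Spans
import Fermat.Agent.ModLift.Modules.Interface
import Fermat.Agent.Ordinary.Main
import Fermat.Prelude.Thm_IsLocalRing_isAdicComplete_of_module_finite

/-!
# Ordinarity of the representations of the levels

When `p` divides the level once and the residual representation has a line with unramified quotient
on inertia at `p`, so does the representation of every level: the identity
`(ρ σ - det ρ σ) (ρ τ - 1) = 0` holds on inertia.
-/

set_option autoImplicit false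
set_option linter.unusedSectionVars false
set_option linter.style.haveILetI false

noncomputable section

set_option synthInstance.maxHeartbeats 400000
set_option maxHeartbeats 1000000

open IsLocalRing Polynomial

namespace FLTAgent.ModLift

open FLTAgent.Lowering

local notation "QA" => AlgebraicClosure ℚ
local notation "GG" => (AlgebraicClosure ℚ ≃ₐ[ℚ] AlgebraicClosure ℚ)
local notation "M2" => Matrix (Fin 2) (Fin 2)

/-! ### Matrices of size two -/

section Matrices

variable {A : Type*} [CommRing A]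

theorem mul_self_fin_two (m : M2 A) : m * m = m.trace • m - m.det • 1 := by
  ext i j
  fin_cases i <;> fin_cases j <;>
    simp [Matrix.mul_apply, Fin.sum_univ_two, Matrix.trace_fin_two, Matrix.det_fin_two] <;> ring

theorem det_one_add_fin_two (m : M2 A) : (1 + m).det = 1 + m.trace + m.det := by
  simp [Matrix.det_fin_two, Matrix.trace_fin_two]; ring

/-- A projector of trace one compresses by the trace. -/
theorem projector_compress {Q : M2 A} (hQ : Q * Q = Q) (htr : Q.trace = 1) (m : M2 A) :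
    Q.det = 0 ∧ Q * m * Q = (Q * m).trace • Q := by
  have h := mul_self_fin_two Q
  rw [hQ, htr, one_smul] at h
  have hdet : Q.det = 0 := by
    have h1 := congrFun (congrFun h 0) 0
    simp at h1
    linear_combination h1
  refine ⟨hdet, ?_⟩
  rw [Matrix.det_fin_two] at hdet
  ext i j
  fin_cases i <;> fin_cases j <;>
    simp [Matrix.mul_apply, Fin.sum_univ_two, Matrix.trace_fin_two] <;>
    first
      | linear_combination -(m 1 1) * hdet
      | linear_combination (m 0 1) * hdet
      | linear_combination (m 1 0) * hdet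
      | linear_combination -(m 0 0) * hdet

/-- **From one element to all.** -/
theorem identities_of_one {G : Type*} [Monoid G] (r : G →* M2 A) (I : Set G) {e : G} (he : e ∈ I)
    (hu : IsUnit (r e)) (hd : IsUnit ((r e).det - 1))
    (h : ∀ τ ∈ I, (r e - (r e).det • 1) * (r τ - 1) = 0) :
    ∀ σ ∈ I, ∀ τ ∈ I, (r σ - (r σ).det • 1) * (r τ - 1) = 0 := by
  set m := r e
  set d := m.det
  have htr : m.trace = 1 + d := by
    have h1 := h e he
    rw [sub_mul, mul_sub, mul_one, Matrix.smul_mul, one_mul, mul_self_fin_two] at h1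
    have h2 : (m.trace - (1 + d)) • m = 0 := by
      rw [← h1]
      simp only [sub_smul, add_smul, one_smul, smul_sub]
      module
    obtain ⟨n, hn⟩ := hu.exists_right_inv
    have h3 := congrArg (· * n) h2
    rw [Matrix.smul_mul, hn, zero_mul] at h3
    have h4 := congrFun (congrFun h3 0) 0
    simp at h4
    linear_combination h4
  obtain ⟨u, hu'⟩ := hd.exists_right_inv
  set Q := u • (m - 1)
  have hQ1 : Q = 1 + u • (m - d • 1) := by
    have h1 : (u * (d - 1)) • (1 : M2 A) = 1 := by rw [mul_comm, hu', one_smul]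
    show u • (m - 1) = _
    rw [show u • (m - 1) = (u * (d - 1)) • (1 : M2 A) + u • (m - d • 1) by module, h1]
  have hfix : ∀ τ ∈ I, Q * (r τ - 1) = r τ - 1 := fun τ hτ => by
    rw [hQ1, add_mul, one_mul, Matrix.smul_mul, h τ hτ, smul_zero, add_zero]
  have hQ : Q * Q = Q := by
    have h1 := hfix e he
    show Q * (u • (m - 1)) = u • (m - 1)
    rw [Matrix.mul_smul, h1]
  have hQt : Q.trace = 1 := by
    show (u • (m - 1)).trace = 1
    rw [Matrix.trace_smul, Matrix.trace_sub, htr, Matrix.trace_one, Fintype.card_fin, smul_eq_mul]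
    push_cast
    linear_combination hu'
  obtain ⟨hQd, -⟩ := projector_compress hQ hQt m
  intro σ hσ τ hτ
  set N := r σ - 1 with hN
  have hQN : Q * N = N := hfix σ hσ
  have hdet : (r σ).det = 1 + N.trace := by
    rw [show r σ = 1 + N by rw [hN, add_sub_cancel], det_one_add_fin_two,
      show N.det = 0 by rw [← hQN, Matrix.det_mul, hQd, zero_mul], add_zero]
  have hNQ : N * Q = N.trace • Q := by
    conv_lhs => rw [← hQN]
    rw [(projector_compress hQ hQt N).2, hQN]
  have h1 : (r σ - (r σ).det • 1) * Q = 0 := by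
    rw [show r σ = 1 + N by rw [hN, add_sub_cancel],
      show (1 + N).det = 1 + N.trace by rw [hN, add_sub_cancel, hdet],
      sub_mul, add_mul, one_mul, hNQ, Matrix.smul_mul, one_mul, add_smul, one_smul, sub_self]
  rw [← hfix τ hτ, ← mul_assoc, h1, zero_mul]

/-- A family with unipotent quotient on a common line satisfies the identities. -/
theorem identities_of_line {k : Type*} [Field k] (a b : M2 k) (v : Fin 2 → k)
    (ha : ∀ w, ∃ c : k, a.mulVec w = w + c • v) (hb : ∀ w, ∃ c : k, b.mulVec w = w + c • v) :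
    a.trace = 1 + a.det ∧ (a - a.det • 1) * (b - 1) = 0 := by
  have hcol : ∀ m : M2 k, (∀ w, ∃ c : k, m.mulVec w = w + c • v) →
      ∃ c : Fin 2 → k, m = 1 + Matrix.vecMulVec v c := by
    intro m hm
    choose c hc using fun j => hm (Pi.single j 1)
    refine ⟨c, ?_⟩
    ext i j
    have h1 := congrFun (hc j) i
    rw [Matrix.mulVec_single_one] at h1
    simp only [Matrix.col_apply, Pi.add_apply, Pi.smul_apply, smul_eq_mul] at h1
    rw [h1, Matrix.add_apply, Matrix.vecMulVec_apply]
    simp [Pi.single_apply, Matrix.one_apply, mul_comm]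
  obtain ⟨c, rfl⟩ := hcol a ha
  obtain ⟨c', rfl⟩ := hcol b hb
  have hd : (1 + Matrix.vecMulVec v c).det = 1 + (v 0 * c 0 + v 1 * c 1) := by
    simp [Matrix.det_fin_two, Matrix.vecMulVec_apply]; ring
  refine ⟨?_, ?_⟩
  · rw [hd]
    simp [Matrix.trace_fin_two, Matrix.vecMulVec_apply]; ring
  · rw [hd, add_sub_cancel_left]
    ext i j
    fin_cases i <;> fin_cases j <;>
      simp [Matrix.mul_apply, Fin.sum_univ_two, Matrix.vecMulVec_apply] <;> ring

end Matrices

/-! ### The levels -/

variable {p : ℕ} [Fact p.Prime] {O : Type} [CommRing O] [IsDomain O] [IsDiscreteValuationRing O]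
  [Algebra ℤ_[p] O] [Module.Finite ℤ_[p] O] {S : Setup p O}

theorem Setup.span_rb :
    Submodule.span (ResidueField O) (Set.range ((Units.coeHom _).comp S.rb)) = ⊤ :=
  span_of_commutator S.rb S.rb_big

/-- `p` occurs once in the level of the forms. -/
theorem Aux.bigLevel_eq (X : Aux S) (hp : p ∣ S.M0) :
    ∃ M, X.bigLevel = M * p ∧ ¬ p ∣ M := by
  have hpp : p.Prime := Fact.out
  obtain ⟨a, ha⟩ := hp
  have hout : ∀ r ∈ S.T ∪ X.Q, r.Prime ∧ r ≠ p := fun r hr => by
    rcases Finset.mem_union.1 hr with h | h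
    · obtain ⟨hr', -, hd⟩ := S.T_prime r h
      refine ⟨hr', fun e => ?_⟩
      rw [e] at hd
      have := Nat.le_of_dvd (Nat.sub_pos_of_lt hpp.one_lt) hd
      have := hpp.one_lt
      omega
    · exact ⟨X.prime r h, fun e => X.notMem r h (e ▸ S.p_mem)⟩
  refine ⟨a * (∏ q ∈ X.Q, q) * ∏ r ∈ S.T ∪ X.Q, r, ?_, fun h => ?_⟩
  · show S.M0 * _ * _ = _
    rw [ha]; ring
  · rcases hpp.dvd_mul.1 h with h | h
    · rcases hpp.dvd_mul.1 h with h | h
      · have h2 : p * p ∣ S.M0 := ha ▸ mul_dvd_mul_left p h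
        exact hpp.not_isUnit (S.M0_squarefree p h2)
      · obtain ⟨q, hq, hqd⟩ := (hpp.prime.dvd_finsetProd_iff _).1 h
        exact (hout q (Finset.mem_union_right _ hq)).2
          ((Nat.prime_dvd_prime_iff_eq hpp (X.prime q hq)).1 hqd).symm
    · obtain ⟨q, hq, hqd⟩ := (hpp.prime.dvd_finsetProd_iff _).1 h
      exact (hout q hq).2 ((Nat.prime_dvd_prime_iff_eq hpp (hout q hq).1).1 hqd).symm

/-- The primes of the level of the forms are omitted. -/
theorem Aux.mem_badQ_of_dvd_bigLevel (X : Aux S) {q : ℕ} (hq : q.Prime) (hd : q ∣ X.bigLevel) :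
    q ∈ X.badQ := by
  have hQ : ∀ r ∈ X.Q, q ∣ r → q ∈ X.badQ := fun r hr h =>
    Finset.mem_union_right _ ((Nat.prime_dvd_prime_iff_eq hq (X.prime r hr)).1 h ▸ hr)
  rcases hq.dvd_mul.1 hd with h | h
  · rcases hq.dvd_mul.1 h with h | h
    · exact Finset.mem_union_left _ (S.level_mem q hq h)
    · obtain ⟨r, hr, hrd⟩ := (hq.prime.dvd_finsetProd_iff _).1 h
      exact hQ r hr hrd
  · obtain ⟨r, hr, hrd⟩ := (hq.prime.dvd_finsetProd_iff _).1 h
    rcases Finset.mem_union.1 hr with hr | hr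
    · obtain ⟨hr', hrM, -⟩ := S.T_prime r hr
      exact Finset.mem_union_left _ (S.level_mem q hq (hrd.trans hrM))
    · exact hQ r hr hrd

namespace LevelData

variable {X : Aux S} (D : LevelData X)

theorem natCast_mem : (p : D.R) ∈ maximalIdeal D.R := by
  rw [← red_eq_zero D.red, map_natCast]
  exact residue_natCast_eq_zero p O

theorem isAdicComplete : IsAdicComplete (maximalIdeal D.R) D.R := by
  letI : Algebra ℤ_[p] D.R := ((algebraMap O D.R).comp (algebraMap ℤ_[p] O)).toAlgebra
  haveI : IsScalarTower ℤ_[p] O D.R := IsScalarTower.of_algebraMap_eq fun _ => rfl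
  haveI := D.finite_R
  haveI : Module.Finite ℤ_[p] D.R := Module.Finite.trans O D.R
  haveI : IsLocalHom (algebraMap ℤ_[p] D.R) := ⟨fun x hx => by
    by_contra hne
    have hm : x ∈ maximalIdeal ℤ_[p] := hne
    rw [PadicInt.maximalIdeal_eq_span_p, Ideal.mem_span_singleton] at hm
    obtain ⟨z, rfl⟩ := hm
    rw [map_mul, map_natCast] at hx
    exact (mem_maximalIdeal _).1 D.natCast_mem (isUnit_of_mul_isUnit_left hx)⟩
  exact IsLocalRing.isAdicComplete_of_module_finite (𝒪 := ℤ_[p])

theorem det_frobenius {l : ℕ} (hl : l.Prime) (hlp : l ≠ p) {V : ValuationSubring QA}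
    (hV : V.LiesOverPrime l) {τ : GG} (hτ : V.IsFrobeniusAt τ l) :
    detGL (D.ρ τ) = (l : D.R) := by
  haveI := D.isAdicComplete
  rw [← sub_eq_zero]
  refine IsHausdorff.haus (I := maximalIdeal D.R) inferInstance _ fun n => ?_
  rw [SModEq.zero, smul_eq_mul, Ideal.mul_top]
  have h := D.det_cyclotomic n τ l
    (DetCyclo.cycloExponent_frobenius (p := p) hl hlp hV hτ n)
  refine (Ideal.span_singleton_le_iff_mem _).2 ?_ h
  exact Ideal.pow_mem_pow D.natCast_mem n

/-- **Ordinarity.** -/
theorem ordinary (hp : p ∣ S.M0) {A : ValuationSubring QA} (hA : A.LiesOverPrime p)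
    (hord : ∃ v : Fin 2 → ResidueField O, ∀ σ ∈ A.inertiaSubgroupIn ℚ, ∀ w,
      ∃ c : ResidueField O, (S.rb σ : M2 (ResidueField O)).mulVec w = w + c • v) :
    ∀ σ ∈ A.inertiaSubgroupIn ℚ, ∀ τ ∈ A.inertiaSubgroupIn ℚ,
      ((D.ρ σ : M2 D.R) - detGL (D.ρ σ) • 1) * ((D.ρ τ : M2 D.R) - 1) = 0 := by
  haveI := D.isAdicComplete
  have hpp : p.Prime := Fact.out
  haveI : NeZero p := ⟨hpp.ne_zero⟩
  have hp3 : 3 ≤ p := by have := hpp.two_le; have := S.p_ne; omega
  let r : GG →* M2 D.R := (Units.coeHom _).comp D.ρ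
  show ∀ σ ∈ A.inertiaSubgroupIn ℚ, ∀ τ ∈ A.inertiaSubgroupIn ℚ,
    (r σ - (r σ).det • 1) * (r τ - 1) = 0
  obtain ⟨hspan, P, hP, hPeq⟩ := exists_residual_conj D.red ((Units.coeHom _).comp S.rb)
    S.span_rb r D.residual
  have hcts : Deformation.MatCts r := fun n => by
    obtain ⟨L, hL, h⟩ := D.continuous n
    refine ⟨L, hL, fun σ hσ i j => ?_⟩
    refine (Ideal.span_singleton_le_iff_mem _).2 (Ideal.pow_mem_pow D.natCast_mem n) ?_
    rw [Matrix.sub_apply]
    exact h σ hσ i j
  have hdet : ∀ g, D.red (r g).det = (S.rb g : M2 (ResidueField O)).det := fun g => by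
    have h1 := congrArg Matrix.det (hPeq g)
    rw [Matrix.det_mul, Matrix.det_mul, mul_comm] at h1
    exact ((((Matrix.isUnit_iff_isUnit_det _).1 hP).mul_left_injective h1).trans
      (RingHom.map_det D.red.toRingHom (r g)).symm).symm
  obtain ⟨v, hv⟩ := hord
  have hres := fun σ hσ τ hτ => identities_of_line _ _ v (hv σ hσ) (hv τ hτ)
  have htrace : ∀ σ ∈ A.inertiaSubgroupIn ℚ, (r σ).trace - 1 - (r σ).det ∈ maximalIdeal D.R := by
    intro σ hσ
    rw [← red_eq_zero D.red, map_sub, map_sub, map_one, hdet, show D.red (r σ).trace =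
      trGL (S.rb σ) from D.residual σ]
    show (S.rb σ : M2 (ResidueField O)).trace - 1 - _ = 0
    rw [(hres σ hσ σ hσ).1]; ring
  have hid : ∀ σ ∈ A.inertiaSubgroupIn ℚ, ∀ τ ∈ A.inertiaSubgroupIn ℚ, ∀ i j,
      ((r σ - (r σ).det • 1) * (r τ - 1)) i j ∈ maximalIdeal D.R := by
    intro σ hσ τ hτ i j
    rw [← red_eq_zero D.red]
    let f := D.red.toRingHom.mapMatrix (m := Fin 2)
    show (f ((r σ - (r σ).det • 1) * (r τ - 1))) i j = 0
    have hmap : f ((r σ - (r σ).det • 1) * (r τ - 1)) =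
        ((r σ).map D.red - D.red (r σ).det • 1) * ((r τ).map D.red - 1) := by
      rw [map_mul, map_sub, map_sub, map_one]
      congr 2
      ext a b
      simp [f, Matrix.one_apply, apply_ite D.red]
    have h0 : f ((r σ - (r σ).det • 1) * (r τ - 1)) * P = 0 := by
      have h1 : ∀ (g : GG) (c : ResidueField O), ((r g).map D.red - c • 1) * P =
          P * ((S.rb g : M2 (ResidueField O)) - c • 1) := fun g c => by
        rw [sub_mul, mul_sub, Matrix.smul_mul, one_mul, Matrix.mul_smul, mul_one, ← hPeq]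
        rfl
      have h2 := h1 τ 1
      rw [one_smul] at h2
      rw [hmap, hdet, mul_assoc, h2, ← mul_assoc, h1, mul_assoc, (hres σ hσ τ hτ).2, mul_zero]
    rw [(hP.mul_left_eq_zero).1 h0]
    rfl
  obtain ⟨M, hM, hpM⟩ := X.bigLevel_eq hp
  obtain ⟨π, hπ⟩ := D.hecke
  have hlevel := fun q (hq : Nat.Prime q) (hd : q ∣ X.bigLevel) => X.mem_badQ_of_dvd_bigLevel hq hd
  have hchar : ∀ (l : ℕ) (hl : l.Prime) (hlN : ¬ l ∣ X.bigLevel)
      (hlS : l ∉ (↑X.badQ : Set ℕ)), ∀ V : ValuationSubring QA, V.LiesOverPrime l →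
      ∀ τ : GG, V.IsFrobeniusAt τ l → (r τ).charpoly =
        Polynomial.X ^ 2 - C (π (CuspForm.heckeAlgebra.T hl hlN hlS)) * Polynomial.X + C ((l : D.R)) := by
    intro l hl hlN hlS V hV τ hτ
    have hlp : l ≠ p := fun e => hlS (Finset.mem_coe.2 (Finset.mem_union_left _ (e ▸ S.p_mem)))
    rw [Matrix.charpoly_fin_two, hπ l hl hlN hlS V hV τ hτ, ← D.det_frobenius hl hlp hV hτ]
    rfl
  have hpS : p ∈ X.badQ := Finset.mem_union_left _ S.p_mem
  -- the form of the statement at a level `M p`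
  have key : ∀ (N : ℕ) [NeZero N], N = M * p → ∀ (B : Finset ℕ) (π : Ordinary.HS N B →+* D.R),
      p ∈ B → (∀ q : ℕ, q.Prime → q ∣ N → q ∈ B) →
      (∀ (l : ℕ) (hl : l.Prime) (hlN : ¬ l ∣ N) (hlS : l ∉ (↑B : Set ℕ)),
        ∀ V : ValuationSubring QA, V.LiesOverPrime l → ∀ τ : GG, V.IsFrobeniusAt τ l →
          (r τ).charpoly =
            Polynomial.X ^ 2 - C (π (CuspForm.heckeAlgebra.T hl hlN hlS)) * Polynomial.X + C ((l : D.R))) →
      ∃ σ₀ ∈ A.inertiaSubgroupIn ℚ, IsUnit ((r σ₀).det - 1) ∧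
        ∀ τ ∈ A.inertiaSubgroupIn ℚ, (r σ₀ - (r σ₀).det • 1) * (r τ - 1) = 0 := by
    intro N _ hN B π' hpB hNB hch
    subst hN
    haveI : IsAlgClosed (ResidueField A) := FrobTrace.isAlgClosed_residueField A
    haveI : CharP (ResidueField A) p := FrobTrace.charP_residueField hA
    obtain ⟨ζ, hζ⟩ := Reducible.exists_primitiveRoot p
    obtain ⟨σ₀, hσ₀, hmove⟩ := Ordinary.exists_inertia_move_odd hp3 hA hζ
    obtain ⟨a, ha, hσζ⟩ := hζ.eq_pow_of_pow_eq_one (ξ := σ₀ ζ)
      (by rw [← map_pow, hζ.pow_eq_one, map_one])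
    refine ⟨σ₀, hσ₀, ?_⟩
    haveI : NeZero M := ⟨fun e => NeZero.ne (M * p) (by rw [e, zero_mul])⟩
    by_cases h52 : 5 ≤ p ∨ 2 ∣ M
    · haveI := Specialization.isFunctionField_full (ResidueField A) M rfl
        (BadRed.natCast_ne_zero hpM (ResidueField A))
      exact Ordinary.ordinary_identities D.natCast_mem hA hpM hp3
        (Ordinary.smooth_level_odd hA hpM hp3 h52) hpB hNB π' r hcts hch hspan htrace hid
        hσ₀ hζ ha hσζ.symm hmove
    · haveI : NeZero (M * 2) := ⟨Nat.mul_ne_zero (NeZero.ne M) two_ne_zero⟩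
      haveI : NeZero (M * 2 * p) := ⟨Nat.mul_ne_zero (NeZero.ne _) (NeZero.ne p)⟩
      have hdvd : M * p ∣ M * 2 * p := ⟨2, by ring⟩
      have hNS' : ∀ q : ℕ, q.Prime → q ∣ M * 2 * p → q ∈ insert 2 B := by
        intro q hq hd
        rw [mul_right_comm] at hd
        rcases hq.dvd_mul.1 hd with h | h
        · exact Finset.mem_insert_of_mem (hNB q hq h)
        · rw [(Nat.prime_dvd_prime_iff_eq hq Nat.prime_two).1 h]; exact Finset.mem_insert_self _ _
      obtain ⟨f, hf⟩ := Ordinary.exists_levelHom (N := M * p) (ℓ := 2) (N' := M * 2 * p)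
        (mul_right_comm _ _ _) Nat.prime_two (S := B) (Finset.subset_insert 2 B) hNS'
      have hpM2 : ¬ p ∣ M * 2 := fun h => (hpp.dvd_mul.1 h).elim hpM fun h2 => by
        have := Nat.le_of_dvd two_pos h2; omega
      haveI := Specialization.isFunctionField_full (ResidueField A) (M * 2) rfl
        (BadRed.natCast_ne_zero hpM2 (ResidueField A))
      refine Ordinary.ordinary_identities D.natCast_mem hA hpM2 hp3
        (Ordinary.smooth_level_odd hA hpM2 hp3 (Or.inr (dvd_mul_left 2 M)))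
        (Finset.mem_insert_of_mem hpB) hNS' (π'.comp f) r hcts ?_ hspan htrace hid
        hσ₀ hζ ha hσζ.symm hmove
      intro l hl hlN hlS V hV τ hτ
      have h1 : ¬ l ∣ M * p := fun h => hlN (h.trans hdvd)
      have h2 : l ∉ (↑B : Set ℕ) := fun h => hlS (Finset.mem_insert_of_mem h)
      rw [RingHom.comp_apply, hf l hl hlN hlS h1 h2]
      exact hch l hl h1 h2 V hV τ hτ
  obtain ⟨σ₀, hσ₀, hu, hone⟩ := key X.bigLevel hM X.badQ π hpS hlevel hchar
  exact identities_of_one r (A.inertiaSubgroupIn ℚ : Set GG) hσ₀ (D.ρ σ₀).isUnit hu hone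

end LevelData

end FLTAgent.ModLift
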