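import Fermat.Agent.ModLift.Modules.Coefficient
import Fermat.Agent.Deformation.MatrixLifts
import Fermat.Agent.Deformation.Burnside

/-!
# Residual spanning

The residual representation spans all matrices, and so does, residually, every representation with
the same traces.
-/

set_option autoImplicit false
set_option linter.style.haveILetI false

noncomputable section

open IsLocalRing FLTAgent.Deformation

namespace FLTAgent.ModLift

open FLTAgent.Lowering

local notation "GG" => (AlgebraicClosure ℚ ≃ₐ[ℚ] AlgebraicClosure ℚ)
local notation "M2" => Matrix (Fin 2) (Fin 2)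

variable {k : Type} [Field k]

/-- A representation with a commutator of trace different from two spans all matrices. -/
theorem span_of_commutator {G : Type} [Group G] (r : G →* GL (Fin 2) k)
    (hbig : ∃ g h : G, trGL (r (g * h * g⁻¹ * h⁻¹)) ≠ 2) :
    Submodule.span k (Set.range fun g => (r g : M2 k)) = ⊤ := by
  let K := AlgebraicClosure k
  let ψ := algebraMap k K
  let rM : G →* M2 k := (Units.coeHom _).comp r
  let rK : G →* M2 K := ψ.mapMatrix.toMonoidHom.comp rM
  show Submodule.span k (Set.range rM) = ⊤
  refine span_eq_top_of_map_span_eq_top ψ _ ?_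
  rw [← Set.range_comp]
  refine span_range_eq_top_of_movesEveryLine rK fun v hv => ?_
  by_contra h
  push Not at h
  choose c hc using fun g => h (rK g) ⟨g, rfl⟩
  have hmul : ∀ g g', c (g * g') = c g * c g' := fun g g' => by
    have h1 := hc (g * g')
    rw [map_mul, ← Matrix.mulVec_mulVec, hc g', Matrix.mulVec_smul, hc g, smul_smul] at h1
    exact (smul_left_injective K hv (h1.trans rfl)).symm.trans (mul_comm _ _)
  have hone : c 1 = 1 := smul_left_injective K hv (show c 1 • v = (1 : K) • v by
    rw [← hc 1, map_one, Matrix.one_mulVec, one_smul])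
  let cH : G →* K := { toFun := c, map_one' := hone, map_mul' := hmul }
  obtain ⟨g, g', hgh⟩ := hbig
  set x := g * g' * g⁻¹ * g'⁻¹ with hx
  have hcx : c x = 1 := by
    show cH x = 1
    rw [hx, map_mul, map_mul, map_mul, mul_assoc (cH g) (cH g'), mul_comm (cH g'), ← mul_assoc,
      ← map_mul, mul_inv_cancel, map_one, one_mul, ← map_mul, mul_inv_cancel, map_one]
  have hdetx : (rK x).det = 1 := by
    let dH : G →* Kˣ := (Units.map ψ.toMonoidHom).comp (Matrix.GeneralLinearGroup.det.comp r)
    have h1 : dH x = 1 := by
      rw [hx, map_mul, map_mul, map_mul, map_inv, map_inv, mul_comm (dH g) (dH g'),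
        mul_inv_cancel_right, mul_inv_cancel]
    have h2 := congrArg (fun u : Kˣ => (u : K)) h1
    simp only [Units.val_one] at h2
    rw [← h2]
    show (ψ.mapMatrix (rM x)).det = _
    rw [← RingHom.map_det]
    rfl
  have hdet1 : (rK x - 1).det = 0 := Matrix.exists_mulVec_eq_zero_iff.1
    ⟨v, hv, by rw [Matrix.sub_mulVec, hc, hcx, one_smul, Matrix.one_mulVec, sub_self]⟩
  have htr : (rK x).trace = 2 := by
    rw [Matrix.det_fin_two] at hdet1 hdetx
    simp only [Matrix.sub_apply, Matrix.one_apply_eq, Matrix.one_apply_ne (show (0 : Fin 2) ≠ 1 by decide),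
      Matrix.one_apply_ne (show (1 : Fin 2) ≠ 0 by decide), sub_zero] at hdet1
    rw [Matrix.trace_fin_two]
    linear_combination -hdet1 + hdetx
  refine hgh (ψ.injective ?_)
  rw [map_ofNat, ← htr]
  show ψ (Matrix.trace (rM x)) = _
  simp [rK, Matrix.trace_fin_two]

/-- Spanning, in terms of the residues of a field. -/
theorem spansResidue_of_span {G : Type} [Group G] (r : G →* M2 k)
    (h : Submodule.span k (Set.range r) = ⊤) : SpansResidue r := by
  rw [SpansResidue, eq_top_iff]
  intro y _
  choose Y hY using fun i j => residue_surjective (R := k) (y i j)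
  have hspan := h ▸ (Submodule.mem_top (x := Matrix.of Y))
  rw [Finsupp.mem_span_range_iff_exists_finsupp] at hspan
  obtain ⟨c, hc⟩ := hspan
  have key : y = c.sum fun g a => residue _ a • (r g).map (residue _) := by
    ext i j
    rw [← hY i j, ← Matrix.of_apply Y i j, ← hc]
    simp [Finsupp.sum, Matrix.sum_apply, map_sum]
  rw [key]
  exact Submodule.sum_mem _ fun g _ =>
    Submodule.smul_mem _ _ (Submodule.subset_span ⟨g, rfl⟩)

variable {O : Type} [CommRing O] [IsLocalRing O] {R : Type} [CommRing R] [Algebra O R]
  [IsLocalRing R] (red : R →ₐ[O] ResidueField O)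

omit [IsLocalRing R] in
theorem red_surj : Function.Surjective red := fun x => by
  obtain ⟨a, rfl⟩ := residue_surjective x
  exact ⟨algebraMap O R a, red.commutes a⟩

theorem red_eq_zero (x : R) : red x = 0 ↔ x ∈ maximalIdeal R := by
  have h : RingHom.ker red = maximalIdeal R :=
    IsLocalRing.eq_maximalIdeal (RingHom.ker_isMaximal_of_surjective red.toRingHom (red_surj red))
  rw [← h, RingHom.mem_ker]

/-- A representation with the traces of a spanning residual one: it is residually conjugate to it,
and spans residually. -/
theorem exists_residual_conj {G : Type} [Group G] (rb : G →* M2 (ResidueField O))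
    (hrb : Submodule.span (ResidueField O) (Set.range rb) = ⊤) (r : G →* M2 R)
    (htr : ∀ g, red (r g).trace = (rb g).trace) :
    SpansResidue r ∧ ∃ P : M2 (ResidueField O), IsUnit P ∧
      ∀ g, P * rb g = (r g).map red * P := by
  let r' : G →* M2 (ResidueField O) := red.toRingHom.mapMatrix.toMonoidHom.comp r
  obtain ⟨P, hP, hPeq⟩ := exists_conj_of_trace_eq' rb r' (spansResidue_of_span rb hrb) fun g => by
    rw [← htr]
    exact AddMonoidHom.map_trace red.toRingHom.toAddMonoidHom (r g)
  refine ⟨?_, P, hP, hPeq⟩
  rw [SpansResidue, eq_top_iff]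
  intro y _
  choose Y hY using fun i j => residue_surjective (R := R) (y i j)
  obtain ⟨u, rfl⟩ := hP
  have hspan : ∀ z : M2 (ResidueField O), z ∈ Submodule.span (ResidueField O) (Set.range r') := by
    intro z
    have hz : (↑u⁻¹ : M2 (ResidueField O)) * z * u ∈
        Submodule.span (ResidueField O) (Set.range rb) := hrb ▸ trivial
    have h1 := Submodule.mem_map_of_mem (f := (LinearMap.mulLeft (ResidueField O)
      (u : M2 (ResidueField O))).comp (LinearMap.mulRight (ResidueField O)
        (↑u⁻¹ : M2 (ResidueField O)))) hz
    rw [Submodule.map_span, ← Set.range_comp] at h1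
    have h2 : ((LinearMap.mulLeft (ResidueField O) (u : M2 (ResidueField O))).comp
        (LinearMap.mulRight (ResidueField O) (↑u⁻¹ : M2 (ResidueField O)))) ∘ rb = r' := by
      funext g
      show (u : M2 (ResidueField O)) * (rb g * ↑u⁻¹) = r' g
      rw [← mul_assoc, hPeq, Units.mul_inv_cancel_right]
    rw [h2] at h1
    simpa [mul_assoc] using h1
  have hspan' := hspan (Matrix.of fun i j => red (Y i j))
  rw [Finsupp.mem_span_range_iff_exists_finsupp] at hspan'
  obtain ⟨c, hc⟩ := hspan'
  choose C hC using fun g => red_surj red (c g)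
  have key : y = c.sum fun g _ => residue R (C g) • (r g).map (residue R) := by
    ext i j
    rw [← hY i j, Finsupp.sum, Matrix.sum_apply]
    simp only [Matrix.smul_apply, Matrix.map_apply, smul_eq_mul, ← map_mul, ← map_sum]
    rw [← sub_eq_zero, ← map_sub, residue_eq_zero_iff, ← red_eq_zero red, map_sub, sub_eq_zero]
    have h1 := congrFun (congrFun hc i) j
    rw [Finsupp.sum, Matrix.sum_apply] at h1
    rw [map_sum]
    exact h1.symm.trans (Finset.sum_congr rfl fun g _ => by
      rw [map_mul, hC, Matrix.smul_apply, smul_eq_mul]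
      rfl)
  rw [key]
  exact Submodule.sum_mem _ fun g _ =>
    Submodule.smul_mem _ _ (Submodule.subset_span ⟨g, rfl⟩)

end FLTAgent.ModLift
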