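import Fermat.Agent.Lowering.P4.ParabolicHecke

/-!
# Hecke operators at primes congruent to one on parabolic elements, exactly

For `5 ≤ M` and a prime `l ≡ 1` modulo `M`, the operator `T_l` on homomorphisms of `Γ₁(M)`
multiplies the value at every element of trace square at most four by `l + 1`, with no factor.
-/

set_option autoImplicit false

noncomputable section

open CongruenceSubgroup
open scoped MatrixGroups

namespace FLTAgent.ModLift

open FLTAgent.PeriodHecke FLTAgent.DeligneSerre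
open FLTAgent.Lowering (cuspRep cuspRep_inj exists_heckeRep1 conj_cast upper_cast parConj
  coe_parConj_zpow)

local notation "M2" => Matrix (Fin 2) (Fin 2) ℤ
local notation "SL2Z" => Matrix.SpecialLinearGroup (Fin 2) ℤ

variable {M l : ℕ} [Fact l.Prime]

theorem eq_one_add_of_trace (hM : 5 ≤ M) (γ : Gamma1 M) (hγ : (mat γ).trace ^ 2 ≤ 4) :
    (mat γ).trace = 2 := by
  obtain ⟨h00, h11, -⟩ := (Gamma1_mem M _).mp γ.2
  have h : (((mat γ).trace - 2 : ℤ) : ZMod M) = 0 := by
    rw [Matrix.trace_fin_two]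
    push_cast
    rw [show ((mat γ 0 0 : ℤ) : ZMod M) = 1 from h00, show ((mat γ 1 1 : ℤ) : ZMod M) = 1 from h11]
    norm_num
  rw [ZMod.intCast_zmod_eq_zero_iff_dvd] at h
  have h1 : -2 ≤ (mat γ).trace := by nlinarith
  have h2 : (mat γ).trace ≤ 2 := by nlinarith
  by_contra hne
  have h3 := Int.le_of_dvd (a := (M : ℤ)) (b := 2 - (mat γ).trace) (by omega)
    (by obtain ⟨c, hc⟩ := h; exact ⟨-c, by linear_combination -hc⟩)
  have hM' : (5 : ℤ) ≤ M := by exact_mod_cast hM
  omega

variable [NeZero M] {A : Type*} [AddCommGroup A]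

/-- `T_l` on a conjugate of a translation lying in `Γ₁(M)`. -/
theorem hecke_conj_translation (hl : ¬ l ∣ M) (h1 : (l : ZMod M) = 1) (g : SL2Z) (b : ℤ)
    (γ : Gamma1 M) (hγ : (γ : SL2Z) = g * ModularGroup.T ^ b * g⁻¹)
    (φ : Additive (Gamma1 M) →+ A) :
    (heckeFam1 hl).hecke φ (Additive.ofMul γ) = (l + 1) • φ (Additive.ofMul γ) := by
  classical
  set F := heckeFam1 hl
  have hB : ∀ x : Option (ZMod l), (cuspRep M g x).det = (l : ℤ) ∧
      (cuspRep M g x).map (Int.cast : ℤ → ZMod M) = 1 := by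
    intro x
    rcases x with _ | j
    · exact ⟨by simp [cuspRep, Matrix.det_mul, Matrix.det_fin_two_of, Matrix.det_adjugate],
        conj_cast g (upper_cast (by simpa using h1) Int.cast_zero Int.cast_one)⟩
    · exact ⟨by simp [cuspRep, Matrix.det_mul, Matrix.det_fin_two_of, Matrix.det_adjugate],
        conj_cast g (upper_cast Int.cast_one (by simp) (by simpa using h1))⟩
  choose ι δ hδ using fun x => exists_heckeRep1 hl h1 (hB x).1 (hB x).2
  have hbij : Function.Bijective ι := by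
    rw [Fintype.bijective_iff_injective_and_card]
    refine ⟨fun x y hxy => ?_, ?_⟩
    · refine cuspRep_inj hl g (((δ y * (δ x)⁻¹ : Gamma1 M) : SL2Z)) x y ?_
      show mat (δ y * (δ x)⁻¹) * cuspRep M g x = _
      rw [hδ x, hδ y, show ι x = ι y from hxy, ← mul_assoc, ← mat_mul, inv_mul_cancel_right]
    · refine (Fintype.card_congr ⟨fun i => i.1, fun o => ⟨o, fun _ => hl⟩, fun i => rfl,
        fun o => rfl⟩).symm
  obtain ⟨e, he⟩ : (M : ℤ) ∣ (l : ℤ) - 1 := by
    rw [← ZMod.intCast_zmod_eq_zero_iff_dvd]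
    push_cast
    rw [h1, sub_self]
  -- the translation exponent `b + M * (w x).2`
  let w : Option (ZMod l) → Option (ZMod l) × ℤ
    | none => (none, b * e)
    | some j => (some ((((j.val : ℤ) - b * e : ℤ)) : ZMod l), ((j.val : ℤ) - b * e) / (l : ℤ))
  have hmatγ : mat γ = (g : M2) * !![1, b; 0, 1] * ((g⁻¹ : SL2Z) : M2) := by
    rw [mat, hγ, Matrix.SpecialLinearGroup.coe_mul, Matrix.SpecialLinearGroup.coe_mul,
      ModularGroup.coe_T_zpow]
  have hfold : ∀ X Y : M2, (g : M2) * X * ((g⁻¹ : SL2Z) : M2) * ((g : M2) * Y * ((g⁻¹ : SL2Z) : M2)) =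
      (g : M2) * (X * Y) * ((g⁻¹ : SL2Z) : M2) := fun X Y => by
    have hgg : ((g⁻¹ : SL2Z) : M2) * (g : M2) = 1 := by
      rw [← Matrix.SpecialLinearGroup.coe_mul, inv_mul_cancel, Matrix.SpecialLinearGroup.coe_one]
    rw [show (g : M2) * X * ((g⁻¹ : SL2Z) : M2) * ((g : M2) * Y * ((g⁻¹ : SL2Z) : M2)) =
      (g : M2) * (X * (((g⁻¹ : SL2Z) : M2) * (g : M2)) * Y) * ((g⁻¹ : SL2Z) : M2) by
      simp only [mul_assoc], hgg, mul_one]
  have hw : ∀ x, cuspRep M g x * mat γ =
      mat (γ * parConj M g ^ (w x).2) * cuspRep M g (w x).1 := by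
    intro x
    rw [mat_mul, hmatγ, coe_parConj_zpow]
    rcases x with _ | j
    · simp only [w, cuspRep, hfold]
      congr 2
      ext a c
      fin_cases a <;> fin_cases c <;> simp [Matrix.mul_apply, Fin.sum_univ_two]
      linear_combination b * he
    · simp only [w, cuspRep, hfold]
      congr 2
      ext a c
      fin_cases a <;> fin_cases c <;>
        simp [Matrix.mul_apply, Fin.sum_univ_two, -ZMod.natCast_val]
      · rw [show ((j.val : ZMod l) - (b : ZMod l) * (e : ZMod l)) =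
          (((j.val : ℤ) - b * e : ℤ) : ZMod l) by push_cast; rfl, ZMod.val_intCast]
        have := Int.emod_add_ediv_mul ((j.val : ℤ) - b * e) (l : ℤ)
        linear_combination -(M : ℤ) * this - b * he
  have hkey : ∀ x, F.next γ (ι x) = ι (w x).1 ∧
      F.coc γ (ι x) = (δ x)⁻¹ * (γ * parConj M g ^ (w x).2) * δ (w x).1 := fun x => by
    refine F.eq_of_rel ?_
    show heckeRep1 hl (ι x) * _ = _ * heckeRep1 hl (ι (w x).1)
    rw [mat_mul, mat_mul, mul_assoc (mat (δ x)⁻¹ * _), ← hδ, mul_assoc (mat (δ x)⁻¹),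
      ← hw, hδ x, mul_assoc (mat (δ x)) (heckeRep1 hl (ι x)), ← mul_assoc (mat (δ x)⁻¹), ← mat_mul,
      inv_mul_cancel, mat_one, one_mul]
  have hperm : Function.Bijective fun x => (w x).1 := by
    have hinj : Function.Injective fun x => (w x).1 := by
      intro x y hxy
      refine hbij.1 ((F.perm γ).injective ?_)
      rw [HeckeFamily.perm_apply, HeckeFamily.perm_apply, (hkey x).1, (hkey y).1]
      exact congrArg ι hxy
    exact Finite.injective_iff_bijective.mp hinj
  have hsum : (∑ x, (w x).2) = 0 := by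
    have hl0 : (l : ℤ) ≠ 0 := Int.natCast_ne_zero.mpr (Fact.out : l.Prime).ne_zero
    rw [Fintype.sum_option]
    show b * e + ∑ j : ZMod l, ((j.val : ℤ) - b * e) / (l : ℤ) = 0
    suffices h : ∑ j : ZMod l, ((j.val : ℤ) - b * e) / (l : ℤ) = -(b * e) by rw [h, add_neg_cancel]
    refine mul_left_cancel₀ hl0 ?_
    rw [Finset.mul_sum]
    have h2 : ∀ j : ZMod l, (l : ℤ) * (((j.val : ℤ) - b * e) / l) =
        (j.val : ℤ) - b * e - (((((j.val : ℤ) - b * e : ℤ)) : ZMod l).val : ℤ) := fun j => by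
      rw [ZMod.val_intCast]
      linear_combination Int.emod_add_ediv_mul ((j.val : ℤ) - b * e) (l : ℤ)
    have hp : ∑ j : ZMod l, (((((j.val : ℤ) - b * e : ℤ)) : ZMod l).val : ℤ) =
        ∑ j : ZMod l, (j.val : ℤ) := by
      rw [← Equiv.sum_comp (Equiv.subRight (((b * e : ℤ) : ZMod l))) (fun j : ZMod l => (j.val : ℤ))]
      refine Finset.sum_congr rfl fun j _ => ?_
      simp
    rw [Finset.sum_congr rfl fun j _ => h2 j, Finset.sum_sub_distrib, hp, Finset.sum_sub_distrib,
      Finset.sum_const, Finset.card_univ, ZMod.card, nsmul_eq_mul]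
    ring
  rw [HeckeFamily.hecke_apply, ← hbij.sum_comp, Finset.sum_congr rfl fun x _ => by rw [(hkey x).2]]
  simp only [ofMul_mul, map_add, ofMul_inv, map_neg, ofMul_zpow, map_zsmul, Finset.sum_add_distrib,
    Finset.sum_neg_distrib]
  rw [hperm.sum_comp (fun x => φ (Additive.ofMul (δ x))), ← Finset.sum_smul, hsum, zero_smul,
    add_zero, Finset.sum_const, Finset.card_univ, Fintype.card_option, ZMod.card]
  abel

/-- `T_l` on values at parabolic and elliptic elements, with no factor. -/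
theorem hecke_parabolic_exact (hM : 5 ≤ M) (hl : ¬ l ∣ M) (h1 : (l : ZMod M) = 1)
    (φ : Additive (Gamma1 M) →+ A) (γ : Gamma1 M) (hγ : (mat γ).trace ^ 2 ≤ 4) :
    (heckeFam1 hl).hecke φ (Additive.ofMul γ) - (l + 1) • φ (Additive.ofMul γ) = 0 := by
  have ht : ((γ : SL2Z) : M2).trace = 2 := eq_one_add_of_trace hM γ hγ
  obtain ⟨g, hg⟩ := ES.exists_conj_upper (γ := (γ : SL2Z)) (by rw [ht]; norm_num)
  set U := g⁻¹ * (γ : SL2Z) * g with hU
  have htr : ((U : SL2Z) : M2).trace = 2 := by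
    rw [hU, Matrix.SpecialLinearGroup.coe_mul, Matrix.SpecialLinearGroup.coe_mul,
      Matrix.trace_mul_comm, ← mul_assoc, ← Matrix.SpecialLinearGroup.coe_mul, mul_inv_cancel,
      Matrix.SpecialLinearGroup.coe_one, one_mul, ht]
  have hd := U.2
  rw [Matrix.det_fin_two, hg, mul_zero, sub_zero] at hd
  rw [Matrix.trace_fin_two] at htr
  have h00 : (U : M2) 0 0 = 1 := by
    have : ((U : M2) 0 0 - 1) ^ 2 = 0 := by linear_combination -hd + (U : M2) 0 0 * htr
    exact sub_eq_zero.mp (pow_eq_zero_iff two_ne_zero |>.mp this)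
  have hUT : U = ModularGroup.T ^ ((U : M2) 0 1) := Subtype.ext (by
    rw [ModularGroup.coe_T_zpow]
    ext i j
    fin_cases i <;> fin_cases j
    · exact h00
    · rfl
    · exact hg
    · show (U : M2) 1 1 = 1
      linarith)
  rw [hecke_conj_translation hl h1 g ((U : M2) 0 1) γ (by rw [← hUT, hU]; group) φ, sub_self]

end FLTAgent.ModLift
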