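import Fermat.Agent.Lowering.P4.Class

/-!
# Lifting of twisted cocycles without inverting three

For a subgroup of the modular group containing `-1`, twisted cocycles lift along surjections of
coefficients in which two is invertible as soon as there is a weight on the cosets adding up to one
on each orbit of the element of order three: this holds if three is invertible, and also if this
element fixes no coset, for instance for `Γ₀(M)` when `X² - X + 1` has no root modulo `M`.
-/

set_option autoImplicit false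

noncomputable section

open CongruenceSubgroup
open scoped MatrixGroups

namespace FLTAgent.ModLift

open FLTAgent.Lowering FLTAgent.Lowering.Cocycle

local notation "SL2Z" => Matrix.SpecialLinearGroup (Fin 2) ℤ
local notation "S'" => (ModularGroup.S : SL2Z)
local notation "T'" => (ModularGroup.T : SL2Z)
local notation "U'" => ((ModularGroup.T * ModularGroup.S : SL2Z))

/-- A function on the cosets adding up to one on the orbits of `T S`. -/
def IsEllWeight (Γ : Subgroup SL2Z) {A : Type*} [CommRing A] (e : SL2Z → A) : Prop :=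
  (∀ (h : Γ) (x : SL2Z), e (h * x) = e x) ∧ ∀ x, e x + e (x * U') + e (x * U' * U') = 1

theorem isEllWeight_of_isUnit (Γ : Subgroup SL2Z) {A : Type*} [CommRing A] (h3 : IsUnit (3 : A)) :
    ∃ e : SL2Z → A, IsEllWeight Γ e := by
  obtain ⟨u, hu⟩ := h3.exists_left_inv
  exact ⟨fun _ => u, fun _ _ => rfl, fun _ => by linear_combination hu⟩

theorem isEllWeight_of_forall_notMem {Γ : Subgroup SL2Z} (hneg : (-1 : SL2Z) ∈ Γ)
    (hfix : ∀ x : SL2Z, x * U' * x⁻¹ ∉ Γ) (A : Type*) [CommRing A] :
    ∃ e : SL2Z → A, IsEllWeight Γ e := by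
  classical
  let cl : SL2Z → Quotient (QuotientGroup.rightRel Γ) := Quotient.mk _
  letI : LinearOrder (Quotient (QuotientGroup.rightRel Γ)) :=
    linearOrderOfSTO WellOrderingRel
  have hcl : ∀ x y : SL2Z, cl x = cl y ↔ y * x⁻¹ ∈ Γ := fun x y =>
    Quotient.eq.trans QuotientGroup.rightRel_apply
  have hcube : U' * U' * U' = -1 := by decide
  have hper : ∀ x : SL2Z, cl (x * U' * U' * U') = cl x := fun x => by
    refine ((hcl _ _).mpr ?_).symm
    rw [mul_assoc (x * U'), mul_assoc x, ← mul_assoc U', hcube]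
    simpa using hneg
  have hne : ∀ x : SL2Z, cl x ≠ cl (x * U') := fun x h => hfix x ((hcl _ _).mp h)
  refine ⟨fun x => if cl x < cl (x * U') ∧ cl x < cl (x * U' * U') then 1 else 0, fun h x => ?_,
    fun x => ?_⟩
  · have e : ∀ y : SL2Z, cl ((h : SL2Z) * y) = cl y := fun y => by
      refine ((hcl _ _).mpr ?_).symm
      simp [mul_assoc]
    simp only [mul_assoc (h : SL2Z), e]
  · have h4 : cl (x * U' * U' * U') = cl x := hper x
    have h5 : cl (x * U' * U' * U' * U') = cl (x * U') := by
      rw [← hper (x * U')]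
    have n1 := hne x
    have n2 := hne (x * U')
    have n3 : cl (x * U' * U') ≠ cl x := fun h => hne (x * U' * U') (h.trans h4.symm)
    simp only [h4, h5]
    rcases lt_or_gt_of_ne n1 with a | a <;> rcases lt_or_gt_of_ne n2 with b | b <;>
      rcases lt_or_gt_of_ne n3 with c | c <;>
      simp [a, b, c, a.not_gt, b.not_gt, c.not_gt]
    all_goals order

theorem notMem_gamma0_of_forall_ne {M : ℕ} (hM : ∀ a : ZMod M, a ^ 2 - a + 1 ≠ 0) (x : SL2Z) :
    x * U' * x⁻¹ ∉ Gamma0 M := by
  intro h
  set g := x * U' * x⁻¹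
  have hdet := Matrix.det_fin_two g.1
  rw [g.det_coe] at hdet
  have htr : g.1 0 0 + g.1 1 1 = 1 := by
    have h1 : Matrix.trace g.1 = 1 := by
      show Matrix.trace (x.1 * (U' : SL2Z).1 * (x⁻¹ : SL2Z).1) = 1
      rw [Matrix.trace_mul_comm, ← Matrix.mul_assoc, ← Matrix.SpecialLinearGroup.coe_mul,
        inv_mul_cancel, Matrix.SpecialLinearGroup.coe_one, Matrix.one_mul]
      decide
    rwa [Matrix.trace_fin_two] at h1
  have h10 : ((g.1 1 0 : ℤ) : ZMod M) = 0 := Gamma0_mem.mp h
  refine hM (g.1 0 0 : ℤ) ?_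
  have h2 := congrArg (Int.cast : ℤ → ZMod M) hdet
  have h3 := congrArg (Int.cast : ℤ → ZMod M) htr
  push_cast at h2 h3
  rw [h10, mul_zero, sub_zero] at h2
  linear_combination h2 + ((g.1 0 0 : ℤ) : ZMod M) * h3

theorem forall_ne_of_prime_dvd {M r : ℕ} (hr : r.Prime) (hrM : r ∣ M) (h3 : r % 3 = 2) :
    ∀ a : ZMod M, a ^ 2 - a + 1 ≠ 0 := by
  intro a ha
  haveI := Fact.mk hr
  have h := congrArg (ZMod.castHom hrM (ZMod r)) ha
  simp only [map_add, map_sub, map_pow, map_one, map_zero] at h
  generalize ZMod.castHom hrM (ZMod r) a = b at h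
  have hb : b ≠ 0 := by rintro rfl; norm_num at h
  have h6 : b ^ 6 = 1 := by linear_combination (b ^ 4 + b ^ 3 - b - 1) * h
  have hord : orderOf (Units.mk0 b hb) ∣ Nat.gcd 6 (r - 1) :=
    Nat.dvd_gcd (orderOf_dvd_of_pow_eq_one (Units.ext (by simpa using h6)))
      (ZMod.orderOf_units_dvd_card_sub_one _)
  have h3' : ¬ 3 ∣ r - 1 := by omega
  have hg : Nat.gcd 6 (r - 1) ∣ 2 := by
    have hcop : Nat.Coprime (Nat.gcd 6 (r - 1)) 3 :=
      Nat.Coprime.symm ((Nat.prime_three.coprime_iff_not_dvd).mpr
        fun h' => h3' (h'.trans (Nat.gcd_dvd_right _ _)))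
    exact hcop.dvd_of_dvd_mul_right (show Nat.gcd 6 (r - 1) ∣ 2 * 3 from Nat.gcd_dvd_left 6 (r - 1))
  have hb2 : b ^ 2 = 1 := by
    have := congrArg Units.val (orderOf_dvd_iff_pow_eq_one.mp (hord.trans hg))
    simpa using this
  have hb' : b = 2 := by linear_combination hb2 - h
  subst hb'
  have h30 : ((3 : ℕ) : ZMod r) = 0 := by push_cast; linear_combination h
  rw [ZMod.natCast_eq_zero_iff] at h30
  have := (Nat.prime_dvd_prime_iff_eq hr Nat.prime_three).mp h30
  omega

variable {Γ : Subgroup SL2Z} {A : Type*} [CommRing A] {ψ : Γ →* A}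
  {N N' : Type*} [AddCommGroup N] [Module A N] [AddCommGroup N'] [Module A N']
variable (hneg : (-1 : SL2Z) ∈ Γ) (hψ : ψ ⟨-1, hneg⟩ = 1)

include hψ

/-- **Twisted cocycles lift along surjections of coefficients.** -/
theorem mapZ1_surjective_of_weight (h2 : IsUnit (2 : A)) {e : SL2Z → A} (he : IsEllWeight Γ e)
    (f : N →ₗ[A] N') (hf : Function.Surjective f) : Function.Surjective (mapZ1 ψ f) := by
  intro c
  obtain ⟨s, hs⟩ := hf.hasRightInverse
  let fC : Coind ψ N → Coind ψ N' := fun F => ⟨fun x => f (F.1 x), fun h x => by simp [F.2 h x]⟩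
  let liftC : Coind ψ N' → Coind ψ N := fun F =>
    ⟨fun x => ψ (part Γ x) • s (F.1 (rep Γ x)), fun h x => by
      simp only [part_mul, rep_mul, map_mul, mul_smul]⟩
  have hlift : ∀ F, fC (liftC F) = F := fun F => Subtype.ext (funext fun x => by
    show f (ψ (part Γ x) • s (F.1 (rep Γ x))) = F.1 x
    rw [map_smul, hs, ← F.2, part_mul_rep])
  -- the two elliptic values
  have hsq : S' * S' = -1 := by decide
  have hcube : U' * U' * U' = -1 := by decide
  obtain ⟨u2, hu2⟩ := h2.exists_left_inv
  let mulC : Coind ψ N → Coind ψ N := fun F =>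
    ⟨fun x => e x • F.1 x, fun h x => by
      show e _ • F.1 _ = ψ h • (e x • F.1 x)
      rw [he.1 h x, F.2 h x, smul_comm]⟩
  have hf_smul : ∀ (a : A) F, fC (a • F) = a • fC F := fun a F =>
    Subtype.ext (funext fun x => f.map_smul a _)
  have hf_sub : ∀ F G, fC (F - G) = fC F - fC G := fun F G =>
    Subtype.ext (funext fun x => f.map_sub _ _)
  have hf_add : ∀ F G, fC (F + G) = fC F + fC G := fun F G =>
    Subtype.ext (funext fun x => f.map_add _ _)
  have hf_trans : ∀ p F, fC (trans p F) = trans p (fC F) := fun p F => rfl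
  set FS := liftC (ext c S') with hFS
  set a₀ := u2 • (FS - trans S' FS) with ha₀
  have haS : a₀ + trans S' a₀ = 0 := by
    rw [ha₀, map_smul, map_sub, trans_trans, hsq, trans_neg hneg hψ]
    module
  have hfa : fC a₀ = ext c S' := by
    have h := ext_mul c S' S'
    rw [hsq, ext_neg hneg hψ h2] at h
    rw [ha₀, hf_smul, hf_sub, hf_trans, hlift, show trans S' (ext c S') = -ext c S' from
      eq_neg_of_add_eq_zero_right h.symm, sub_neg_eq_add, ← two_smul A, smul_smul, hu2, one_smul]
  set FU := liftC (ext c U') with hFU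
  set b₀ := FU - mulC (FU + trans U' FU + trans (U' * U') FU) with hb₀
  have hnm : ∀ (p : SL2Z) (F : Coind ψ N), trans (-1 * p) F = trans p F := fun p F => by
    rw [← trans_trans, trans_neg hneg hψ]
  have hbU : b₀ + trans U' b₀ + trans (U' * U') b₀ = 0 := by
    have e1 : trans U' (trans (U' * U') FU) = FU := by
      rw [trans_trans, ← mul_assoc, hcube, trans_neg hneg hψ]
    have e2 : trans (U' * U') (trans U' FU) = FU := by
      rw [trans_trans, hcube, trans_neg hneg hψ]
    have e3 : trans (U' * U') (trans (U' * U') FU) = trans U' FU := by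
      rw [trans_trans, ← mul_assoc, hcube, hnm]
    have e4 : trans U' (trans U' FU) = trans (U' * U') FU := trans_trans _ _ _
    set T0 := FU + trans U' FU + trans (U' * U') FU with hT0
    have hTU : ∀ x, T0.1 (x * U') = T0.1 x ∧ T0.1 (x * (U' * U')) = T0.1 x := by
      have e5 : trans U' T0 = T0 := by rw [hT0, map_add, map_add, e4, e1]; abel
      have e6 : trans (U' * U') T0 = T0 := by rw [← trans_trans, e5, e5]
      exact fun x => ⟨congrFun (congrArg Subtype.val e5) x, congrFun (congrArg Subtype.val e6) x⟩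
    have hmul3 : mulC T0 + trans U' (mulC T0) + trans (U' * U') (mulC T0) = T0 := by
      refine Subtype.ext (funext fun x => ?_)
      show e x • T0.1 x + e (x * U') • T0.1 (x * U') + e (x * (U' * U')) • T0.1 (x * (U' * U')) = T0.1 x
      rw [(hTU x).1, (hTU x).2, ← add_smul, ← add_smul, ← mul_assoc x U' U', he.2 x, one_smul]
    have hsum : b₀ + trans U' b₀ + trans (U' * U') b₀ = T0 -
        (mulC T0 + trans U' (mulC T0) + trans (U' * U') (mulC T0)) := by
      rw [hb₀, map_sub, map_sub, hT0]; abel
    rw [hsum, hmul3, sub_self]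
  have hfb : fC b₀ = ext c U' := by
    have h := ext_mul c (U' * U') U'
    rw [hcube, ext_neg hneg hψ h2, ext_mul] at h
    have hz : fC (FU + trans U' FU + trans (U' * U') FU) = 0 := by
      rw [hf_add, hf_add, hf_trans, hf_trans, hlift, ← h]
    have hm : fC (mulC (FU + trans U' FU + trans (U' * U') FU)) = 0 := Subtype.ext (funext fun x => by
      show f (e x • _) = 0
      rw [map_smul]
      show e x • (fC (FU + trans U' FU + trans (U' * U') FU)).1 x = 0
      rw [hz]; exact smul_zero _)
    rw [hb₀, hf_sub, hm, hlift, sub_zero]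
  -- the affine action
  let aff (p : SL2Z) (v : Coind ψ N) : Coind ψ N → Coind ψ N := fun F => v + trans p F
  have ha : Function.Involutive (aff S' a₀) := fun F => by
    simp only [aff, map_add, trans_trans, hsq, trans_neg hneg hψ]
    rw [← add_assoc, haS, zero_add]
  have hb3 : ∀ F, aff U' b₀ (aff U' b₀ (aff U' b₀ F)) = F := fun F => by
    simp only [aff, map_add, trans_trans]
    rw [show U' * (U' * U') = U' * U' * U' from (mul_assoc _ _ _).symm, hcube,
      trans_neg hneg hψ, ← add_assoc, ← add_assoc, hbU, zero_add]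
  let b : Equiv.Perm (Coind ψ N) :=
    ⟨aff U' b₀, fun F => aff U' b₀ (aff U' b₀ F), hb3, hb3⟩
  obtain ⟨φ, hφS, hφU, -⟩ := exists_hom_of_elliptic (a := ha.toPerm _) (b := b)
    (Equiv.ext fun F => by rw [sq]; exact ha F)
    (Equiv.ext fun F => by rw [pow_succ, sq]; exact hb3 F)
  set C : SL2Z → Coind ψ N := fun p => φ p 0 with hC
  have haffine : ∀ p, (∀ F, φ p F = C p + trans p F) ∧ fC (C p) = ext c p := by
    have hmul : ∀ p q, ((∀ F, φ p F = C p + trans p F) ∧ fC (C p) = ext c p) →
        ((∀ F, φ q F = C q + trans q F) ∧ fC (C q) = ext c q) →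
        (∀ F, φ (p * q) F = C (p * q) + trans (p * q) F) ∧
          fC (C (p * q)) = ext c (p * q) := by
      intro p q hp hq
      have hpq : C (p * q) = C p + trans p (C q) := by
        simp only [hC, map_mul, Equiv.Perm.mul_apply]
        rw [hp.1 (φ q 0)]
      refine ⟨fun F => ?_, ?_⟩
      · rw [map_mul, Equiv.Perm.mul_apply, hp.1, hq.1, map_add, trans_trans, hpq, add_assoc]
      · rw [hpq, hf_add, hf_trans, hp.2, hq.2, ext_mul]
    have hone : (∀ F, φ 1 F = C 1 + trans 1 F) ∧ fC (C 1) = ext c 1 := by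
      refine ⟨fun F => by simp [hC, trans_one], Subtype.ext (funext fun x => ?_)⟩
      show f ((φ 1 0 : Coind ψ N).1 x) = pot c (x * 1) - pot c x
      simp
    refine ES.smul_generators_induction
      (P := fun p => (∀ F, φ p F = C p + trans p F) ∧ fC (C p) = ext c p) ?_ ?_ hone hmul ?_
    · have hCS : C S' = a₀ := by
        simp [hC, hφS, Function.Involutive.toPerm, aff]
      refine ⟨fun F => ?_, by rw [hCS, hfa]⟩
      rw [hCS, hφS]
      rfl
    · have hU : (∀ F, φ U' F = C U' + trans U' F) ∧ fC (C U') = ext c U' := by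
        have hCU : C U' = b₀ := by simp [hC, hφU, b, aff]
        refine ⟨fun F => ?_, by rw [hCU, hfb]⟩
        rw [hCU, hφU]
        rfl
      have hS : (∀ F, φ S' F = C S' + trans S' F) ∧ fC (C S') = ext c S' := by
        have hCS : C S' = a₀ := by
          simp [hC, hφS, Function.Involutive.toPerm, aff]
        refine ⟨fun F => ?_, by rw [hCS, hfa]⟩
        rw [hCS, hφS]
        rfl
      rw [show T' = U' * (S' * S' * S') from by decide]
      exact hmul _ _ hU (hmul _ _ (hmul _ _ hS hS) hS)
    · intro p hp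
      have hinv : ∀ F, φ p⁻¹ F = trans p⁻¹ (F - C p) := by
        intro F
        rw [map_inv, Equiv.Perm.inv_def, Equiv.symm_apply_eq, hp.1, trans_trans, mul_inv_cancel,
          trans_one, add_sub_cancel]
      refine ⟨fun F => ?_, ?_⟩
      · simp only [hC] at hinv ⊢
        rw [hinv, hinv, ← map_add]
        congr 1
        abel
      · show fC (φ p⁻¹ 0) = _
        have h0 : fC 0 = 0 := Subtype.ext (funext fun x => f.map_zero)
        rw [hinv, hf_trans, hf_sub, hp.2, h0, zero_sub, map_neg]
        have h := ext_mul c p⁻¹ p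
        rw [inv_mul_cancel] at h
        have h1 : ext c 1 = 0 := Subtype.ext (funext fun x => by simp [ext_apply])
        rw [h1] at h
        exact (eq_neg_of_add_eq_zero_left h.symm).symm
  refine ⟨⟨fun h => (C h).1 1, fun g h => ?_⟩, Subtype.ext (funext fun h => ?_)⟩
  · have h1 : C ((g * h : Γ) : SL2Z) = C g + trans (g : SL2Z) (C h) := by
      simp only [hC, Subgroup.coe_mul, map_mul, Equiv.Perm.mul_apply]
      exact (haffine g).1 _
    show (C ((g * h : Γ) : SL2Z)).1 1 = _
    rw [h1]
    show (C g).1 1 + (C h).1 (1 * (g : SL2Z)) = _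
    rw [show (1 : SL2Z) * g = g * 1 by simp, (C h).2]
  · show f ((C h).1 1) = c.1 h
    rw [← ext_coe c h, ← (haffine h).2]

theorem mapH1_surjective_of_weight (h2 : IsUnit (2 : A)) {e : SL2Z → A} (he : IsEllWeight Γ e)
    (f : N →ₗ[A] N') (hf : Function.Surjective f) : Function.Surjective (mapH1 (ψ := ψ) f) := by
  intro y
  induction y using Submodule.Quotient.induction_on with
  | H c =>
    obtain ⟨d, rfl⟩ := mapZ1_surjective_of_weight hneg hψ h2 he f hf c
    exact ⟨cls d, rfl⟩

end FLTAgent.ModLift
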