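import Fermat.Agent.Lowering.P4.BaseChange
import Fermat.Agent.Lowering.P4.Embedding
import Fermat.Agent.ModLift.Modules.CocycleLift
import Fermat.Agent.ModLift.Modules.ParabolicHecke

/-!
# Localised classes without inverting three

Liftability only needs two invertible and a weight on the orbits of the element of order three;
the anchor into parabolic homomorphisms needs no invertible factor when the level is at least five.
-/

set_option autoImplicit false
set_option linter.unusedSectionVars false
set_option linter.style.haveILetI false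

noncomputable section

set_option synthInstance.maxHeartbeats 400000
set_option maxHeartbeats 800000

open IsLocalRing CongruenceSubgroup
open scoped MatrixGroups

namespace FLTAgent.ModLift

open FLTAgent.Lowering FLTAgent.Lowering.Cocycle FLTAgent.PeriodHecke FLTAgent.DeligneSerre

local notation "SL2Z" => Matrix.SpecialLinearGroup (Fin 2) ℤ

/-- Classes on `Γ₀(M)` lift along surjections of coefficients. -/
def Liftable (M : ℕ) (A : Type) [CommRing A] : Prop :=
  IsUnit (2 : A) ∧ ∃ e : SL2Z → A, IsEllWeight (Gamma0 M) e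

section Localised

variable {M : ℕ} [NeZero M] {O : Type} [CommRing O] {A : Type} [CommRing A] [Algebra O A]
  (χ : ZMod M →* A) {bad : Finset ℕ} {k : Type} [Field k] (θ : Poly O bad →+* k)
  {N N' : Type} [AddCommGroup N] [Module A N] [AddCommGroup N'] [Module A N']

theorem mapLoc_surjective (hχ : χ (-1) = 1) (h6 : Liftable M A) (f : N →ₗ[A] N')
    (hf : Function.Surjective f) : Function.Surjective (mapLoc χ θ f) := by
  refine IsLocalizedModule.map_surjective _ _ _ _ fun y => ?_
  have hneg : (-1 : SL2Z) ∈ Gamma0 M := by simp [Gamma0_mem]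
  obtain ⟨h2, e, he⟩ := h6
  obtain ⟨x, hx⟩ := mapH1_surjective_of_weight hneg (psi_neg_one χ hχ hneg) h2 he f hf
    ((toCoh O χ bad N').symm y)
  exact ⟨toCoh O χ bad N x, hx⟩

end Localised

section Comparison

variable {M : ℕ} [NeZero M] {O : Type} [CommRing O] {A : Type} [CommRing A] [Algebra O A]
  {χ : ZMod M →* A} {bad : Finset ℕ} {k : Type} [Field k] {θ : Poly O bad →+* k}
  {ι : Type} [Fintype ι]
variable {N N' : Type} [AddCommGroup N] [Module A N] [AddCommGroup N'] [Module A N']
variable [IsLocalRing A] [IsNoetherianRing A] (hfinA : ∀ n : ℕ, Finite (A ⧸ maximalIdeal A ^ n))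
  (hχ : χ (-1) = 1) (h6 : Liftable M A) {l : GoodPrime bad} (hl : Separating χ θ l)
  (b : ι → Loc χ A θ)

include hfinA hχ h6 hl in
theorem comparison_bijective_of_finite
    (hb : Function.Bijective (comparison b (A ⧸ maximalIdeal A))) :
    ∀ (m : ℕ) (N : Type) [AddCommGroup N] [Module A N] [Finite N], Nat.card N ≤ m →
      Function.Bijective (comparison b N) := by
  intro m
  induction m with
  | zero =>
    intro N _ _ _ h
    exact absurd h (not_le.mpr Nat.card_pos)
  | succ m ih =>
    intro N _ _ _ hm
    classical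
    rcases subsingleton_or_nontrivial N with hN | hN
    · haveI : Subsingleton (Loc χ N θ) := by
        refine ⟨fun x y => ?_⟩
        rw [← mapLoc_id χ θ x, ← mapLoc_id χ θ y,
          show (LinearMap.id : N →ₗ[A] N) = (0 : A) • LinearMap.id from
            LinearMap.ext fun v => Subsingleton.elim _ _, mapLoc_lsmul, mapLoc_lsmul, zero_smul,
          zero_smul]
      exact ⟨Function.injective_of_subsingleton _, fun y => ⟨0, Subsingleton.elim _ _⟩⟩
    obtain ⟨x, hx, hkill⟩ := exists_socle (A := A) (N := N)
    let j : (A ⧸ maximalIdeal A) →ₗ[A] N :=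
      Submodule.liftQ (maximalIdeal A) (LinearMap.toSpanSingleton A N x) fun a ha => by
        simpa using hkill a ha
    have hj : Function.Injective j := by
      rw [← LinearMap.ker_eq_bot, LinearMap.ker_eq_bot']
      intro q hq
      obtain ⟨a, rfl⟩ := Submodule.Quotient.mk_surjective _ q
      rw [Submodule.Quotient.mk_eq_zero]
      by_contra ha
      refine hx ((not_not.mp fun hu => ha ((IsLocalRing.mem_maximalIdeal a).mpr hu) :
        IsUnit a).smul_eq_zero.mp ?_)
      exact (LinearMap.toSpanSingleton_apply A N x a).symm.trans hq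
    let π : N →ₗ[A] N ⧸ LinearMap.range j := (LinearMap.range j).mkQ
    haveI : Finite (N ⧸ LinearMap.range j) := Finite.of_surjective _ (Submodule.mkQ_surjective _)
    have hπ : Function.Surjective π := Submodule.mkQ_surjective _
    have hcard : Nat.card (N ⧸ LinearMap.range j) ≤ m := by
      have h1 := Submodule.card_eq_card_quotient_mul_card (LinearMap.range j)
      have h2 : 2 ≤ Nat.card (LinearMap.range j) := by
        haveI : Nontrivial (LinearMap.range j) :=
          ⟨⟨⟨x, ⟨Submodule.Quotient.mk 1, (LinearMap.toSpanSingleton_apply A N x 1).trans (one_smul A x)⟩⟩, 0, fun h => hx (congrArg Subtype.val h)⟩⟩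
        exact Finite.one_lt_card
      have h3 : 0 < Nat.card (N ⧸ LinearMap.range j) := Nat.card_pos
      nlinarith
    have hquot := ih _ hcard
    refine ⟨?_, fun y => ?_⟩
    · rw [← LinearMap.ker_eq_bot, LinearMap.ker_eq_bot']
      intro n hn
      have h1 : comparison b (N ⧸ LinearMap.range j) (π ∘ n) = 0 := by
        rw [← comparison_natural, hn, map_zero]
      have h2 := hquot.1 (h1.trans (map_zero _).symm)
      have h3 : ∀ i, ∃ q, j q = n i := fun i =>
        (Submodule.Quotient.mk_eq_zero _).mp (congrFun h2 i)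
      choose q hq using h3
      obtain rfl : j ∘ q = n := funext hq
      rw [← comparison_natural] at hn
      rw [hb.1 ((mapLoc_injective χ θ hl j hj (hn.trans (map_zero _).symm)).trans (map_zero _).symm)]
      exact funext fun i => map_zero j
    · obtain ⟨n', hn'⟩ := hquot.2 (mapLoc χ θ π y)
      choose n hn using fun i => hπ (n' i)
      have h1 : mapLoc χ θ π (y - comparison b N n) = 0 := by
        rw [map_sub, comparison_natural, show π ∘ n = n' from funext hn, hn', sub_self]
      obtain ⟨z, hz⟩ := mapLoc_exact χ θ π hπ h1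
      let e : LinearMap.ker π →ₗ[A] (A ⧸ maximalIdeal A) :=
        (LinearEquiv.ofInjective j hj).symm.toLinearMap ∘ₗ
          (LinearEquiv.ofEq _ _ (Submodule.ker_mkQ (LinearMap.range j))).toLinearMap
      have he : j ∘ₗ e = (LinearMap.ker π).subtype := LinearMap.ext fun w => by
        show j ((LinearEquiv.ofInjective j hj).symm _) = _
        exact congrArg Subtype.val ((LinearEquiv.ofInjective j hj).apply_symm_apply _)
      rw [← he, ← mapLoc_comp] at hz
      obtain ⟨q, hq⟩ := hb.2 (mapLoc χ θ e z)
      refine ⟨n + j ∘ q, ?_⟩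
      rw [map_add, ← comparison_natural, hq, hz, add_sub_cancel]

include hfinA hχ h6 hl in
theorem comparison_injective (hb : Function.Bijective (comparison b (A ⧸ maximalIdeal A)))
    [Module.Finite A N] : Function.Injective (comparison b N) := by
  rw [← LinearMap.ker_eq_bot, LinearMap.ker_eq_bot']
  intro n hn
  refine funext fun i => IsHausdorff.haus (inferInstance : IsHausdorff (maximalIdeal A) N) (n i)
    fun j => ?_
  set P : Submodule A N := maximalIdeal A ^ j • ⊤ with hP
  haveI : Finite (N ⧸ P) := by
    refine finite_of_pow_smul_eq_bot hfinA (n := j) ?_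
    rw [eq_bot_iff, Submodule.smul_le]
    intro a ha q _
    obtain ⟨q, rfl⟩ := Submodule.Quotient.mk_surjective _ q
    rw [Submodule.mem_bot, ← Submodule.Quotient.mk_smul, Submodule.Quotient.mk_eq_zero]
    exact Submodule.smul_mem_smul ha Submodule.mem_top
  have h := comparison_natural b P.mkQ n
  rw [hn, map_zero] at h
  have h2 := congrFun ((comparison_bijective_of_finite hfinA hχ h6 hl b hb _ _ le_rfl).1
    (h.symm.trans (map_zero _).symm)) i
  rw [SModEq.zero]
  exact (Submodule.Quotient.mk_eq_zero P).mp h2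

include hfinA hχ h6 hl in
theorem comparison_surjective (hb : Function.Bijective (comparison b (A ⧸ maximalIdeal A)))
    [Module.Finite A N] [Module.Finite A (Loc χ N θ)] :
    Function.Surjective (comparison b N) := by
  obtain ⟨d, x, hx⟩ := Submodule.fg_iff_exists_fin_generating_family.mp
    (IsNoetherian.noetherian (maximalIdeal A))
  set P : Submodule A N := maximalIdeal A • ⊤ with hP
  let g : (Fin d → N) →ₗ[A] N := ∑ i, x i • LinearMap.proj i
  have hg : LinearMap.range g = P := by
    refine le_antisymm ?_ ?_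
    · rintro _ ⟨v, rfl⟩
      simp only [g, LinearMap.coe_sum, Finset.sum_apply, LinearMap.smul_apply, LinearMap.proj_apply]
      exact Submodule.sum_mem _ fun i _ =>
        Submodule.smul_mem_smul (hx.le (Submodule.subset_span ⟨i, rfl⟩)) Submodule.mem_top
    · rw [hP, Submodule.smul_le]
      intro a ha v _
      rw [← hx, Submodule.mem_span_range_iff_exists_fun] at ha
      obtain ⟨c, rfl⟩ := ha
      refine ⟨fun i => c i • v, ?_⟩
      simp [g, Finset.sum_smul, smul_smul, mul_comm]
  haveI : Finite (N ⧸ P) := by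
    refine finite_of_pow_smul_eq_bot hfinA (n := 1) ?_
    rw [pow_one, eq_bot_iff, Submodule.smul_le]
    intro a ha q _
    obtain ⟨q, rfl⟩ := Submodule.Quotient.mk_surjective _ q
    rw [Submodule.mem_bot, ← Submodule.Quotient.mk_smul, Submodule.Quotient.mk_eq_zero]
    exact Submodule.smul_mem_smul ha Submodule.mem_top
  rw [← LinearMap.range_eq_top]
  refine top_le_iff.mp (Submodule.le_of_le_smul_of_le_jacobson_bot Module.Finite.fg_top
    (maximalIdeal_le_jacobson _) ?_)
  intro y _
  obtain ⟨n', hn'⟩ := (comparison_bijective_of_finite hfinA hχ h6 hl b hb _ _ le_rfl).2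
    (mapLoc χ θ P.mkQ y)
  choose n hn using fun i => P.mkQ_surjective (n' i)
  have h1 : mapLoc χ θ P.mkQ (y - comparison b N n) = 0 := by
    rw [map_sub, comparison_natural, show P.mkQ ∘ n = n' from funext hn, hn', sub_self]
  obtain ⟨z, hz⟩ := mapLoc_exact χ θ P.mkQ P.mkQ_surjective h1
  let g' : (Fin d → N) →ₗ[A] LinearMap.ker P.mkQ :=
    g.codRestrict _ fun v => by rw [Submodule.ker_mkQ, ← hg]; exact ⟨v, rfl⟩
  have hg' : Function.Surjective g' := fun w => by
    obtain ⟨v, hv⟩ := hg.ge (by simpa using w.2 : (w : N) ∈ P)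
    exact ⟨v, Subtype.ext hv⟩
  obtain ⟨v, rfl⟩ := mapLoc_surjective χ θ hχ h6 g' hg' z
  rw [mapLoc_comp, show (LinearMap.ker P.mkQ).subtype ∘ₗ g' = g from LinearMap.ext fun _ => rfl]
    at hz
  rw [← sub_add_cancel y (comparison b N n), ← hz]
  refine Submodule.add_mem _ (Submodule.mem_sup_right ?_) (Submodule.mem_sup_left ⟨n, rfl⟩)
  have hsum : ∀ (s : Finset (Fin d)), mapLoc χ θ (∑ i ∈ s, x i • LinearMap.proj i) v ∈
      (maximalIdeal A • ⊤ : Submodule A (Loc χ N θ)) := by
    intro s
    induction s using Finset.induction with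
    | empty =>
      rw [Finset.sum_empty, show (0 : (Fin d → N) →ₗ[A] N) = (0 : A) • 0 from (zero_smul _ _).symm,
        mapLoc_lsmul, zero_smul]
      exact Submodule.zero_mem _
    | insert i s hi ih =>
      rw [Finset.sum_insert hi, mapLoc_add, mapLoc_lsmul]
      exact Submodule.add_mem _ (Submodule.smul_mem_smul
        (hx.le (Submodule.subset_span ⟨i, rfl⟩)) Submodule.mem_top) ih
  exact hsum _

/-! ### The basis -/

section Basis

variable (p : ℕ) [Fact p.Prime] [Algebra ℤ_[p] O] [Module.Finite ℤ_[p] O] [Module.Finite O A]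

include p hfinA hχ h6 hl in
/-- **Localised classes are the tensor product with a finite free module.** -/
theorem exists_comparison_bijective (hp : (p : k) = 0) :
    ∃ (r : ℕ) (b : Fin r → Loc χ A θ), ∀ (N : Type) [AddCommGroup N] [Module A N]
      [Module.Finite A N], Function.Bijective (comparison b N) := by
  classical
  set V := Loc χ (A ⧸ maximalIdeal A) θ
  have hkill : Module.IsTorsionBySet A V (maximalIdeal A : Set A) := by
    rintro x ⟨a, ha⟩
    show a • x = 0
    rw [← mapLoc_id χ θ x, ← mapLoc_lsmul,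
      show a • (LinearMap.id : (A ⧸ maximalIdeal A) →ₗ[A] A ⧸ maximalIdeal A) = (0 : A) • LinearMap.id from
        LinearMap.ext fun q => ?_, mapLoc_lsmul, zero_smul]
    obtain ⟨q, rfl⟩ := Submodule.Quotient.mk_surjective _ q
    rw [LinearMap.smul_apply, LinearMap.smul_apply, LinearMap.id_apply, zero_smul,
      ← Submodule.Quotient.mk_smul, Submodule.Quotient.mk_eq_zero]
    exact Ideal.mul_mem_right _ _ ha
  letI : Field (A ⧸ maximalIdeal A) := Ideal.Quotient.field _
  letI : Module (A ⧸ maximalIdeal A) V := hkill.module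
  haveI := finite_Loc (χ := χ) (θ := θ) (N := A ⧸ maximalIdeal A) p hp
  haveI : Module.Finite (A ⧸ maximalIdeal A) V :=
    Module.Finite.of_restrictScalars_finite A (A ⧸ maximalIdeal A) V
  let e := Module.finBasis (A ⧸ maximalIdeal A) V
  let π : A →ₗ[A] A ⧸ maximalIdeal A := Submodule.mkQ (maximalIdeal A)
  choose b hb using fun i => mapLoc_surjective χ θ hχ h6 π (Submodule.mkQ_surjective _) (e i)
  have key : ∀ q, comparison b (A ⧸ maximalIdeal A) q = (∑ i, q i • e i : V) := fun q => by
    show ∑ i, mapLoc χ θ (LinearMap.toSpanSingleton A (A ⧸ maximalIdeal A) (q i)) (b i) = _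
    refine Finset.sum_congr rfl fun i _ => ?_
    obtain ⟨a, ha⟩ := Submodule.Quotient.mk_surjective _ (q i)
    rw [← ha, show LinearMap.toSpanSingleton A (A ⧸ maximalIdeal A) (Submodule.Quotient.mk a) =
      a • π from LinearMap.ext fun c => ?_, mapLoc_lsmul, hb]
    · rfl
    · rw [LinearMap.toSpanSingleton_apply, LinearMap.smul_apply, ← Submodule.Quotient.mk_smul]
      show _ = a • Submodule.Quotient.mk c
      rw [← Submodule.Quotient.mk_smul, smul_eq_mul, smul_eq_mul, mul_comm]
  have hbij : Function.Bijective (comparison b (A ⧸ maximalIdeal A)) := by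
    refine (Function.Bijective.of_comp_iff' (f := id) Function.bijective_id _).mp ?_
    convert e.equivFun.symm.bijective using 1
    funext q
    rw [Function.comp_apply, id, key, Module.Basis.equivFun_symm_apply]
  refine ⟨_, b, fun N _ _ _ => ?_⟩
  haveI := finite_Loc (χ := χ) (θ := θ) (N := N) p hp
  exact ⟨comparison_injective hfinA hχ h6 hl b hbij, comparison_surjective hfinA hχ h6 hl b hbij⟩

end Basis

end Comparison

section Anchors

variable {O : Type} [CommRing O] {bad : Finset ℕ} {k : Type} [Field k] {N : ℕ}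
  {A : Type} [CommRing A] [Algebra O A] (χ : ZMod N →* A) (θ : Poly O bad →+* k) (M : ℕ)

/-- A prime separating the system from the invariants, congruent to one modulo `M`. -/
structure Anchor where
  l : GoodPrime bad
  dvd : N ∣ M
  not_dvd : ¬ l.1 ∣ M
  one_mod : (l.1 : ZMod M) = 1
  sep : θ (MvPolynomial.X l) ≠ (l.1 : k) + 1
  five_le : 5 ≤ M

variable {χ θ M} (an : Anchor (N := N) θ M) {V : Type} [AddCommGroup V] [Module A V]

/-- The operator sending classes to parabolic ones. -/
def Anchor.op : Poly O bad :=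
  MvPolynomial.X an.l - ((an.l.1 + 1 : ℕ) : Poly O bad)

theorem Anchor.op_mem : an.op ∈ denom θ := by
  rw [mem_denom, Anchor.op, map_sub, map_natCast, Nat.cast_add, Nat.cast_one]
  exact sub_ne_zero.mpr an.sep

theorem Anchor.op_smul (y : H1 (psi χ) V) :
    an.op • toCoh O χ bad V y =
      toCoh O χ bad V (heckeH1 (N := V) (stdWeight (p := an.l.1) χ) y - (an.l.1 + 1) • y) := by
  rw [Anchor.op, sub_smul, poly_X_smul, Nat.cast_smul_eq_nsmul (Poly O bad) (an.l.1 + 1),
    map_sub, map_nsmul]
  rfl

/-- The homomorphism of a class after the operator. -/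
def Anchor.parFun [NeZero M] (y : Coh O χ bad V) : Hpar (Gamma1 M) V :=
  ⟨resGamma1 χ an.dvd ((toCoh O χ bad V).symm (an.op • y)), fun γ hγ => by
    obtain ⟨y, rfl⟩ := (toCoh O χ bad V).surjective y
    rw [an.op_smul, LinearEquiv.symm_apply_apply, map_sub, map_nsmul,
      resGamma1_heckeH1 χ an.dvd an.not_dvd, AddMonoidHom.sub_apply, AddMonoidHom.smul_apply]
    simp [hecke_parabolic_exact an.five_le an.not_dvd an.one_mod _ γ hγ]⟩

theorem Anchor.parFun_add [NeZero M] (y y' : Coh O χ bad V) :
    an.parFun (y + y') = an.parFun y + an.parFun y' :=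
  Subtype.ext (by
    show resGamma1 χ an.dvd ((toCoh O χ bad V).symm (an.op • (y + y'))) =
      resGamma1 χ an.dvd ((toCoh O χ bad V).symm (an.op • y)) +
        resGamma1 χ an.dvd ((toCoh O χ bad V).symm (an.op • y'))
    rw [smul_add, map_add, map_add])

theorem Anchor.parFun_smul [NeZero M] (a : A) (y : Coh O χ bad V) :
    an.parFun (a • y) = scal a (an.parFun y) :=
  Subtype.ext (AddMonoidHom.ext fun x => by
    show resGamma1 χ an.dvd ((toCoh O χ bad V).symm (an.op • a • y)) x =
      a • resGamma1 χ an.dvd ((toCoh O χ bad V).symm (an.op • y)) x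
    rw [smul_comm an.op a y, map_smul, resGamma1_smul])

theorem Anchor.parFun_X [NeZero M] (l : GoodPrime bad) (hl : ¬ l.1 ∣ M) (y : Coh O χ bad V) :
    an.parFun ((MvPolynomial.X l : Poly O bad) • y) = (heckeFam1 hl).heckePar (an.parFun y) :=
  Subtype.ext (by
    show resGamma1 χ an.dvd ((toCoh O χ bad V).symm (an.op • (MvPolynomial.X l : Poly O bad) • y)) =
      (heckeFam1 hl).hecke (resGamma1 χ an.dvd ((toCoh O χ bad V).symm (an.op • y)))
    rw [smul_comm an.op (MvPolynomial.X l : Poly O bad) y]
    obtain ⟨z, hz⟩ := (toCoh O χ bad V).surjective (an.op • y)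
    rw [← hz, poly_X_smul, LinearEquiv.symm_apply_apply, LinearEquiv.symm_apply_apply, opAt,
      resGamma1_heckeH1 χ an.dvd hl])

theorem Anchor.parFun_mem [NeZero M] (y : Coh O χ bad V) :
    an.parFun y ∈ eigenPar V χ an.dvd := fun γ =>
  Subtype.ext (AddMonoidHom.ext fun x => by
    obtain ⟨δ, rfl⟩ := Additive.ofMul.surjective x
    rw [diamond_apply, coe_scal]
    exact resGamma1_diamond χ an.dvd γ _ δ)

/-- Classes with vanishing image die in the localisation. -/
theorem Anchor.toLoc_eq_zero [NeZero M] [NeZero N] {y : Coh O χ bad V} (hy : an.parFun y = 0) :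
    toLoc χ V θ y = 0 := by
  obtain ⟨z, hz⟩ := (toCoh O χ bad V).surjective (an.op • y)
  have h0 : resGamma1 χ an.dvd z = 0 := by
    have h1 : resGamma1 χ an.dvd ((toCoh O χ bad V).symm (an.op • y)) = 0 := congrArg Subtype.val hy
    rwa [← hz, LinearEquiv.symm_apply_apply] at h1
  have h1 := heckeH1_eq_of_resHom_eq_zero χ an.dvd an.not_dvd an.one_mod h0
  set e : Poly O bad := MvPolynomial.X an.l - ((an.l.1 + 1 : ℕ) : Poly O bad)
  have he : e ∈ denom θ := by
    rw [mem_denom, map_sub, map_natCast, Nat.cast_add, Nat.cast_one]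
    exact sub_ne_zero.mpr an.sep
  have h2 : (⟨e, he⟩ * ⟨an.op, an.op_mem⟩ : denom θ) • y = 0 := by
    show (e * an.op) • y = 0
    rw [mul_smul, ← hz, sub_smul, poly_X_smul, Nat.cast_smul_eq_nsmul, opAt, h1, map_nsmul,
      sub_self]
  rw [LocalizedModule.mkLinearMap_apply, ← LocalizedModule.zero_mk 1, LocalizedModule.mk_eq]
  exact ⟨⟨e, he⟩ * ⟨an.op, an.op_mem⟩, by rw [one_smul, one_smul, smul_zero]; exact h2⟩

/-! ### A section of localisation -/

section Section

variable (χ θ V) [NeZero N] [IsNoetherianRing A] [Module.Finite A V]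

variable {χ θ V}

variable [NeZero M] (hsurj : Function.Surjective (toLoc χ V θ))

/-- The embedding. -/
def Anchor.embed : Loc χ V θ →+ Hpar (Gamma1 M) V :=
  AddMonoidHom.mk' (fun x => an.parFun ((killer χ θ V : Poly O bad) • (hsurj x).choose))
    fun x x' => by
      rw [← an.parFun_add, ← smul_add]
      refine congrArg an.parFun (killer_smul_eq ?_)
      rw [map_add, (hsurj x).choose_spec, (hsurj x').choose_spec, (hsurj (x + x')).choose_spec]

theorem Anchor.embed_toLoc (y : Coh O χ bad V) :
    an.embed hsurj (toLoc χ V θ y) = an.parFun ((killer χ θ V : Poly O bad) • y) :=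
  congrArg an.parFun (killer_smul_eq (hsurj (toLoc χ V θ y)).choose_spec)

theorem Anchor.embed_smul (a : A) (x : Loc χ V θ) :
    an.embed hsurj (a • x) = scal a (an.embed hsurj x) := by
  obtain ⟨y, rfl⟩ := hsurj x
  rw [show a • toLoc χ V θ y = toLoc χ V θ (a • y) from smul_mk χ V θ a y 1, an.embed_toLoc,
    an.embed_toLoc, smul_comm, an.parFun_smul]

theorem Anchor.embed_X (l : GoodPrime bad) (hl : ¬ l.1 ∣ M) (x : Loc χ V θ) :
    an.embed hsurj ((MvPolynomial.X l : Poly O bad) • x) =
      (heckeFam1 hl).heckePar (an.embed hsurj x) := by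
  obtain ⟨y, rfl⟩ := hsurj x
  rw [← map_smul, an.embed_toLoc, an.embed_toLoc, smul_comm, an.parFun_X]

theorem Anchor.embed_mem (x : Loc χ V θ) : an.embed hsurj x ∈ eigenPar V χ an.dvd :=
  an.parFun_mem _

theorem Anchor.embed_injective : Function.Injective (an.embed hsurj) := by
  refine (injective_iff_map_eq_zero _).mpr fun x hx => ?_
  obtain ⟨y, rfl⟩ := hsurj x
  rw [an.embed_toLoc] at hx
  have h := an.toLoc_eq_zero hx
  rw [map_smul] at h
  have hu : Function.Bijective fun z : Loc χ V θ => (killer χ θ V : Poly O bad) • z :=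
    (Module.End.isUnit_iff _).mp
      (IsLocalizedModule.map_units (toLoc χ V θ) (killer χ θ V))
  exact hu.1 (h.trans (smul_zero _).symm)

end Section

end Anchors

end FLTAgent.ModLift
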