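import Fermat.Agent.ModLift.Modules.Twist
import Fermat.Agent.PeriodHecke.Freeness

/-!
# Twists at several primes and descent to `Γ₀`

Iterating the twist over a set of primes dividing the level once gives an injective map from the
homomorphisms with the diamond action of a product of squares to those invariant under the
diamonds; an invariant homomorphism times the index is the restriction of one on `Γ₀`.
-/

set_option autoImplicit false
set_option linter.unusedSectionVars false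
set_option linter.style.haveILetI false
set_option maxHeartbeats 800000
set_option synthInstance.maxHeartbeats 400000

noncomputable section

open CongruenceSubgroup
open scoped MatrixGroups

namespace FLTAgent.ModLift

open FLTAgent.PeriodHecke FLTAgent.DeligneSerre

section Iterate

variable {V : Type*} [AddCommGroup V] {A : Type*} [CommRing A] [Module A V]
  (η : ∀ r : ℕ, (ZMod r)ˣ →* Aˣ)

/-- The value of `η r` at an integer, zero off the units. -/
def wt (r : ℕ) (z : ℤ) : A :=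
  open scoped Classical in if h : IsUnit (z : ZMod r) then (η r h.unit : A) else 0

theorem wt_of_eq {r : ℕ} {z : ℤ} {d : (ZMod r)ˣ} (h : (z : ZMod r) = d) :
    wt η r z = (η r d : A) := by
  have hz : IsUnit (z : ZMod r) := h ▸ d.isUnit
  rw [wt, dif_pos hz]
  exact congrArg (fun u => (η r u : A)) (Units.ext h)

theorem wt_congr {r : ℕ} {z z' : ℤ} (h : (z : ZMod r) = (z' : ZMod r)) : wt η r z = wt η r z' := by
  by_cases hz : IsUnit (z' : ZMod r)
  · rw [wt_of_eq η (d := hz.unit) (h.trans hz.unit_spec.symm),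
      wt_of_eq η (d := hz.unit) hz.unit_spec.symm]
  · rw [wt, wt, dif_neg hz, dif_neg (h ▸ hz)]

/-- The diamonds act through the squares of the `η r`, for `r` in the set. -/
def IsEig (M : ℕ) (s : Finset ℕ) (φ : Hpar (Gamma1 M) V) : Prop :=
  ∀ (γ : Gamma0 M) (x : Additive (Gamma1 M)),
    (diamond M γ φ).1 x = (∏ r ∈ s, wt η r (mat γ 1 1) * wt η r (mat γ 1 1)) • φ.1 x

variable (htf : ∀ (m : ℕ) (v : V), m ≠ 0 → m • v = 0 → v = 0) {n : ℕ} (hn : Odd n)
  (hη : ∀ r d, η r d ^ n = 1)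

include htf hn hη in
/-- **The twists at several primes.** -/
theorem exists_twist_all : ∀ (s : Finset ℕ), (∀ r ∈ s, r.Prime) → ∀ (N : ℕ) [NeZero N],
    (∀ r ∈ s, r ∣ N ∧ ¬ r ^ 2 ∣ N) → ∀ (M : ℕ) [NeZero M], M = N * ∏ r ∈ s, r →
    ∃ Tw : Hpar (Gamma1 N) V →+ Hpar (Gamma1 M) V,
      (∀ φ, IsEig η N s φ → IsEig η M ∅ (Tw φ) ∧ (Tw φ = 0 → φ = 0)) ∧
      (∀ (c : A) φ, Tw (mapHpar (DistribSMul.toAddMonoidHom V c) φ) =
        mapHpar (DistribSMul.toAddMonoidHom V c) (Tw φ)) ∧
      ∀ (l : ℕ) [Fact l.Prime] (hlN : ¬ l ∣ N) (hlM : ¬ l ∣ M) (c : A),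
        c * ∏ r ∈ s, wt η r (l : ℤ) = 1 → ∀ φ,
          (heckeFam1 hlM).heckePar (Tw φ) =
            mapHpar (DistribSMul.toAddMonoidHom V c) (Tw ((heckeFam1 hlN).heckePar φ)) := by
  classical
  intro s
  induction s using Finset.induction with
  | empty =>
    intro _ N _ _ M _ hM
    rw [Finset.prod_empty, mul_one] at hM
    subst hM
    refine ⟨AddMonoidHom.id _, fun φ h => ⟨h, id⟩, fun c φ => rfl, fun l _ hlN hlM c hc φ => ?_⟩
    rw [Finset.prod_empty, mul_one] at hc
    subst hc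
    exact Subtype.ext (AddMonoidHom.ext fun x => (one_smul A _).symm)
  | insert r s hr ih =>
    intro hp N _ hN M _ hM
    haveI : Fact r.Prime := ⟨hp r (Finset.mem_insert_self r s)⟩
    haveI : NeZero r := ⟨(Fact.out : r.Prime).ne_zero⟩
    obtain ⟨hrN, hr2⟩ := hN r (Finset.mem_insert_self r s)
    have hs : ∀ r' ∈ s, r'.Prime := fun r' h => hp r' (Finset.mem_insert_of_mem h)
    have hne : ∀ r' ∈ s, r' ≠ r := fun r' h e => hr (e ▸ h)
    haveI : NeZero (N * r) := ⟨Nat.mul_ne_zero (NeZero.ne N) (Fact.out : r.Prime).ne_zero⟩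
    have hNr : ∀ r' ∈ s, r' ∣ N * r ∧ ¬ r' ^ 2 ∣ N * r := fun r' h => by
      obtain ⟨h1, h2⟩ := hN r' (Finset.mem_insert_of_mem h)
      refine ⟨h1.mul_right r, fun h3 => h2 ?_⟩
      refine Nat.Coprime.dvd_of_dvd_mul_right (Nat.Coprime.pow_left 2 ?_) h3
      exact (Nat.coprime_primes (hs r' h) Fact.out).mpr (hne r' h)
    have hM' : M = N * r * ∏ r' ∈ s, r' := by rw [hM, Finset.prod_insert hr, mul_assoc]
    obtain ⟨Tw, hT, hTs, hTh⟩ := ih hs (N * r) hNr M hM'
    refine ⟨Tw.comp (twist hrN (η r)), fun φ hφ => ?_, fun c φ => ?_,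
      fun l _ hlN hlM c hc φ => ?_⟩
    · have heig : IsEig η (N * r) s (twist hrN (η r) φ) := by
        intro γ x
        obtain ⟨d, hd⟩ : IsUnit (((mat γ 1 1 : ℤ)) : ZMod r) := by
          have h := ((Group.isUnit γ).map (Gamma0Map (N * r))).map
            (ZMod.castHom (dvd_mul_left r N) (ZMod r))
          change IsUnit (ZMod.castHom (dvd_mul_left r N) (ZMod r)
            ((mat γ 1 1 : ℤ) : ZMod (N * r))) at h
          rwa [map_intCast] at h
        rw [twist_diamond hrN (η r) φ γ d hd.symm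
          (∏ r' ∈ insert r s, wt η r' (mat γ 1 1) * wt η r' (mat γ 1 1)) ?_ x]
        · congr 1
          rw [Finset.prod_insert hr, wt_of_eq η hd.symm]
          have hdd : ((η r d⁻¹ : Aˣ) : A) * (η r d : A) = 1 := by
            rw [← Units.val_mul, ← map_mul, inv_mul_cancel, map_one, Units.val_one]
          linear_combination (∏ r' ∈ s, wt η r' (mat γ 1 1) * wt η r' (mat γ 1 1)) *
            (((η r d⁻¹ : Aˣ) : A) * (η r d : A) + 1) * hdd
        · intro γ' hγ' y
          rw [hφ γ' y]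
          congr 1
          refine Finset.prod_congr rfl fun r' hr' => ?_
          have h : wt η r' (mat γ' 1 1) = wt η r' (mat γ 1 1) := by
            refine wt_congr η ?_
            have := congrArg (ZMod.castHom (hN r' hr').1 (ZMod r')) hγ'
            rwa [map_intCast, map_intCast] at this
          rw [h]
      refine ⟨(hT _ heig).1, fun h0 => ?_⟩
      refine twist_injective hrN (η r) htf hr2 hn (hη r) φ (fun γ d h1 hd x => ?_) ((hT _ heig).2 h0)
      rw [hφ γ x, Finset.prod_insert hr, wt_of_eq η hd, Finset.prod_eq_one, mul_one]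
      intro r' hr'
      have hd' : r' ∣ N / r := by
        obtain ⟨N₀, hN₀⟩ := hrN
        rw [hN₀, Nat.mul_div_cancel_left _ (Fact.out : r.Prime).pos]
        exact ((hs r' hr').dvd_mul.mp (hN₀ ▸ (hN r' (Finset.mem_insert_of_mem hr')).1)).resolve_left
          fun h => hne r' hr' ((Nat.prime_dvd_prime_iff_eq (hs r' hr') Fact.out).mp h)
      have h1' : ((mat γ 1 1 : ℤ) : ZMod r') = ((1 : (ZMod r')ˣ) : ZMod r') := by
        have := congrArg (ZMod.castHom hd' (ZMod r')) h1
        rw [map_intCast, map_one] at this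
        rw [this, Units.val_one]
      rw [wt_of_eq η h1', map_one, Units.val_one, one_mul]
    · rw [AddMonoidHom.comp_apply, twist_smul, hTs]
      rfl
    · rw [AddMonoidHom.comp_apply, AddMonoidHom.comp_apply]
      have hlr : ¬ l ∣ N * r := fun h => hlM (hM' ▸ h.mul_right _)
      obtain ⟨lu, hlu⟩ : IsUnit (l : ZMod r) := by
        rw [isUnit_iff_ne_zero, Ne, ZMod.natCast_eq_zero_iff]
        exact fun h => hlN (((Nat.prime_dvd_prime_iff_eq Fact.out Fact.out).mp h) ▸ hrN)
      rw [Finset.prod_insert hr, wt_of_eq η (z := (l : ℤ)) (d := lu)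
        (by rw [Int.cast_natCast, hlu])] at hc
      have hc' : c * (η r lu : A) * ∏ r' ∈ s, wt η r' (l : ℤ) = 1 := by rw [mul_assoc]; exact hc
      rw [hTh l hlr hlM _ hc', twist_hecke hrN (η r) hlN hlr φ lu hlu, hTs]
      refine Subtype.ext (AddMonoidHom.ext fun x => ?_)
      show (c * (η r lu : A)) • ((η r lu⁻¹ : Aˣ) : A) •
          ((Tw (twist hrN (η r) ((heckeFam1 hlN).heckePar φ))).1 x : V) =
        c • ((Tw (twist hrN (η r) ((heckeFam1 hlN).heckePar φ))).1 x : V)
      rw [smul_smul, mul_assoc, ← Units.val_mul, ← map_mul, mul_inv_cancel, map_one, Units.val_one,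
        mul_one]

end Iterate

section Descent

variable {M : ℕ} [NeZero M] {V : Type*} [AddCommGroup V]

/-- Restriction of homomorphisms to `Γ₁(M)`. -/
def resPar : Hpar (Gamma0 M) V →+ Hpar (Gamma1 M) V where
  toFun Φ := ⟨Φ.1.comp (Subgroup.inclusion (Gamma1_in_Gamma0 M)).toAdditive, fun γ hγ =>
    Φ.2 ⟨γ, Gamma1_in_Gamma0 M γ.2⟩ hγ⟩
  map_zero' := rfl
  map_add' _ _ := rfl

theorem resPar_apply (Φ : Hpar (Gamma0 M) V) (γ : Gamma1 M) :
    (resPar Φ).1 (Additive.ofMul γ) = Φ.1 (Additive.ofMul ⟨γ, Gamma1_in_Gamma0 M γ.2⟩) := rfl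

/-- Restriction commutes with the Hecke operators. -/
theorem resPar_hecke {l : ℕ} [Fact l.Prime] (hl : ¬ l ∣ M) (Φ : Hpar (Gamma0 M) V) :
    resPar ((heckeFam M l).heckePar Φ) = (heckeFam1 hl).heckePar (resPar Φ) := by
  refine Subtype.ext (AddMonoidHom.ext fun x => ?_)
  obtain ⟨g, rfl⟩ := Additive.ofMul.surjective x
  show (heckeFam M l).hecke Φ.1 (Additive.ofMul ⟨g, Gamma1_in_Gamma0 M g.2⟩) =
    (heckeFam1 hl).hecke (resPar Φ).1 (Additive.ofMul g)
  set g0 : Gamma0 M := ⟨g, Gamma1_in_Gamma0 M g.2⟩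
  rw [HeckeFamily.hecke_apply, HeckeFamily.hecke_apply]
  have key : ∀ i, Φ.1 (Additive.ofMul ((heckeFam M l).coc g0 i)) +
      Φ.1 (Additive.ofMul (corr1 hl i)) =
      (resPar Φ).1 (Additive.ofMul ((heckeFam1 hl).coc g i)) +
        Φ.1 (Additive.ofMul (corr1 hl ((heckeFam1 hl).next g i))) := by
    intro i
    set δ := (heckeFam1 hl).coc g i
    set j := (heckeFam1 hl).next g i
    set δ0 : Gamma0 M := ⟨δ, Gamma1_in_Gamma0 M δ.2⟩
    have hr : heckeRep1 hl i * mat g = mat δ * heckeRep1 hl j := (heckeFam1 hl).rel g i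
    have h : (heckeFam M l).α i * mat g0 =
        mat ((corr1 hl i)⁻¹ * δ0 * corr1 hl j) * (heckeFam M l).α j := by
      have h1 := congrArg (fun Z => mat (corr1 hl i)⁻¹ * Z) hr
      simp only [heckeRep1, ← mul_assoc, ← mat_mul, inv_mul_cancel, mat_one, one_mul] at h1
      rw [heckeFam_α, mat_mul, mat_mul]
      exact h1
    rw [((heckeFam M l).eq_of_rel h).2, resPar_apply]
    simp only [ofMul_mul, ofMul_inv, map_add, map_neg]
    show -_ + _ + _ + _ = Φ.1 (Additive.ofMul δ0) + _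
    abel
  refine add_right_cancel (b := ∑ i, Φ.1 (Additive.ofMul (corr1 hl i))) ?_
  rw [← Finset.sum_add_distrib]
  refine (Finset.sum_congr rfl fun i _ => key i).trans ?_
  rw [Finset.sum_add_distrib]
  exact congrArg _ (Equiv.sum_comp ((heckeFam1 hl).perm g) (fun i => Φ.1 (Additive.ofMul (corr1 hl i))))

/-- `Γ₁(M)` in `Γ₀(M)`. -/
abbrev gamma1Sub (M : ℕ) : Subgroup (Gamma0 M) := (Gamma1 M).subgroupOf (Gamma0 M)

variable (M) in
/-- The index of `Γ₁(M)` in `Γ₀(M)`. -/
def diaIndex : ℕ := (gamma1Sub M).index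

theorem diaIndex_ne_zero : diaIndex M ≠ 0 := Subgroup.FiniteIndex.index_ne_zero

/-- An invariant homomorphism times the index comes from `Γ₀(M)`. -/
theorem exists_resPar (htf : ∀ (m : ℕ) (v : V), m ≠ 0 → m • v = 0 → v = 0)
    (φ : Hpar (Gamma1 M) V) (hφ : ∀ (γ : Gamma0 M) x, (diamond M γ φ).1 x = φ.1 x) :
    ∃ Φ : Hpar (Gamma0 M) V, resPar Φ = diaIndex M • φ := by
  classical
  haveI : Fintype (Gamma0 M ⧸ gamma1Sub M) := Fintype.ofFinite _
  let tr : Gamma0 M → (Gamma0 M ⧸ gamma1Sub M) → Gamma1 M := fun g x =>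
    ⟨(((g • x).out⁻¹ * g * x.out : Gamma0 M) : SL(2, ℤ)), by
      have h : (g • x).out⁻¹ * (g * x.out) ∈ gamma1Sub M := by
        rw [← QuotientGroup.eq, QuotientGroup.out_eq', ← MulAction.Quotient.coe_smul_out,
          smul_eq_mul]
      rw [← mul_assoc] at h
      exact Subgroup.mem_subgroupOf.mp h⟩
  have htr : ∀ g h x, tr (g * h) x = tr g (h • x) * tr h x := fun g h x => Subtype.ext (by
    simp [tr, mul_smul, mul_assoc])
  let Φ₀ : Additive (Gamma0 M) →+ V := AddMonoidHom.mk'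
    (fun g => ∑ x, φ.1 (Additive.ofMul (tr (Additive.toMul g) x))) fun a b => by
      simp only [toMul_add, htr, ofMul_mul, map_add, Finset.sum_add_distrib]
      congr 1
      exact Equiv.sum_comp (MulAction.toPerm (Additive.toMul b : Gamma0 M))
        (fun x => φ.1 (Additive.ofMul (tr (Additive.toMul a) x)))
  have hres : ∀ g : Gamma1 M, Φ₀ (Additive.ofMul ⟨g, Gamma1_in_Gamma0 M g.2⟩) =
      diaIndex M • φ.1 (Additive.ofMul g) := by
    intro g
    set g0 : Gamma0 M := ⟨g, Gamma1_in_Gamma0 M g.2⟩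
    show ∑ x, φ.1 (Additive.ofMul (tr g0 x)) = _
    rw [diaIndex, Subgroup.index_eq_card, Nat.card_eq_fintype_card]
    have hx : ∀ x : Gamma0 M ⧸ gamma1Sub M, tr g0 x = conjGamma1 M x.out⁻¹ g := by
      intro x
      have hfix : g0 • x = x := by
        conv_lhs => rw [← QuotientGroup.out_eq' x]
        conv_rhs => rw [← QuotientGroup.out_eq' x]
        refine QuotientGroup.eq.mpr (Subgroup.mem_subgroupOf.mpr ?_)
        have h := conj_mem_Gamma1 M x.out⁻¹ g⁻¹
        simpa [g0, mul_assoc] using h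
      refine Subtype.ext ?_
      show (((g0 • x).out⁻¹ * g0 * x.out : Gamma0 M) : SL(2, ℤ)) = _
      rw [hfix]
      simp [g0, conjGamma1]
    rw [Finset.sum_congr rfl fun x _ => congrArg (fun y => φ.1 (Additive.ofMul y)) (hx x),
      Finset.sum_congr rfl fun x _ => (diamond_apply M x.out⁻¹ φ g).symm.trans (hφ _ _),
      Finset.sum_const, Finset.card_univ]
  refine ⟨⟨Φ₀, fun γ hγ => ?_⟩, Subtype.ext (AddMonoidHom.ext fun x => ?_)⟩
  · obtain ⟨k, hk0, -, hk⟩ := Subgroup.exists_pow_mem_of_index_ne_zero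
      (H := Gamma1 M) Subgroup.FiniteIndex.index_ne_zero ((γ : SL(2, ℤ)))
    set δ : Gamma1 M := ⟨(γ : SL(2, ℤ)) ^ k, hk⟩
    refine htf k _ hk0.ne' ?_
    rw [← map_nsmul, ← ofMul_pow, show γ ^ k = ⟨δ, Gamma1_in_Gamma0 M δ.2⟩ from Subtype.ext
      (by simp [δ]), hres δ, φ.2 δ (by
        rw [show mat δ = mat γ ^ k by simp [mat, δ]]
        exact trace_pow_le _ (mat_det γ) hγ k), smul_zero]
  · obtain ⟨g, rfl⟩ := Additive.ofMul.surjective x
    rw [AddSubgroup.coe_nsmul, AddMonoidHom.smul_apply]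
    exact hres g

/-- Restriction is injective. -/
theorem resPar_injective (htf : ∀ (m : ℕ) (v : V), m ≠ 0 → m • v = 0 → v = 0) :
    Function.Injective (resPar (M := M) (V := V)) := by
  refine (injective_iff_map_eq_zero _).mpr fun Φ h => Subtype.ext (AddMonoidHom.ext fun x => ?_)
  obtain ⟨γ, rfl⟩ := Additive.ofMul.surjective x
  obtain ⟨k, hk0, -, hk⟩ := Subgroup.exists_pow_mem_of_index_ne_zero
    (H := Gamma1 M) Subgroup.FiniteIndex.index_ne_zero ((γ : SL(2, ℤ)))
  refine htf k _ hk0.ne' ?_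
  rw [← map_nsmul, ← ofMul_pow,
    show γ ^ k = ⟨((γ : SL(2, ℤ)) ^ k), Gamma1_in_Gamma0 M hk⟩ from Subtype.ext (by simp),
    ← resPar_apply Φ ⟨_, hk⟩, h]
  rfl

end Descent

end FLTAgent.ModLift
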