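import Fermat.Agent.ModLift.Modules.TraceAlgebra
import Fermat.Agent.ModLift.Modules.Localisation
import Fermat.Agent.ModLift.Modules.TwistAll
import Fermat.Agent.Lowering.P4.BaseForms

/-!
# The twisted traces come from forms on `Γ₀`

The twisted systems at an auxiliary level live on `Γ₀` of that level times the twisted primes, so
the Hecke algebra of forms there maps to the algebra of twisted traces.
-/

set_option autoImplicit false
set_option linter.unusedSectionVars false
set_option linter.style.haveILetI false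
set_option synthInstance.maxHeartbeats 400000
set_option maxHeartbeats 1000000

noncomputable section

open IsLocalRing CongruenceSubgroup
open scoped MatrixGroups

namespace FLTAgent.ModLift

open FLTAgent.Lowering FLTAgent.Lowering.Cocycle FLTAgent.PeriodHecke FLTAgent.DeligneSerre

variable {p : ℕ} [Fact p.Prime] {O : Type} [CommRing O] [IsDomain O] [IsDiscreteValuationRing O]
  [Algebra ℤ_[p] O] {S : Setup p O} (X : Aux S)

namespace Aux

/-- The projection to the diamond group. -/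
def mkDia : X.Units' →* X.Dia := QuotientGroup.mk' X.coSylow

theorem prime_of_mem_union {r : ℕ} (hr : r ∈ S.T ∪ X.Q) : r.Prime :=
  (Finset.mem_union.mp hr).elim (fun h => (S.T_prime r h).1) (X.prime r)

theorem dvd_level_of_mem_union {r : ℕ} (hr : r ∈ S.T ∪ X.Q) : r ∣ X.level :=
  (Finset.mem_union.mp hr).elim (fun h => (S.T_prime r h).2.1.trans X.dvd_M0_level)
    fun h => dvd_mul_of_dvd_right (Finset.dvd_prod_of_mem _ h) _

theorem sq_not_dvd_level {r : ℕ} (hr : r.Prime) : ¬ r ^ 2 ∣ X.level := by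
  intro h
  have hsq : Squarefree X.level := by
    refine Nat.squarefree_mul_iff.2 ⟨?_, S.M0_squarefree, ?_⟩
    · refine Nat.Coprime.prod_right fun q hq => Nat.Coprime.symm ?_
      exact (X.prime q hq).coprime_iff_not_dvd.2 fun h =>
        X.notMem q hq (S.level_mem q (X.prime q hq) h)
    · refine Finset.squarefree_prod_of_pairwise_isCoprime (fun a ha b hb hab => ?_) fun q hq =>
        (X.prime q hq).squarefree
      show IsRelPrime a b
      exact Nat.coprime_iff_isRelPrime.1 ((Nat.coprime_primes (X.prime a ha) (X.prime b hb)).2 hab)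
  exact hr.not_isUnit (hsq r (by rwa [← sq]))

/-- The twisted factor at `r`. -/
def facT (e : Bool) (r : ℕ) : (ZMod r)ˣ →* X.Coefˣ :=
  if hr : r ∈ S.T then
    if e then (Units.map (algebraMap O X.Coef).toMonoidHom).comp (S.χ r hr) else 1
  else 1

/-- The diamond factor at `r`. -/
def facQ (r : ℕ) : (ZMod r)ˣ →* X.Coefˣ :=
  if hr : r ∈ X.Q then
    (MonoidAlgebra.of O X.Dia).toHomUnits.comp (X.mkDia.comp
      (MonoidHom.mulSingle (fun q : X.Q => (ZMod (q : ℕ))ˣ) ⟨r, hr⟩))
  else 1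

/-- The factor of the character at `r`. -/
def fFac (e : Bool) (r : ℕ) : (ZMod r)ˣ →* X.Coefˣ := X.facT e r * X.facQ r

/-- The square root of the factor at `r`. -/
def etaFac (e : Bool) (r : ℕ) : (ZMod r)ˣ →* X.Coefˣ := (powMonoidHom X.halfExp).comp (X.fFac e r)

variable [Module.Finite ℤ_[p] O]

theorem fFac_pow (e : Bool) (r : ℕ) (d : (ZMod r)ˣ) :
    X.fFac e r d ^ p ^ (Nat.card X.Units' + 1) = 1 := by
  rw [fFac, MonoidHom.mul_apply, mul_pow]
  have h1 : X.facT e r d ^ p ^ (Nat.card X.Units' + 1) = 1 := by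
    unfold facT
    split_ifs with hr he
    · rw [MonoidHom.comp_apply, ← map_pow, pow_succ', pow_mul, S.χ_pow, one_pow, map_one]
    · simp
    · simp
  have h2 : X.facQ r d ^ p ^ (Nat.card X.Units' + 1) = 1 := by
    unfold facQ
    split_ifs with hr
    · rw [MonoidHom.comp_apply, ← map_pow, pow_succ, pow_mul, X.dia_pow, one_pow, map_one]
    · simp
  rw [h1, h2, one_mul]

theorem etaFac_sq (e : Bool) (r : ℕ) (d : (ZMod r)ˣ) :
    X.etaFac e r d * X.etaFac e r d = X.fFac e r d := by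
  show X.fFac e r d ^ X.halfExp * X.fFac e r d ^ X.halfExp = _
  rw [← pow_add, ← two_mul, X.two_mul_halfExp, pow_succ, X.fFac_pow, one_mul]

theorem etaFac_pow (e : Bool) (r : ℕ) (d : (ZMod r)ˣ) :
    X.etaFac e r d ^ p ^ (Nat.card X.Units' + 1) = 1 := by
  show (X.fFac e r d ^ X.halfExp) ^ _ = 1
  rw [← pow_mul, mul_comm, pow_mul, X.fFac_pow, one_pow]

theorem chiU_eq_prod (e : Bool) (u : (ZMod X.level)ˣ) :
    X.chiU e u = ∏ r : (S.T ∪ X.Q : Finset ℕ), X.fFac e r.1
      (Units.map (ZMod.castHom (X.dvd_level_of_mem_union r.2) (ZMod r.1)).toMonoidHom u) := by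
  classical
  haveI : ∀ r : (S.T ∪ X.Q : Finset ℕ), NeZero (r : ℕ) :=
    fun r => ⟨(X.prime_of_mem_union r.2).ne_zero⟩
  let g : ℕ → X.Coefˣ := fun r => if h : r ∣ X.level then
    X.fFac e r (Units.map (ZMod.castHom h (ZMod r)).toMonoidHom u) else 1
  rw [Finset.prod_congr rfl fun r _ =>
    (dif_pos (X.dvd_level_of_mem_union r.2) : g r.1 = _).symm,
    Finset.prod_coe_sort (S.T ∪ X.Q) g, Finset.prod_union]
  swap
  · exact Finset.disjoint_left.mpr fun t ht hq =>
      X.notMem t hq (S.level_mem t (S.T_prime t ht).1 (S.T_prime t ht).2.1)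
  have hT : ∏ t ∈ S.T, g t =
      Units.map (algebraMap O X.Coef).toMonoidHom (S.eps X.dvd_M0_level e u) := by
    rw [← Finset.prod_coe_sort]
    cases e
    · simp only [Setup.eps, Bool.false_eq_true, if_false, MonoidHom.one_apply, map_one]
      refine Finset.prod_eq_one fun t _ => ?_
      have hQ : t.1 ∉ X.Q := fun hq =>
        X.notMem t.1 hq (S.level_mem t.1 (S.T_prime t.1 t.2).1 (S.T_prime t.1 t.2).2.1)
      simp [g, fFac, facT, facQ, (S.T_prime t.1 t.2).2.1.trans X.dvd_M0_level, t.2, hQ]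
    · simp only [Setup.eps, if_true, MonoidHom.finsetProd_apply, map_prod]
      refine Finset.prod_congr rfl fun t _ => ?_
      have hQ : t.1 ∉ X.Q := fun hq =>
        X.notMem t.1 hq (S.level_mem t.1 (S.T_prime t.1 t.2).1 (S.T_prime t.1 t.2).2.1)
      simp [g, fFac, facT, facQ, (S.T_prime t.1 t.2).2.1.trans X.dvd_M0_level, t.2, hQ]
  have hQ : ∏ q ∈ X.Q, g q = (MonoidAlgebra.of O X.Dia).toHomUnits (X.dia u) := by
    rw [← Finset.prod_coe_sort]
    let v : X.Units' := fun q =>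
      Units.map (ZMod.castHom (dvd_mul_of_dvd_right (Finset.dvd_prod_of_mem _ q.2) _ :
        (q : ℕ) ∣ X.level) (ZMod (q : ℕ))).toMonoidHom u
    have hdia : X.dia u = X.mkDia v := rfl
    have e1 : ∀ q : X.Q, g q.1 = (MonoidAlgebra.of O X.Dia).toHomUnits
        (X.mkDia (Pi.mulSingle q (v q))) := fun q => by
      have hT : q.1 ∉ S.T := fun ht =>
        X.notMem q.1 q.2 (S.level_mem q.1 (S.T_prime q.1 ht).1 (S.T_prime q.1 ht).2.1)
      have hd : q.1 ∣ X.level := dvd_mul_of_dvd_right (Finset.dvd_prod_of_mem _ q.2) _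
      simp only [g, dif_pos hd, fFac, facT, facQ, dif_neg hT, dif_pos q.2, one_mul, MonoidHom.mul_apply, MonoidHom.one_apply]
      rfl
    rw [hdia, Finset.prod_congr rfl fun q _ => e1 q, ← map_prod, ← map_prod,
      Finset.univ_prod_mulSingle]
  rw [hT, hQ]
  rfl

theorem wt_cast (e : Bool) {M : ℕ} (hM : X.level ∣ M) (z : ℤ) (u : (ZMod X.level)ˣ)
    (hu : (z : ZMod X.level) = u) (r : (S.T ∪ X.Q : Finset ℕ)) :
    wt (X.etaFac e) r.1 z = (X.etaFac e r.1
      (Units.map (ZMod.castHom (X.dvd_level_of_mem_union r.2) (ZMod r.1)).toMonoidHom u) : X.Coef) := by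
  refine wt_of_eq _ ?_
  show (z : ZMod r.1) = ZMod.castHom (X.dvd_level_of_mem_union r.2) (ZMod r.1) (u : ZMod X.level)
  rw [← hu, map_intCast]

theorem mem_badQ_of_dvd {q : ℕ} (hq : q.Prime) (h : q ∣ X.bigLevel) : q ∈ X.badQ := by
  have key : q ∈ S.T ∪ X.Q ∨ q ∣ S.M0 → q ∈ X.badQ := by
    rintro (h | h)
    · rcases Finset.mem_union.mp h with h | h
      · exact Finset.mem_union_left _ (S.level_mem q hq (S.T_prime q h).2.1)
      · exact Finset.mem_union_right _ h
    · exact Finset.mem_union_left _ (S.level_mem q hq h)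
  obtain h | h := hq.dvd_mul.mp h
  · obtain h | h := hq.dvd_mul.mp h
    · exact key (Or.inr h)
    · obtain ⟨r, hr, hd⟩ := (Prime.dvd_finsetProd_iff hq.prime _).mp h
      exact key (Or.inl ((Nat.prime_dvd_prime_iff_eq hq (X.prime r hr)).mp hd ▸
        Finset.mem_union_right _ hr))
  · obtain ⟨r, hr, hd⟩ := (Prime.dvd_finsetProd_iff hq.prime _).mp h
    exact key (Or.inl ((Nat.prime_dvd_prime_iff_eq hq (X.prime_of_mem_union hr)).mp hd ▸ hr))

variable [CharZero O]

theorem coef_eq_zero_of_nsmul (m : ℕ) (v : X.Coef) (hm : m ≠ 0) (h : m • v = 0) : v = 0 := by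
  haveI : Module.Free O X.Coef := inferInstance
  apply (Module.Free.chooseBasis O X.Coef).repr.injective
  rw [map_zero]
  refine Finsupp.ext fun g => ?_
  have h1 := DFunLike.congr_fun (congrArg (Module.Free.chooseBasis O X.Coef).repr h) g
  rw [map_nsmul, map_zero, Finsupp.smul_apply, Finsupp.zero_apply, nsmul_eq_mul] at h1
  exact (mul_eq_zero.mp h1).resolve_left (Nat.cast_ne_zero.mpr hm)

theorem exists_anchor_level : Nonempty (Anchor (N := X.level) X.sys X.level) := by
  obtain ⟨l, V, τ, hl, hlb, hlM, hl1, hlp, hV, hτ, htr⟩ :=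
    S.exists_separating (residue_natCast_eq_zero p O) X.level
  haveI : CharP (ResidueField O) p :=
    (CharP.charP_iff_prime_eq_zero Fact.out).mpr (residue_natCast_eq_zero p O)
  refine ⟨⟨⟨l, hl, hlb⟩, dvd_rfl, hlM, hl1, ?_,
    S.five_le.trans (Nat.le_of_dvd X.level_pos X.dvd_M0_level)⟩⟩
  rw [sys, X.sysOn_not_mem (l := ⟨l, hl, hlb⟩)
    fun hq => hlM (dvd_mul_of_dvd_right (Finset.dvd_prod_of_mem _ hq) _),
    S.tr0_spec ⟨l, hl, hlb⟩ V hV τ hτ]
  have h1 : (l : ResidueField O) = 1 := by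
    have := congrArg (ZMod.castHom (dvd_refl p) (ResidueField O)) hlp
    rwa [map_natCast, map_one] at this
  show trGL (S.rb τ) ≠ (l : ResidueField O) + 1
  rw [h1, one_add_one_eq_two]
  exact htr

/-- **The Hecke algebra of forms maps to the twisted traces.** -/
theorem exists_hecke_map :
    ∃ π : CuspForm.heckeAlgebra X.bigLevel 2 (↑X.badQ : Set ℕ) →+* X.TR,
      ∀ (l : X.TrPrime) (hlM : ¬ l.1.1 ∣ X.bigLevel) (hlb : l.1.1 ∉ (↑X.badQ : Set ℕ)),
        π (CuspForm.heckeAlgebra.T l.1.2.1 hlM hlb) = X.trace l := by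
  classical
  haveI := X.finite_coef
  haveI : IsNoetherianRing X.Coef := IsNoetherianRing.of_finite ℤ_[p] X.Coef
  set L := X.level
  set M := X.bigLevel with hM
  have htf : ∀ (m : ℕ) (v : X.Coef), m ≠ 0 → m • v = 0 → v = 0 := X.coef_eq_zero_of_nsmul
  have hodd : Odd (p ^ (Nat.card X.Units' + 1)) :=
    (((Fact.out : p.Prime).eq_two_or_odd').resolve_left S.p_ne).pow
  have hT := fun e : Bool => exists_twist_all (V := X.Coef) (X.etaFac e) htf hodd
    (fun r d => X.etaFac_pow e r d) (S.T ∪ X.Q) (fun r hr => X.prime_of_mem_union hr) L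
    (fun r hr => ⟨X.dvd_level_of_mem_union hr, X.sq_not_dvd_level (X.prime_of_mem_union hr)⟩)
    M rfl
  choose Tw hTw hTws hTwh using hT
  obtain ⟨an⟩ := X.exists_anchor_level
  let emb : ∀ e, X.Mod e → Hpar (Gamma1 L) X.Coef := fun e y =>
    an.embed (χ := X.chi e) (V := X.Coef) (X.surjective_toLoc_coef _) (X.modL e y)
  have hemb_eig : ∀ e y, IsEig (X.etaFac e) L (S.T ∪ X.Q) (emb e y) := by
    intro e y γ x
    have hm : emb e y ∈ eigenPar X.Coef (X.chi e) an.dvd := an.embed_mem _ _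
    rw [(mem_eigenPar _ _).mp hm γ]
    show psi (X.chi e) (sub0 an.dvd γ) • (emb e y).1 x = _
    congr 1
    rw [psi_apply, mat_sub0]
    obtain ⟨u, hu⟩ : IsUnit ((mat γ 1 1 : ℤ) : ZMod L) := (Group.isUnit γ).map (Gamma0Map L)
    rw [← hu, show X.chi e (u : ZMod L) = (X.chiU e u : X.Coef) from
      MulChar.ofUnitHom_coe (X.chiU e) u, X.chiU_eq_prod, Units.coe_prod,
      ← Finset.prod_coe_sort (S.T ∪ X.Q)]
    refine Finset.prod_congr rfl fun r _ => ?_
    rw [X.wt_cast e dvd_rfl _ u hu.symm r, ← Units.val_mul, X.etaFac_sq]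
  -- the relation between forms and twisted traces
  let Rel : CuspForm.heckeAlgebra M 2 (↑X.badQ : Set ℕ) → X.TR → Prop := fun t r =>
    ∀ (e : Bool) (y : X.Mod e) (Φ : Hpar (Gamma0 M) X.Coef),
      resPar Φ = diaIndex M • Tw e (emb e y) →
        resPar (actA M X.Coef (inclFull M X.badQ t) Φ) =
          diaIndex M • Tw e (emb e (X.actTR e r y))
  have hex : ∀ e y, ∃ Φ : Hpar (Gamma0 M) X.Coef, resPar Φ = diaIndex M • Tw e (emb e y) :=
    fun e y => exists_resPar htf _ fun γ x => by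
      rw [(hTw e _ (hemb_eig e y)).1 γ x, Finset.prod_empty, one_smul]
  have hembadd : ∀ e a b, Tw e (emb e (a + b)) = Tw e (emb e a) + Tw e (emb e b) := fun e a b => by
    simp only [emb, map_add]
  have hembsub : ∀ e a b, Tw e (emb e (a - b)) = Tw e (emb e a) - Tw e (emb e b) := fun e a b => by
    simp only [emb, map_sub]
  have huniq : ∀ t r r', Rel t r → Rel t r' → r = r' := by
    intro t r r' h h'
    refine sub_eq_zero.mp (X.actTR_faithful _ fun e => LinearMap.ext fun y => ?_)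
    obtain ⟨Φ, hΦ⟩ := hex e y
    have h1 : Tw e (emb e (X.actTR e r y - X.actTR e r' y)) = 0 := by
      have h2 : diaIndex M • Tw e (emb e (X.actTR e r y - X.actTR e r' y)) = 0 := by
        rw [hembsub, smul_sub, ← h e y Φ hΦ, ← h' e y Φ hΦ, sub_self]
      refine Subtype.ext (AddMonoidHom.ext fun x => htf _ _ (diaIndex_ne_zero (M := M)) ?_)
      have h3 := DFunLike.congr_fun (congrArg Subtype.val h2) x
      rwa [AddSubgroup.coe_nsmul, AddMonoidHom.smul_apply] at h3
    have h2 : emb e (X.actTR e r y - X.actTR e r' y) = 0 := (hTw e _ (hemb_eig e _)).2 h1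
    have h3 := an.embed_injective (χ := X.chi e) (V := X.Coef) (X.surjective_toLoc_coef _)
      (h2.trans (map_zero _).symm)
    rw [map_sub, LinearMap.sub_apply, LinearMap.zero_apply]
    exact (X.modL e).injective (h3.trans (map_zero _).symm)
  have hgen : ∀ (l : ℕ) (hl : l.Prime) (hlM : ¬ l ∣ M) (hlb : l ∉ (↑X.badQ : Set ℕ))
      (l' : X.TrPrime), l'.1.1 = l →
      Rel (CuspForm.heckeAlgebra.T hl hlM hlb) (X.trace l') := by
    intro l hl hlM hlb l' hl' e y Φ hΦ
    subst hl'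
    haveI : Fact l'.1.1.Prime := ⟨hl⟩
    rw [inclFull_T hl hlM hlb, actA_heckeGen, resPar_hecke hlM, hΦ, map_nsmul, X.actTR_trace]
    congr 1
    set h := X.half e (X.unitOf l')
    have hc : (h : X.Coef) * ∏ r ∈ S.T ∪ X.Q, wt (X.etaFac e) r (l'.1.1 : ℤ) = 1 := by
      have hprod : ∏ r ∈ S.T ∪ X.Q, wt (X.etaFac e) r (l'.1.1 : ℤ) =
          ((X.chiU e (X.unitOf l') ^ X.halfExp : X.Coefˣ) : X.Coef) := by
        rw [X.chiU_eq_prod, ← Finset.prod_pow, Units.coe_prod,
          ← Finset.prod_coe_sort (S.T ∪ X.Q)]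
        refine Finset.prod_congr rfl fun r _ => ?_
        exact X.wt_cast e dvd_rfl _ (X.unitOf l') (by simp [unitOf]) r
      rw [hprod, ← Units.val_mul, show h = (X.chiU e (X.unitOf l') ^ X.halfExp)⁻¹ from rfl,
        inv_mul_cancel, Units.val_one]
    rw [hTwh e l'.1.1 l'.2 hlM _ hc, ← hTws]
    refine congrArg (Tw e) ?_
    show mapHpar _ _ = an.embed (χ := X.chi e) (V := X.Coef) _ (X.modL e ((h : X.Coef) •
      X.opMod e (MvPolynomial.X l'.1) y))
    rw [map_smul, an.embed_smul, X.modL_opMod, an.embed_X _ l'.1 l'.2]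
    rfl
  have hex' : ∀ t, ∃ r, Rel t r := by
    rintro ⟨t, ht⟩
    induction ht using Algebra.adjoin_induction with
    | mem x hx =>
      obtain ⟨l, hl, hlM, hlb, rfl⟩ | ⟨q, hqM, hq, hqb, -⟩ := hx
      · have hlb' : l ∉ S.bad := fun h => hlb (Finset.mem_coe.mpr (Finset.mem_union_left _ h))
        have hlL : ¬ l ∣ X.level := fun h => hlM (h.mul_right _)
        exact ⟨X.trace ⟨⟨l, hl, hlb'⟩, hlL⟩, hgen l hl hlM hlb ⟨⟨l, hl, hlb'⟩, hlL⟩ rfl⟩
      · exact absurd (Finset.mem_coe.mpr (X.mem_badQ_of_dvd hq hqM)) hqb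
    | algebraMap n =>
      refine ⟨(n : X.TR), fun e y Φ hΦ => ?_⟩
      have e1 : (⟨algebraMap ℤ _ n, Subalgebra.algebraMap_mem _ n⟩ :
          CuspForm.heckeAlgebra M 2 (↑X.badQ : Set ℕ)) =
            (n : CuspForm.heckeAlgebra M 2 (↑X.badQ : Set ℕ)) := Subtype.ext (by simp)
      rw [e1, map_intCast, map_intCast, map_intCast, AddMonoid.End.intCast_apply,
        Module.End.intCast_apply, map_zsmul, hΦ]
      simp only [emb, map_zsmul]
      exact smul_comm _ _ _
    | add a b ha hb iha ihb =>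
      obtain ⟨r, hr⟩ := iha
      obtain ⟨r', hr'⟩ := ihb
      refine ⟨r + r', fun e y Φ hΦ => ?_⟩
      have e1 : inclFull M X.badQ
          (⟨a + b, add_mem ha hb⟩ : CuspForm.heckeAlgebra M 2 (↑X.badQ : Set ℕ)) =
            inclFull M X.badQ ⟨a, ha⟩ + inclFull M X.badQ ⟨b, hb⟩ := Subtype.ext rfl
      rw [e1, map_add (actA M X.Coef), map_add, LinearMap.add_apply, hembadd, smul_add,
        ← hr e y Φ hΦ, ← hr' e y Φ hΦ, ← map_add resPar]
      rfl
    | mul a b ha hb iha ihb =>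
      obtain ⟨r, hr⟩ := iha
      obtain ⟨r', hr'⟩ := ihb
      refine ⟨r * r', fun e y Φ hΦ => ?_⟩
      have e1 : inclFull M X.badQ
          (⟨a * b, mul_mem ha hb⟩ : CuspForm.heckeAlgebra M 2 (↑X.badQ : Set ℕ)) =
            inclFull M X.badQ ⟨a, ha⟩ * inclFull M X.badQ ⟨b, hb⟩ := Subtype.ext rfl
      rw [e1, map_mul (actA M X.Coef), map_mul (X.actTR e), Module.End.mul_apply]
      exact hr e _ _ (hr' e y Φ hΦ)
  choose π hπ using hex'
  refine ⟨{ toFun := π, map_one' := ?_, map_mul' := fun s t => ?_, map_zero' := ?_,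
            map_add' := fun s t => ?_ }, fun l hlM hlb => ?_⟩
  · refine huniq 1 _ _ (hπ 1) fun e y Φ hΦ => ?_
    rw [map_one (inclFull M X.badQ), map_one (actA M X.Coef), map_one, Module.End.one_apply]
    exact hΦ
  · refine huniq _ _ _ (hπ _) fun e y Φ hΦ => ?_
    rw [map_mul (inclFull M X.badQ), map_mul (actA M X.Coef), map_mul (X.actTR e), Module.End.mul_apply]
    exact hπ s e _ _ (hπ t e y Φ hΦ)
  · refine huniq 0 _ _ (hπ 0) fun e y Φ hΦ => ?_
    rw [map_zero (inclFull M X.badQ), map_zero (actA M X.Coef), map_zero, LinearMap.zero_apply]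
    show resPar 0 = _
    simp only [emb, map_zero, smul_zero]
  · refine huniq _ _ _ (hπ _) fun e y Φ hΦ => ?_
    rw [map_add (inclFull M X.badQ), map_add (actA M X.Coef), map_add, LinearMap.add_apply, hembadd,
      smul_add, ← hπ s e y Φ hΦ, ← hπ t e y Φ hΦ, ← map_add resPar]
    rfl
  · exact huniq _ _ _ (hπ _) (hgen _ l.1.2.1 hlM hlb l rfl)

end Aux

end FLTAgent.ModLift
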