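import Fermat.Agent.ModLift.Modules.TraceAlgebra
import Fermat.Agent.Lowering.P4.Embedding
import Fermat.Agent.PeriodHecke.Freeness
import Fermat.Agent.Lowering.P4.BaseForms

/-!
# The base module comes from forms

For a trivial character the classes on `Γ₀(M)` are homomorphisms. The anchor sends them to the
homomorphisms killing parabolic and elliptic elements, on which the Hecke algebra of forms acts;
so that algebra acts on the localised classes. A residual system of forms occurs in the
homomorphisms with residual values, so the localised classes are non-zero.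
-/

set_option autoImplicit false
set_option linter.unusedSectionVars false
set_option linter.style.haveILetI false
set_option linter.style.haveILetI false

noncomputable section

set_option synthInstance.maxHeartbeats 400000
set_option maxHeartbeats 1000000

open scoped MatrixGroups
open CongruenceSubgroup IsLocalRing

namespace FLTAgent.ModLift

open FLTAgent.Lowering FLTAgent.Lowering.Cocycle FLTAgent.PeriodHecke

section Forms

variable {M : ℕ} [NeZero M] {O : Type} [CommRing O] {A : Type} [CommRing A] [Algebra O A]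
  {χ : ZMod M →* A} {bad : Finset ℕ} (hχ : ∀ d : ZMod M, IsUnit d → χ d = 1)
  (hbad : ∀ q : ℕ, q.Prime → q ∣ M → q ∈ bad) {k : Type} [Field k] {θ : Poly O bad →+* k}

section Trivial

variable {V : Type} [AddCommGroup V] [Module A V] (an : Anchor (N := M) θ M)

/-- The anchor sends classes to homomorphisms killing parabolic and elliptic elements. -/
theorem exists_homCls_op (htf : ∀ (m : ℕ) (v : V), m ≠ 0 → m • v = 0 → v = 0)
    (y : Coh O χ bad V) :
    ∃ φ : Hpar (Gamma0 M) V, homCls O bad hχ φ.1 = an.op • y := by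
  obtain ⟨φ, hφ⟩ := homCls_surjective O bad hχ (an.op • y)
  refine ⟨⟨φ, fun γ hγ => ?_⟩, hφ⟩
  obtain ⟨k, hk0, -, hk⟩ := Subgroup.exists_pow_mem_of_index_ne_zero
    (H := Gamma1 M) Subgroup.FiniteIndex.index_ne_zero ((γ : SL(2, ℤ)))
  set δ : Gamma1 M := ⟨(γ : SL(2, ℤ)) ^ k, hk⟩
  have hmat : mat δ = mat γ ^ k := by simp [mat, δ]
  have h := (an.parFun y).2 δ (by rw [hmat]; exact trace_pow_le _ (mat_det γ) hγ k)
  change resGamma1 χ an.dvd ((toCoh O χ bad V).symm (an.op • y)) (Additive.ofMul δ) = 0 at h
  rw [← hφ] at h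
  change φ (Additive.ofMul (toGamma0 an.dvd δ)) = 0 at h
  rw [show toGamma0 an.dvd δ = γ ^ k from Subtype.ext (by simp [coe_toGamma0, δ]), ofMul_pow,
    map_nsmul] at h
  exact htf k _ hk0.ne' h

end Trivial

include hχ hbad in
/-- The Hecke algebra of forms acts on the localised classes. -/
theorem exists_forms_hom (an : Anchor (N := M) θ M) (V : Type) [AddCommGroup V] [Module A V]
    (htf : ∀ (m : ℕ) (v : V), m ≠ 0 → m • v = 0 → v = 0) :
    ∃ g : CuspForm.heckeAlgebra M 2 (↑bad : Set ℕ) →+*
        Poly O bad ⧸ Module.annihilator (Poly O bad) (Loc χ V θ),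
      ∀ (l : ℕ) (hl : l.Prime) (hlM : ¬ l ∣ M) (hlb : l ∉ (↑bad : Set ℕ)),
        g (CuspForm.heckeAlgebra.T hl hlM hlb) =
          Ideal.Quotient.mk (Module.annihilator (Poly O bad) (Loc χ V θ))
            (MvPolynomial.X (⟨l, hl, hlb⟩ : GoodPrime bad)) := by
  set I := Module.annihilator (Poly O bad) (Loc χ V θ)
  set Rel := fun (t : CuspForm.heckeAlgebra M 2 (↑bad : Set ℕ)) (P : Poly O bad) =>
    ∀ φ : Hpar (Gamma0 M) V,
      P • homCls O bad hχ φ.1 = homCls O bad hχ (actA M V (inclFull M bad t) φ).1
  have huniq : ∀ t P Q, Rel t P → Rel t Q → Ideal.Quotient.mk I P = Ideal.Quotient.mk I Q := by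
    intro t P Q hP hQ
    refine Ideal.Quotient.eq.mpr (Module.mem_annihilator.mpr fun x => ?_)
    induction x using LocalizedModule.induction_on with
    | h y s =>
      obtain ⟨φ, hφ⟩ := exists_homCls_op hχ an htf y
      rw [LocalizedModule.smul'_mk, ← LocalizedModule.zero_mk 1, LocalizedModule.mk_eq]
      refine ⟨⟨an.op, an.op_mem⟩, ?_⟩
      simp only [Submonoid.smul_def, one_smul, smul_zero]
      rw [smul_comm, ← hφ, sub_smul, hP φ, hQ φ, sub_self]
  choose P hP using exists_poly (O := O) hχ hbad V
  have hrel : ∀ t, Rel t (P t) := hP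
  refine ⟨{ toFun := fun t => Ideal.Quotient.mk I (P t), map_one' := ?_, map_mul' := fun s t => ?_,
            map_zero' := ?_, map_add' := fun s t => ?_ }, fun l hl hlM hlb => ?_⟩
  · rw [← map_one (Ideal.Quotient.mk I)]
    exact huniq 1 _ _ (hrel 1) fun φ => by rw [one_smul, map_one, map_one]; rfl
  · rw [← map_mul (Ideal.Quotient.mk I)]
    exact huniq _ _ _ (hrel _) fun φ => by
      rw [mul_smul, hP t, hP s, map_mul (inclFull M bad), map_mul (actA M V)]
      rfl
  · rw [← map_zero (Ideal.Quotient.mk I)]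
    exact huniq 0 _ _ (hrel 0) fun φ => by
      rw [zero_smul, map_zero, map_zero]
      exact (map_zero _).symm
  · rw [← map_add (Ideal.Quotient.mk I)]
    exact huniq _ _ _ (hrel _) fun φ => by
      rw [add_smul, hP s, hP t, map_add (inclFull M bad), map_add (actA M V), ← map_add]
      rfl
  · show Ideal.Quotient.mk I _ = _
    refine huniq _ _ _ (hrel _) fun φ => ?_
    haveI : Fact l.Prime := ⟨hl⟩
    rw [X_smul_homCls O bad hχ ⟨l, hl, hlb⟩ hlM, inclFull_T, actA_heckeGen]
    rfl

end Forms

end FLTAgent.ModLift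

namespace FLTAgent.ModLift.Aux

open FLTAgent.Lowering

open FLTAgent.Lowering.Cocycle

variable {p : ℕ} [Fact p.Prime] {O : Type} [CommRing O] [IsDomain O] [IsDiscreteValuationRing O]
  [Algebra ℤ_[p] O] (S : Setup p O)

theorem level_empty : (Aux.empty S).level = S.M0 := by simp [Aux.level, Aux.empty]

theorem chi_empty (d : ZMod (Aux.empty S).level) (hd : IsUnit d) :
    (Aux.empty S).chi false d = 1 := by
  rw [← hd.unit_spec, (Aux.empty S).chi_coe,
    Subsingleton.elim ((Aux.empty S).dia hd.unit) 1, map_one, mul_one]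
  simp only [Setup.eps, Bool.false_eq_true, if_false, MonoidHom.one_apply, Units.val_one, map_one]

theorem sys_empty_X (l : GoodPrime S.bad) :
    (Aux.empty S).sys (MvPolynomial.X l) = S.tr0 l :=
  (Aux.empty S).sysOn_not_mem (Finset.notMem_empty _)

theorem not_dvd_level_empty (l : GoodPrime S.bad) : ¬ l.1 ∣ (Aux.empty S).level := by
  rw [level_empty]
  exact S.not_dvd_M0 l

variable [Module.Finite ℤ_[p] O]

theorem charP_residue : CharP (ResidueField O) p :=
  (CharP.charP_iff_prime_eq_zero Fact.out).mpr (residue_natCast_eq_zero p O)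

theorem exists_anchor_empty :
    Nonempty (Anchor (N := (Aux.empty S).level) (Aux.empty S).sys (Aux.empty S).level) := by
  obtain ⟨l, V, τ, hl, hlb, hlM, hl1, hlp, hV, hτ, htr⟩ :=
    S.exists_separating (residue_natCast_eq_zero p O) (Aux.empty S).level
  haveI := charP_residue (p := p) (O := O)
  refine ⟨⟨⟨l, hl, hlb⟩, dvd_rfl, hlM, hl1, ?_, ?_⟩⟩
  · rw [show (Aux.empty S).sys (MvPolynomial.X (⟨l, hl, hlb⟩ : GoodPrime S.bad)) =
      S.tr0 ⟨l, hl, hlb⟩ from sys_empty_X S _, S.tr0_spec ⟨l, hl, hlb⟩ V hV τ hτ]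
    have h1 : (l : ResidueField O) = 1 := by
      have := congrArg (ZMod.castHom (dvd_refl p) (ResidueField O)) hlp
      rwa [map_natCast, map_one] at this
    show trGL (S.rb τ) ≠ (l : ResidueField O) + 1
    rw [h1, one_add_one_eq_two]
    exact htr
  · rw [level_empty]
    exact S.five_le

/-- The untwisted module of the base level is non-zero. -/
theorem nontrivial_mod_empty : Nontrivial ((Aux.empty S).Mod false) := by
  haveI := charP_residue (p := p) (O := O)
  let π : (Aux.empty S).Coef →+* ResidueField O := (residue O).comp (Aux.empty S).aug.toRingHom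
  letI : Module (Aux.empty S).Coef (ResidueField O) := Module.compHom _ π
  have hsmul : ∀ (a : (Aux.empty S).Coef) (v : ResidueField O), a • v = π a * v := fun _ _ => rfl
  obtain ⟨e, he⟩ := exists_level_hom (M := (Aux.empty S).level) (M' := S.M0)
    (level_empty S).symm (↑S.bad : Set ℕ)
  haveI := nontrivial_loc_residual (χ := (Aux.empty S).chi false) (θ := (Aux.empty S).sys)
    (chi_empty S) (fun r v => by
      rw [hsmul]
      show residue O ((Aux.empty S).aug (algebraMap O _ r)) * v = _
      rw [AlgHom.commutes, sys, sysOn_C]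
      rfl) p (S.mtheta.comp e) (not_dvd_level_empty S) (fun l => by
      rw [sys_empty_X, RingHom.comp_apply, he _ _ _ (S.not_dvd_M0 l)]
      rfl)
  let f : (Aux.empty S).Coef →ₗ[(Aux.empty S).Coef] ResidueField O :=
    { toFun := π, map_add' := map_add π, map_smul' := fun a b => map_mul π a b }
  have hf : Function.Surjective f := (residue_surjective).comp (Aux.empty S).aug_surjective
  haveI := (mapLoc_surjective ((Aux.empty S).chi false) (Aux.empty S).sys
    ((Aux.empty S).chi_neg false)
    (S.liftable (Aux.empty S).dvd_M0_level (algebraMap O (Aux.empty S).Coef)) f hf).nontrivial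
  exact ((Aux.empty S).modL false).toEquiv.nontrivial

variable [CharZero O]

theorem coef_empty_eq_zero (m : ℕ) (v : (Aux.empty S).Coef) (hm : m ≠ 0) (h : m • v = 0) :
    v = 0 := by
  refine (RingHom.injective_iff_ker_eq_bot _).mpr (ker_aug_empty (S := S)) ?_
  have h1 := congrArg (Aux.empty S).aug h
  rw [map_nsmul, map_zero, nsmul_eq_mul] at h1
  rw [map_zero]
  exact (mul_eq_zero.mp h1).resolve_left (Nat.cast_ne_zero.mpr hm)

/-- The untwisted module of the base level comes from forms on `Γ₀(M0)`. -/
theorem exists_base_forms :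
    ∃ f : CuspForm.heckeAlgebra S.M0 2 (↑S.bad : Set ℕ) →+*
        Module.End (Aux.empty S).Coef ((Aux.empty S).Mod false),
      ∀ (l : ℕ) (hl : l.Prime) (hlM : ¬ l ∣ S.M0) (hlb : l ∉ (↑S.bad : Set ℕ)),
        f (CuspForm.heckeAlgebra.T hl hlM hlb) =
          (Aux.empty S).opMod false (MvPolynomial.X (⟨l, hl, hlb⟩ : GoodPrime S.bad)) := by
  obtain ⟨an⟩ := exists_anchor_empty S
  obtain ⟨g, hg⟩ := exists_forms_hom (χ := (Aux.empty S).chi false) (chi_empty S)
    (fun q hq hqM => S.level_mem q hq (by rwa [level_empty] at hqM)) an (Aux.empty S).Coef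
    (coef_empty_eq_zero S)
  obtain ⟨e, he⟩ := exists_level_hom (M := S.M0) (M' := (Aux.empty S).level)
    (level_empty S) (↑S.bad : Set ℕ)
  refine ⟨((Ideal.Quotient.lift _ ((Aux.empty S).opMod false) fun r hr =>
    LinearMap.ext fun x => ((Aux.empty S).modL false).injective ?_).comp g).comp e,
    fun l hl hlM hlb => ?_⟩
  · rw [modL_opMod, Module.mem_annihilator.mp hr, LinearMap.zero_apply, map_zero]
  · rw [RingHom.comp_apply, RingHom.comp_apply,
      he l hl hlM (not_dvd_level_empty S ⟨l, hl, hlb⟩) hlb, hg, Ideal.Quotient.lift_mk]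

end FLTAgent.ModLift.Aux
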