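import Fermat.Agent.ModLift.Modules.TraceInertia
import Fermat.Agent.ModLift.Modules.BaseForms
import Fermat.Agent.Lowering.P4.TraceBase

/-!
# The twisted traces and the map to the base level

Coinvariants intertwine the twisted traces of a level with those of the level without auxiliary
primes, which gives a map of trace algebras compatible with the pseudo-characters.
-/

set_option autoImplicit false
set_option linter.unusedSectionVars false
set_option linter.style.haveILetI false

noncomputable section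

set_option synthInstance.maxHeartbeats 400000
set_option maxHeartbeats 1000000

open IsLocalRing FLTAgent.Lowering.Cocycle FLTAgent.EigenReps

namespace FLTAgent.ModLift

open FLTAgent.Lowering

local notation "LL" => AlgebraicClosure ℚ
local notation "GG" => (AlgebraicClosure ℚ ≃ₐ[ℚ] AlgebraicClosure ℚ)

variable {p : ℕ} [Fact p.Prime] {O : Type} [CommRing O] [IsDomain O] [IsDiscreteValuationRing O]
  [Algebra ℤ_[p] O] [Module.Finite ℤ_[p] O] {S : Setup p O} (X : Aux S)

namespace Aux

instance nontrivial_mod : Nontrivial (X.Mod false) :=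
  haveI := nontrivial_mod_empty S
  (X.coinv_surjective false).nontrivial

theorem coinv_smul (e : Bool) (a : X.Coef) (x : X.Mod e) :
    X.coinv e (a • x) = X.aug a • X.coinv e x := by
  have hmem : a - algebraMap O X.Coef (X.aug a) ∈ RingHom.ker X.aug := by
    rw [RingHom.mem_ker, map_sub, AlgHom.commutes]
    exact sub_self _
  have h0 : X.coinv e ((a - algebraMap O X.Coef (X.aug a)) • x) = 0 :=
    (X.coinv_eq_zero_iff e _).mpr (Submodule.smul_mem_smul hmem Submodule.mem_top)
  rw [show a • x = (a - algebraMap O X.Coef (X.aug a)) • x + X.aug a • x from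
    ((congrArg (· • x) (sub_add_cancel a (algebraMap O X.Coef (X.aug a))).symm).trans
      (add_smul _ _ x)).trans (congrArg (_ + ·) (X.mod_smul e _ x).symm),
    map_add, h0, zero_add, map_smul]

theorem coef_empty_eq (a : (Aux.empty S).Coef) :
    a = algebraMap O (Aux.empty S).Coef ((Aux.empty S).aug a) :=
  (RingHom.injective_iff_ker_eq_bot _).mpr (ker_aug_empty (S := S))
    ((Aux.empty S).aug.commutes _).symm

theorem toAug_X (e : Bool) (l : GoodPrime S.bad) (x : X.Mod e) :
    X.toAug e (X.opMod e (MvPolynomial.X l) x) =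
      (MvPolynomial.X l : Poly O S.bad) • X.toAug e x := by
  show mapLoc _ _ _ ((X.augMap e).resLoc (mapLoc _ _ _ (X.modL e (X.opMod e _ x)))) =
    (MvPolynomial.X l : Poly O S.bad) •
      mapLoc _ _ _ ((X.augMap e).resLoc (mapLoc _ _ _ (X.modL e x)))
  rw [X.modL_opMod, map_smul, (X.augMap e).resLoc_X l (fun h => h.2 h.1)
    (X.surjective_toLoc_coef _), map_smul]

theorem coinv_X (e : Bool) (l : GoodPrime S.bad) (hl : ¬ l.1 ∣ X.level) (x : X.Mod e) :
    X.coinv e (X.opMod e (MvPolynomial.X l) x) =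
      (Aux.empty S).opMod e (MvPolynomial.X l) (X.coinv e x) := by
  refine (X.baseEquiv e).injective ?_
  rw [X.baseEquiv_coinv, X.toAug_X]
  show _ = (X.fromBase e O).resLoc ((Aux.empty S).toAug e ((Aux.empty S).opMod e _ (X.coinv e x)))
  rw [(Aux.empty S).toAug_X, (X.fromBase e O).resLoc_X l (fun h => hl h.1)
    ((Aux.empty S).surjective_toLoc_base e O)]
  exact congrArg _ (X.baseEquiv_coinv e x).symm

/-- A prime away from the level is away from `M0`. -/
def toBasePrime (l : X.TrPrime) : (Aux.empty S).TrPrime :=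
  ⟨l.1, not_dvd_level_empty S l.1⟩

theorem eps_natCast {N N' : ℕ} (h : S.M0 ∣ N) (h' : S.M0 ∣ N') (e : Bool) (u : (ZMod N)ˣ)
    (u' : (ZMod N')ˣ) (a : ℕ) (hu : (u : ZMod N) = a) (hu' : (u' : ZMod N') = a) :
    S.eps h e u = S.eps h' e u' := by
  cases e
  · simp [Setup.eps]
  · simp only [Setup.eps, if_true, MonoidHom.finsetProd_apply]
    refine Finset.prod_congr rfl fun t _ => congrArg (S.χ t.1 t.2) (Units.ext ?_)
    show ZMod.castHom _ (ZMod t.1) (u : ZMod N) = ZMod.castHom _ (ZMod t.1) (u' : ZMod N')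
    rw [hu, hu', map_natCast, map_natCast]

/-- The augmentation of the square root. -/
theorem aug_half (e : Bool) (u : (ZMod X.level)ˣ) :
    X.aug (X.half e u : X.Coef) =
      (((S.eps X.dvd_M0_level e u) ^ ((p + 1) / 2))⁻¹ : Oˣ) := by
  have hp : Odd p := (Fact.out : p.Prime).eq_two_or_odd'.resolve_left S.p_ne
  have h1 : Units.map X.aug.toRingHom.toMonoidHom (X.chiU e u) = S.eps X.dvd_M0_level e u :=
    Units.ext (by
      show X.aug (X.chiU e u : X.Coef) = _
      rw [show (X.chiU e u : X.Coef) = X.chi e (u : ZMod X.level) from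
        (MulChar.ofUnitHom_coe (X.chiU e) u).symm, X.aug_chi e u.isUnit, S.charO_coe])
  have h2 : Units.map X.aug.toRingHom.toMonoidHom (X.half e u) =
      (S.eps X.dvd_M0_level e u ^ ((p + 1) / 2))⁻¹ := by
    rw [half_apply, map_inv, map_pow, h1, inv_inj]
    have hpow : ∀ k : ℕ, (S.eps X.dvd_M0_level e u ^ k) ^ p = 1 := fun k => by
      rw [← pow_mul, mul_comm, pow_mul, S.eps_pow, one_pow]
    refine eq_of_sq_eq_of_odd hp (hpow _) (hpow _) ?_
    rw [← pow_mul, ← pow_mul, mul_comm _ 2, mul_comm _ 2, X.two_mul_halfExp,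
      show 2 * ((p + 1) / 2) = p + 1 by obtain ⟨j, hj⟩ := hp; omega, pow_succ, pow_succ, pow_mul',
      S.eps_pow, one_pow, pow_succ (S.eps X.dvd_M0_level e u) p, S.eps_pow]
  exact congrArg Units.val h2

theorem coinv_genE (e : Bool) (l : X.TrPrime) (x : X.Mod e) :
    X.coinv e (X.genE e l x) = (Aux.empty S).genE e (X.toBasePrime l) (X.coinv e x) := by
  show X.coinv e ((X.half e (X.unitOf l) : X.Coef) • X.opMod e (MvPolynomial.X l.1) x) =
    ((Aux.empty S).half e ((Aux.empty S).unitOf (X.toBasePrime l)) : (Aux.empty S).Coef) •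
      (Aux.empty S).opMod e (MvPolynomial.X l.1) (X.coinv e x)
  rw [X.coinv_smul, X.coinv_X e l.1 l.2,
    coef_empty_eq ((Aux.empty S).half e _ : (Aux.empty S).Coef), X.aug_half,
    (Aux.empty S).aug_half, ← (Aux.empty S).mod_smul]
  rw [eps_natCast X.dvd_M0_level (Aux.empty S).dvd_M0_level e (X.unitOf l)
    ((Aux.empty S).unitOf (X.toBasePrime l)) l.1.1 rfl rfl]

/-- The values of the twisted traces at the base level. -/
def baseEval : MvPolynomial X.TrPrime O →ₐ[O] (Aux.empty S).TR :=
  MvPolynomial.aeval fun l => (Aux.empty S).trace (X.toBasePrime l)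

theorem coinv_act_mk (e : Bool) (P : MvPolynomial X.TrPrime O) (x : X.Mod e) :
    X.coinv e (X.actTR e (Ideal.Quotient.mk _ P) x) =
      (Aux.empty S).actTR e (X.baseEval P) (X.coinv e x) := by
  induction P using MvPolynomial.induction_on generalizing x with
  | C r =>
    rw [X.mk_C, X.actTR_algebraMap, baseEval, MvPolynomial.aeval_C,
      (Aux.empty S).actTR_algebraMap, map_smul]
  | add a b ha hb =>
    rw [map_add, map_add, LinearMap.add_apply, map_add, ha, hb, map_add, map_add,
      LinearMap.add_apply]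
  | mul_X a l ha =>
    rw [map_mul, map_mul, Module.End.mul_apply, ha, map_mul, map_mul, Module.End.mul_apply,
      show X.actTR e (Ideal.Quotient.mk _ (MvPolynomial.X l)) x = X.genE e l x from
        LinearMap.congr_fun (X.actTR_trace e l) x, X.coinv_genE]
    refine congrArg _ (LinearMap.congr_fun ?_ _)
    rw [baseEval, MvPolynomial.aeval_X, (Aux.empty S).actTR_trace]

theorem ker_le_baseEval : RingHom.ker X.evalTr ≤ RingHom.ker X.baseEval := fun P hP => by
  refine RingHom.mem_ker.mpr ((Aux.empty S).actTR_faithful _ fun e => LinearMap.ext fun y => ?_)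
  obtain ⟨x, rfl⟩ := X.coinv_surjective e y
  rw [← X.coinv_act_mk, Ideal.Quotient.eq_zero_iff_mem.mpr hP, map_zero, LinearMap.zero_apply,
    map_zero]
  rfl

/-- The map to the trace algebra of the base level. -/
def resTR : X.TR →ₐ[O] (Aux.empty S).TR :=
  Ideal.Quotient.liftₐ _ X.baseEval fun _ h => X.ker_le_baseEval h

theorem coinv_actTR (e : Bool) (t : X.TR) (x : X.Mod e) :
    X.coinv e (X.actTR e t x) = (Aux.empty S).actTR e (X.resTR t) (X.coinv e x) := by
  obtain ⟨P, rfl⟩ := Ideal.Quotient.mk_surjective t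
  exact X.coinv_act_mk e P x

variable [CharZero O]

theorem resTR_pseudo {P : PseudoChar GG X.TR} {P0 : PseudoChar GG (Aux.empty S).TR}
    (hP : X.IsTracePseudo P) (hP0 : (Aux.empty S).IsTracePseudo P0) (σ : GG) :
    X.resTR (P.tr σ) = P0.tr σ := by
  haveI := (Aux.empty S).isAdicComplete_TR
  refine eq_of_forall_mk_pow (I := (Aux.empty S).pIdeal) fun m => ?_
  let π : (Aux.empty S).TR →+* ((Aux.empty S).TR ⧸ (Aux.empty S).pIdeal ^ m) :=
    Ideal.Quotient.mk _
  obtain ⟨L, hL, hfix⟩ := hP.level m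
  obtain ⟨L0, hL0, hfix0⟩ := hP0.level m
  refine tr_eq_of_good (X := X) (P.map (π.comp X.resTR.toRingHom) :
      PseudoChar GG ((Aux.empty S).TR ⧸ (Aux.empty S).pIdeal ^ m))
    (P0.map π : PseudoChar GG ((Aux.empty S).TR ⧸ (Aux.empty S).pIdeal ^ m))
    ⟨L, hL, fun τ hτ g => ?_⟩
    ⟨L0, hL0, fun τ hτ g => (Ideal.Quotient.mk_eq_mk_iff_sub_mem _ _).mpr (hfix0 τ hτ g)⟩
    (fun l V hV τ hτ => ⟨?_, ?_⟩) σ
  · refine (Ideal.Quotient.mk_eq_mk_iff_sub_mem _ _).mpr ?_
    show X.resTR (P.tr (g * τ)) - X.resTR (P.tr g) ∈ (Aux.empty S).pIdeal ^ m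
    have h := Ideal.mem_map_of_mem X.resTR.toRingHom (hfix τ hτ g)
    rw [Ideal.map_pow, Ideal.map_span, Set.image_singleton, map_natCast, map_sub] at h
    exact h
  · show π (X.resTR (P.tr τ)) = π (P0.tr τ)
    rw [hP.frob l V hV τ hτ, hP0.frob (X.toBasePrime l) V hV τ hτ]
    exact congrArg π (MvPolynomial.aeval_X _ l)
  · show π (X.resTR (P.det τ)) = π (P0.det τ)
    rw [hP.det_eq, hP0.det_eq]
    refine congrArg π ?_
    show X.resTR (algebraMap ℤ_[p] X.TR (cycZ p τ)) = algebraMap ℤ_[p] _ (cycZ p τ)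
    rw [IsScalarTower.algebraMap_apply ℤ_[p] O X.TR, AlgHom.commutes,
      ← IsScalarTower.algebraMap_apply]

end Aux

end FLTAgent.ModLift
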