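import Fermat.Agent.Lowering.P3.Geometry
import Fermat.Agent.Lowering.P3.Flat.Target
import Fermat.Agent.Lowering.P3.Inertia
import Fermat.Agent.Lowering.P3.Unipotent
import Fermat.Agent.ModLift.Modules.Assembly

/-!
# The geometric input and the modules

The bounds on the canonical torsion give the geometric input at every auxiliary level, so the
modules exist.
-/

set_option autoImplicit false
set_option linter.unusedSectionVars false
set_option linter.style.haveILetI false
set_option synthInstance.maxHeartbeats 400000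
set_option maxHeartbeats 1000000

noncomputable section

namespace FLTAgent.ModLift

open FLTAgent.Lowering FLTAgent.DeligneSerre
open FLTAgent.Lowering.P3 (auxFac auxFac_not_dvd realisation)

variable {p : ℕ} [Fact p.Prime] {O : Type} [CommRing O] [IsDomain O] [IsDiscreteValuationRing O]
  [Algebra ℤ_[p] O] {S : Setup p O} (X : Aux S)

namespace Aux

theorem level_squarefree : Squarefree X.level := by
  classical
  refine Nat.squarefree_mul_iff.2 ⟨?_, S.M0_squarefree, ?_⟩
  · refine Nat.Coprime.prod_right fun q hq => Nat.Coprime.symm ?_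
    exact (X.prime q hq).coprime_iff_not_dvd.2 fun h =>
      X.notMem q hq (S.level_mem q (X.prime q hq) h)
  · refine Finset.squarefree_prod_of_pairwise_isCoprime (fun a ha b hb hab => ?_) fun q hq =>
      (X.prime q hq).squarefree
    show IsRelPrime a b
    exact Nat.coprime_iff_isRelPrime.1 ((Nat.coprime_primes (X.prime a ha) (X.prime b hb)).2 hab)

theorem not_dvd_level (h0 : ¬ p ∣ S.M0) : ¬ p ∣ X.level := by
  intro h
  rcases (Fact.out : p.Prime).dvd_mul.1 h with h | h
  · exact h0 h
  · obtain ⟨q, hq, hpq⟩ := (Nat.Prime.prime (Fact.out : p.Prime)).exists_mem_finset_dvd h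
    exact X.notMem q hq ((Nat.prime_dvd_prime_iff_eq Fact.out (X.prime q hq)).1 hpq ▸ S.p_mem)

theorem allowed (l : ℕ) : X.Allowed (X.level * auxFac l) := by
  refine ⟨?_, dvd_mul_right _ _, fun q hq h => ?_⟩
  · unfold auxFac
    split_ifs
    · exact Or.inr (dvd_mul_left 9 _)
    · exact Or.inl (dvd_mul_left 4 _)
  · rcases hq.dvd_mul.1 h with h | h
    · rcases hq.dvd_mul.1 h with h | h
      · exact Or.inl (S.level_mem q hq h)
      · obtain ⟨r, hr, hqr⟩ := (Nat.Prime.prime hq).exists_mem_finset_dvd h
        exact Or.inr ((Nat.prime_dvd_prime_iff_eq hq (X.prime r hr)).1 hqr ▸ hr)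
    · left
      unfold auxFac at h
      split_ifs at h
      · exact (Nat.prime_dvd_prime_iff_eq hq Nat.prime_three).1
          (hq.dvd_of_dvd_pow (n := 2) (by simpa using h)) ▸ S.three_mem
      · exact (Nat.prime_dvd_prime_iff_eq hq Nat.prime_two).1
          (hq.dvd_of_dvd_pow (n := 2) (by simpa using h)) ▸ S.two_mem

/-- The geometric input. -/
theorem geometry : Geometry X := by
  have hp : p.Prime := Fact.out
  haveI : ∀ l, NeZero (X.level * auxFac l) := fun l =>
    ⟨mul_ne_zero X.level_pos.ne' (NeZero.ne (auxFac l))⟩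
  refine ⟨⟨X.level * auxFac 3, inferInstance, allowed X 3, fun h0 h => ?_,
      ⟨realisation P3.targetFlat (allowed X 3).aux⟩⟩,
    fun l hl hlp hlX => ?_, fun l hl _ hlX => ?_⟩
  · rcases hp.dvd_mul.1 h with h | h
    · exact not_dvd_level X h0 h
    · unfold auxFac at h
      rw [if_neg (by norm_num)] at h
      exact S.p_ne ((Nat.prime_dvd_prime_iff_eq hp Nat.prime_two).1
        (hp.dvd_of_dvd_pow (n := 2) (by simpa using h)))
  · set M := X.level * auxFac l with hM
    have hl2 : ¬ l ^ 2 ∣ M := fun h => by
      rw [sq] at h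
      obtain ⟨a, ha⟩ := hlX
      rw [hM, ha, mul_assoc] at h
      rcases hl.dvd_mul.1 ((Nat.mul_dvd_mul_iff_left hl.pos).1 h) with h | h
      · exact hl.not_isUnit (level_squarefree X l (by rw [ha]; exact Nat.mul_dvd_mul_left l h))
      · exact auxFac_not_dvd hl h
    have hA := (allowed X l).aux
    have hlM : l ∣ M := hlX.mul_right _
    have hpl : ∀ k : ℕ, ¬ l ∣ p ^ k := fun k h =>
      hlp ((Nat.prime_dvd_prime_iff_eq hl Fact.out).1 (hl.dvd_of_dvd_pow h))
    refine ⟨M, inferInstance, realisation P3.targetFlat hA, allowed X l, hl2, ?_, ?_⟩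
    · obtain ⟨B, hB, h⟩ := P3.targetInertia M Kronecker.complexEmb (field1 M _ hA) hA l hl hlM hl2
      exact ⟨B, hB, fun V hV σ hσ γ hγ hc k φ hφ => h V hV σ hσ γ hγ hc (p ^ k) (hpl k) φ hφ⟩
    · obtain ⟨B, hB, h⟩ := P3.targetUnipotent M Kronecker.complexEmb (field1 M _ hA) hA l hl hlM hl2
      exact ⟨B, hB, fun V hV σ hσ k φ hφ => h V hV σ hσ (p ^ k) (hpl k) φ hφ⟩
  · refine ⟨X.level * auxFac l, inferInstance, allowed X l, fun h => ?_,
      ⟨realisation P3.targetFlat (allowed X l).aux⟩⟩
    rcases hl.dvd_mul.1 h with h | h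
    · exact hlX h
    · exact auxFac_not_dvd hl h

end Aux

/-- The transport of auxiliary primes between setups with the same bad set and representation. -/
def Aux.transport {S' : Setup p O} (hb : S'.bad = S.bad) (hr : S'.rb = S.rb) : Aux S' where
  Q := X.Q
  prime := X.prime
  notMem q hq := hb.symm ▸ X.notMem q hq
  one_mod := X.one_mod
  α := X.α
  α_sq := X.α_sq
  α_root q hq := hr.symm ▸ X.α_root q hq

/-- **The modules at all levels.** -/
theorem nonempty_output [Module.Finite ℤ_[p] O] [CharZero O] (S : Setup p O) :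
    Nonempty (Output S) :=
  targetModules p O S (Aux.geometry (Aux.empty S))

end FLTAgent.ModLift
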