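import Fermat.Agent.ModLift.Modules.Interface
import Fermat.Agent.Lowering.P6.Tangent.Flat

/-!
# Flatness at `p` of the pieces of a level prime to `p`

When `p` does not divide the level the finite pieces of the representation lie in the torsion of
good reduction, up to a twist unramified at `p`, so they are flat.
-/

set_option autoImplicit false
set_option linter.unusedSectionVars false
set_option linter.style.haveILetI false

noncomputable section

set_option synthInstance.maxHeartbeats 400000
set_option maxHeartbeats 1000000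

open IsLocalRing

namespace FLTAgent.ModLift

open FLTAgent.Lowering

local notation "LL" => AlgebraicClosure ℚ
local notation "GG" => (AlgebraicClosure ℚ ≃ₐ[ℚ] AlgebraicClosure ℚ)

variable {p : ℕ} [Fact p.Prime] {O : Type} [CommRing O] [IsDomain O] [IsDiscreteValuationRing O]
  [Algebra ℤ_[p] O] {S : Setup p O} {X : Aux S}

/-- **Flatness.** The level is seen on flat modules, faithfully up to a fixed power of `p`. -/
theorem LevelData.flat (D : LevelData X) (hp : ¬ p ∣ S.M0) {P : ValuationSubring LL}
    (hP : P.LiesOverPrime p) :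
    ∃ s : ℕ, ∀ n : ℕ, ∃ (W : Type) (_ : AddCommGroup W) (_ : Module D.R W) (_ : Finite W)
      (actW : GG →* Module.End D.R W),
      (∀ w : W, p ^ n • w = 0) ∧
      (∀ (σ : GG) (w : W), actW σ (actW σ w) + detGL (D.ρ σ) • w = trGL (D.ρ σ) • actW σ w) ∧
      (∀ t : D.R, (∀ w : W, t • w = 0) → t ∈ Ideal.span {(p : D.R) ^ (n - s)}) ∧
      FlatLocal.FlatI P fun σ : FlatLocal.Dec P => actW (σ : GG) := by
  obtain ⟨M', hM', Z, s, hA, hM'p, h⟩ := D.torsion
  refine ⟨s, fun n => ?_⟩
  obtain ⟨W, hW1, hW2, hW3, actW, hkill, hrel, hann, d, j, tw, hj, -, htwp, -, hjeq⟩ := h n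
  refine ⟨W, hW1, hW2, hW3, actW, hkill, hrel, hann, ?_⟩
  haveI : NeZero (p ^ n) := ⟨pow_ne_zero _ (Fact.out : p.Prime).ne_zero⟩
  haveI : Finite (Additive (CongruenceSubgroup.Gamma1 M') →+ ZMod (p ^ n)) :=
    DeligneSerre.Tors.finite_hom (ZMod (p ^ n))
  haveI : Finite (PeriodHecke.Hpar (CongruenceSubgroup.Gamma1 M') (ZMod (p ^ n))) :=
    inferInstance
  refine (Lowering.P6.Tangent.flatI_fin (Z.flat (hM'p hp) n P hP) d).restrict j hj fun σ hσ w => ?_
  show j (actW (σ : GG) w) = _
  rw [hjeq, htwp P hP _ hσ]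
  rfl

end FLTAgent.ModLift
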