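import Fermat.Agent.ModLift.Modules.Coefficient
import Fermat.Agent.ModLift.Modules.Separation
import Fermat.Agent.Lowering.P4.BaseChange
import Fermat.Agent.Frobenius.Exists
import Fermat.Agent.ModLift.Modules.Localisation

/-!
# The characters and residual systems of the levels
-/

set_option autoImplicit false
set_option linter.unusedSectionVars false
set_option linter.style.haveILetI false

noncomputable section

set_option synthInstance.maxHeartbeats 400000

open IsLocalRing FLTAgent.Lowering.Cocycle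

namespace FLTAgent.ModLift

open FLTAgent.Lowering

local notation "LL" => AlgebraicClosure ℚ
local notation "GG" => (AlgebraicClosure ℚ ≃ₐ[ℚ] AlgebraicClosure ℚ)

variable {p : ℕ} [Fact p.Prime] {O : Type} [CommRing O] [IsDomain O] [IsDiscreteValuationRing O]
  [Algebra ℤ_[p] O] (S : Setup p O)

namespace Setup

include S in
theorem natCast_ne_zero [Module.Finite ℤ_[p] O] {m : ℕ} (h0 : 0 < m) (hm : m < p) :
    (m : ResidueField O) ≠ 0 := by
  haveI : CharP (ResidueField O) p :=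
    (CharP.charP_iff_prime_eq_zero Fact.out).mpr (residue_natCast_eq_zero p O)
  rw [Ne, CharP.cast_eq_zero_iff (ResidueField O) p]
  exact fun h => absurd (Nat.le_of_dvd h0 h) (not_le.mpr hm)

include S in
theorem isUnit_two [Module.Finite ℤ_[p] O] : IsUnit (2 : O) := by
  rw [show (2 : O) = ((2 : ℕ) : O) by norm_num]
  refine (residue_ne_zero_iff_isUnit _).mp ?_
  rw [map_natCast]
  exact S.natCast_ne_zero (by norm_num)
    (lt_of_le_of_ne (Fact.out : p.Prime).two_le (Ne.symm S.p_ne))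

/-- Classes lift at every level divisible by `M0`. -/
theorem liftable [Module.Finite ℤ_[p] O] {N : ℕ} (h : S.M0 ∣ N) {A : Type} [CommRing A]
    (f : O →+* A) : Liftable N A := by
  refine ⟨map_ofNat f 2 ▸ S.isUnit_two.map f, ?_⟩
  rcases S.tors with h5 | hno
  · refine isEllWeight_of_isUnit _ ?_
    rw [← map_ofNat f 3]
    refine IsUnit.map f ((residue_ne_zero_iff_isUnit _).mp ?_)
    rw [map_ofNat, show (3 : ResidueField O) = ((3 : ℕ) : ResidueField O) by norm_num]
    exact S.natCast_ne_zero (by norm_num) (by omega)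
  · refine isEllWeight_of_forall_notMem (by simp [CongruenceSubgroup.Gamma0_mem])
      (notMem_gamma0_of_forall_ne fun a ha => hno (ZMod.castHom h (ZMod S.M0) a) ?_) A
    rw [← map_pow, ← map_sub, ← map_one (ZMod.castHom h (ZMod S.M0)), ← map_add, ha, map_zero]

variable {N : ℕ} (h : S.M0 ∣ N)

/-- The product of the characters at the primes to be removed. -/
def eps (e : Bool) : (ZMod N)ˣ →* Oˣ :=
  if e then ∏ t : S.T, (S.χ t.1 t.2).comp
    (Units.map (ZMod.castHom ((S.T_prime t.1 t.2).2.1.trans h) (ZMod t.1)).toMonoidHom) else 1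

theorem eps_pow (e : Bool) (u : (ZMod N)ˣ) : S.eps h e u ^ p = 1 := by
  cases e
  · simp [eps]
  · simp only [eps, if_true, MonoidHom.finsetProd_apply, ← Finset.prod_pow]
    exact Finset.prod_eq_one fun t _ => S.χ_pow _ _ _

/-- The character of a module, extended by zero. -/
def charO [NeZero N] (e : Bool) : ZMod N →* O :=
  (MulChar.ofUnitHom (S.eps h e)).toMonoidHom

theorem charO_coe [NeZero N] (e : Bool) (u : (ZMod N)ˣ) :
    S.charO h e (u : ZMod N) = (S.eps h e u : O) :=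
  MulChar.ofUnitHom_coe (S.eps h e) u

theorem charO_neg [NeZero N] (e : Bool) : S.charO h e (-1) = 1 := by
  rw [show (-1 : ZMod N) = ((-1 : (ZMod N)ˣ) : ZMod N) from rfl, S.charO_coe]
  have h2 : S.eps h e (-1) ^ 2 = 1 := by rw [← map_pow]; simp
  have hg : S.eps h e (-1) ^ Nat.gcd 2 p = 1 := pow_gcd_eq_one.mpr ⟨h2, S.eps_pow h e _⟩
  have hcop : Nat.gcd 2 p = 1 := (Nat.coprime_primes Nat.prime_two (Fact.out : p.Prime)).mpr
    (Ne.symm S.p_ne)
  rw [hcop, pow_one] at hg
  rw [hg, Units.val_one]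

theorem residue_charO [Module.Finite ℤ_[p] O] [NeZero N] (e : Bool) {d : ZMod N} (hd : IsUnit d) :
    residue O (S.charO h e d) = 1 := by
  haveI : CharP (ResidueField O) p :=
    (CharP.charP_iff_prime_eq_zero Fact.out).mpr (residue_natCast_eq_zero p O)
  rw [← hd.unit_spec, S.charO_coe]
  have h1 : residue O (S.eps h e hd.unit : O) ^ p = 1 := by
    rw [← map_pow, ← Units.val_pow_eq_pow_val, S.eps_pow, Units.val_one, map_one]
  have h2 : (residue O (S.eps h e hd.unit : O) - 1) ^ p = 0 := by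
    rw [sub_pow_char, h1, one_pow, sub_self]
  exact sub_eq_zero.mp (pow_eq_zero_iff (Fact.out : p.Prime).ne_zero |>.mp h2)

theorem charO_cast {N' : ℕ} [NeZero N] [NeZero N'] (h' : N ∣ N') (e : Bool) {d : ZMod N'}
    (hd : IsUnit d) :
    S.charO h e (ZMod.castHom h' (ZMod N) d) = S.charO (h.trans h') e d := by
  obtain ⟨u, rfl⟩ := hd
  rw [show ZMod.castHom h' (ZMod N) (u : ZMod N') =
    ((Units.map (ZMod.castHom h' (ZMod N)).toMonoidHom u : (ZMod N)ˣ) : ZMod N) from rfl,
    S.charO_coe, S.charO_coe]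
  refine congrArg Units.val ?_
  cases e
  · simp [eps]
  · simp only [eps, if_true, MonoidHom.finsetProd_apply]
    refine Finset.prod_congr rfl fun t _ => congrArg (S.χ t.1 t.2) (Units.ext ?_)
    exact RingHom.congr_fun (ZMod.castHom_comp ((S.T_prime t.1 t.2).2.1.trans h) h') (u : ZMod N')

/-- The residual system of forms at the level `M0`. -/
def mtheta : CuspForm.heckeAlgebra S.M0 2 (↑S.bad : Set ℕ) →+* ResidueField O :=
  S.modular.choose

theorem not_dvd_M0 (l : GoodPrime S.bad) : ¬ l.1 ∣ S.M0 :=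
  fun h => l.2.2 (S.level_mem l.1 l.2.1 h)

/-- The residual trace of Frobenius. -/
def tr0 (l : GoodPrime S.bad) : ResidueField O :=
  S.mtheta (CuspForm.heckeAlgebra.T l.2.1 (S.not_dvd_M0 l)
    (show l.1 ∉ (↑S.bad : Set ℕ) from fun h => l.2.2 (Finset.mem_coe.mp h)))

theorem tr0_spec (l : GoodPrime S.bad) (V : ValuationSubring LL) (hV : V.LiesOverPrime l.1)
    (σ : GG) (hσ : V.IsFrobeniusAt σ l.1) : S.tr0 l = trGL (S.rb σ) :=
  S.modular.choose_spec l.1 l.2.1 (S.not_dvd_M0 l) (fun h => l.2.2 (Finset.mem_coe.mp h)) V hV σ hσ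

end Setup

namespace Aux

variable {S} (X : Aux S)

theorem alpha_quadratic {l : GoodPrime S.bad} (hl : l.1 ∈ X.Q) :
    X.α l.1 ^ 2 - S.tr0 l * X.α l.1 + 1 = 0 := by
  obtain ⟨V, hV⟩ := Frobenius.exists_liesOverPrime l.1 l.2.1
  obtain ⟨σ, hσ⟩ := Frobenius.exists_isFrobeniusAt V l.1 l.2.1 hV
  rw [S.tr0_spec l V hV σ hσ]
  exact X.α_root l.1 hl V hV σ hσ

theorem alpha_ne_zero {l : GoodPrime S.bad} (hl : l.1 ∈ X.Q) : X.α l.1 ≠ 0 := fun h => by
  simpa [h] using X.alpha_quadratic hl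

theorem natCast_eq_one [Module.Finite ℤ_[p] O] {q : ℕ} (hq : q ∈ X.Q) :
    (q : ResidueField O) = 1 := by
  obtain ⟨c, hc⟩ := X.one_mod q hq
  have := (X.prime q hq).one_lt
  rw [show q = p * c + 1 by omega, Nat.cast_add, Nat.cast_mul, residue_natCast_eq_zero p O]
  simp

theorem level_pos : 0 < X.level :=
  Nat.mul_pos (Nat.pos_of_ne_zero (NeZero.ne S.M0))
    (Finset.prod_pos fun q hq => (X.prime q hq).pos)

instance neZero_level : NeZero X.level := ⟨X.level_pos.ne'⟩

/-- The level of some of the auxiliary primes. -/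
def lvl (_X : Aux S) (s : Finset ℕ) : ℕ := S.M0 * ∏ q ∈ s, q

theorem neZero_lvl {s : Finset ℕ} (hs : s ⊆ X.Q) : NeZero (X.lvl s) :=
  ⟨Nat.mul_ne_zero (NeZero.ne S.M0)
    (Finset.prod_pos fun q hq => (X.prime q (hs hq)).pos).ne'⟩

theorem dvd_lvl (s : Finset ℕ) : S.M0 ∣ X.lvl s := dvd_mul_right _ _

theorem dvd_M0_level : S.M0 ∣ X.level := dvd_mul_right _ _

theorem prime_dvd_lvl {s : Finset ℕ} (hs : s ⊆ X.Q) (l : GoodPrime S.bad) :
    l.1 ∣ X.lvl s ↔ l.1 ∈ s := by
  refine ⟨fun h => ?_, fun h => dvd_mul_of_dvd_right (Finset.dvd_prod_of_mem _ h) _⟩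
  obtain h | h := l.2.1.dvd_mul.mp h
  · exact absurd h (S.not_dvd_M0 l)
  · obtain ⟨q, hq, hd⟩ := (Prime.dvd_finsetProd_iff l.2.1.prime _).mp h
    rwa [(Nat.prime_dvd_prime_iff_eq l.2.1 (X.prime q (hs hq))).mp hd]

open scoped Classical in
/-- The residual system with some of the auxiliary eigenvalues. -/
def sysOn (s : Finset ℕ) : Poly O S.bad →+* ResidueField O :=
  MvPolynomial.eval₂Hom (residue O) fun l => if l.1 ∈ s then X.α l.1 else S.tr0 l

theorem sysOn_C (s : Finset ℕ) (r : O) : X.sysOn s (MvPolynomial.C r) = residue O r :=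
  MvPolynomial.eval₂Hom_C _ _ r

theorem sysOn_mem {s : Finset ℕ} {l : GoodPrime S.bad} (h : l.1 ∈ s) :
    X.sysOn s (MvPolynomial.X l) = X.α l.1 := by
  classical
  rw [sysOn, MvPolynomial.eval₂Hom_X', if_pos h]

theorem sysOn_not_mem {s : Finset ℕ} {l : GoodPrime S.bad} (h : l.1 ∉ s) :
    X.sysOn s (MvPolynomial.X l) = S.tr0 l := by
  classical
  rw [sysOn, MvPolynomial.eval₂Hom_X', if_neg h]

/-- Restriction between levels with auxiliary primes. -/
def stepMap [Module.Finite ℤ_[p] O] {s s' : Finset ℕ} (hss : s ⊆ s') (hs' : s' ⊆ X.Q)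
    [NeZero (X.lvl s)] [NeZero (X.lvl s')] (e : Bool) (V : Type) [AddCommGroup V] [Module O V] :
    LevelMap (S.charO (X.dvd_lvl s) e) (S.charO (X.dvd_lvl s') e) V (X.sysOn s) (X.sysOn s') where
  dvd := Nat.mul_dvd_mul_left _ (Finset.prod_dvd_prod_of_subset _ _ _ hss)
  compat d hd v := by rw [S.charO_cast _ _ e hd]
  scal _ _ := rfl
  cst l := S.charO (X.dvd_lvl s) e (l.1 : ZMod (X.lvl s))
  cst_spec _ _ _ := rfl
  sys_C r := by rw [sysOn_C, sysOn_C]
  sys_old l hl := by
    by_cases h : l.1 ∈ s'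
    · have h1 : l.1 ∈ s := by_contra fun h2 => hl ⟨(X.prime_dvd_lvl hs' l).mpr h,
        fun h3 => h2 ((X.prime_dvd_lvl (hss.trans hs') l).mp h3)⟩
      rw [X.sysOn_mem h, X.sysOn_mem h1]
    · rw [X.sysOn_not_mem h, X.sysOn_not_mem fun h1 => h (hss h1)]
  sys_new l hl := by
    have h : l.1 ∈ s' := (X.prime_dvd_lvl hs' l).mp hl.1
    have h1 : l.1 ∉ s := fun h1 => hl.2 ((X.prime_dvd_lvl (hss.trans hs') l).mpr h1)
    refine ⟨by rw [X.sysOn_mem h]; exact X.alpha_ne_zero (hs' h), ?_⟩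
    rw [X.sysOn_mem h, X.sysOn_not_mem h1, X.sysOn_C, map_mul, map_natCast, X.natCast_eq_one (hs' h),
      one_mul, S.residue_charO _ e ((ZMod.isUnit_iff_coprime l.1 _).mpr
        ((l.2.1.coprime_iff_not_dvd).mpr hl.2))]
    linear_combination -(X.alpha_quadratic (hs' h))

/-- The projection to the diamond group. -/
def dia : (ZMod X.level)ˣ →* X.Dia :=
  (QuotientGroup.mk' X.coSylow).comp (MonoidHom.pi fun q : X.Q =>
    Units.map (ZMod.castHom (dvd_mul_of_dvd_right (Finset.dvd_prod_of_mem _ q.2) _ :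
      (q : ℕ) ∣ X.level) (ZMod (q : ℕ))).toMonoidHom)

/-- The character of a module with diamond coefficients, on units. -/
def chiU (e : Bool) : (ZMod X.level)ˣ →* X.Coefˣ :=
  (Units.map (algebraMap O X.Coef).toMonoidHom).comp (S.eps X.dvd_M0_level e) *
    (MonoidAlgebra.of O X.Dia).toHomUnits.comp X.dia

/-- The character of a module with diamond coefficients. -/
def chi (e : Bool) : ZMod X.level →* X.Coef := (MulChar.ofUnitHom (X.chiU e)).toMonoidHom

theorem chi_coe (e : Bool) (u : (ZMod X.level)ˣ) :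
    X.chi e (u : ZMod X.level) = algebraMap O X.Coef (S.eps X.dvd_M0_level e u : O) *
      MonoidAlgebra.of O X.Dia (X.dia u) :=
  MulChar.ofUnitHom_coe (X.chiU e) u

theorem aug_chi (e : Bool) {d : ZMod X.level} (hd : IsUnit d) :
    X.aug (X.chi e d) = S.charO X.dvd_M0_level e d := by
  rw [← hd.unit_spec, X.chi_coe, S.charO_coe, map_mul, X.aug_of, mul_one, AlgHom.commutes]
  rfl

theorem chi_neg (e : Bool) : X.chi e (-1) = 1 := by
  rw [show (-1 : ZMod X.level) = ((-1 : (ZMod X.level)ˣ) : ZMod X.level) from rfl, X.chi_coe,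
    ← S.charO_coe, show (((-1 : (ZMod X.level)ˣ)) : ZMod X.level) = -1 from rfl, S.charO_neg,
    map_one, one_mul]
  have h2 : X.dia (-1) ^ 2 = 1 := by rw [← map_pow]; simp
  have hg := pow_gcd_eq_one.mpr ⟨h2, X.dia_pow (X.dia (-1))⟩
  have hcop : Nat.gcd 2 (p ^ Nat.card X.Units') = 1 :=
    ((Nat.coprime_primes Nat.prime_two (Fact.out : p.Prime)).mpr
      (Ne.symm S.p_ne)).pow_right _
  rw [hcop, pow_one] at hg
  rw [hg, map_one]

/-- The residual system of a level. -/
abbrev sys : Poly O S.bad →+* ResidueField O := X.sysOn X.Q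

theorem exists_separating [Module.Finite ℤ_[p] O] {s : Finset ℕ} (hs : s ⊆ X.Q)
    [NeZero (X.lvl s)] {A : Type} [CommRing A] [Algebra O A] (χ : ZMod (X.lvl s) →* A) :
    ∃ l : GoodPrime S.bad, Separating χ (X.sysOn s) l := by
  obtain ⟨l, V, τ, hl, hlb, hlN, hl1, hlp, hV, hτ, htr⟩ :=
    S.exists_separating (residue_natCast_eq_zero p O) (X.lvl s)
  set l' : GoodPrime S.bad := ⟨l, hl, hlb⟩
  refine ⟨l', ⟨by show χ (l : ZMod (X.lvl s)) = 1; rw [hl1, map_one], hlN, ?_⟩⟩
  rw [X.sysOn_not_mem (l := l') fun h => hlN ((X.prime_dvd_lvl hs l').mpr h),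
    S.tr0_spec l' V hV τ hτ]
  have h1 : (l : ResidueField O) = 1 := by
    haveI : CharP (ResidueField O) p :=
      (CharP.charP_iff_prime_eq_zero Fact.out).mpr (residue_natCast_eq_zero p O)
    have := congrArg (ZMod.castHom (dvd_refl p) (ResidueField O)) hlp
    rwa [map_natCast, map_one] at this
  show trGL (S.rb τ) ≠ (l : ResidueField O) + 1
  rw [h1, one_add_one_eq_two]
  exact htr

end Aux

end FLTAgent.ModLift
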