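import Fermat.Agent.ModLift.Modules.Interface
import Fermat.Agent.Lowering.P4.Idempotent

/-!
# The coefficient rings

The base ring has residue characteristic `p` and finite residue field; the group ring of the
diamond group is local with finite quotients by the powers of its maximal ideal.
-/

set_option autoImplicit false
set_option linter.unusedSectionVars false
set_option linter.style.haveILetI false

noncomputable section

open IsLocalRing

namespace FLTAgent.ModLift

open FLTAgent.Lowering

variable (p : ℕ) [Fact p.Prime]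

theorem not_isUnit_natCast (B : Type*) [CommRing B] [Algebra ℤ_[p] B] [Module.Finite ℤ_[p] B]
    [Nontrivial B] : ¬ IsUnit (p : B) := fun hu => by
  have h : (⊤ : Submodule ℤ_[p] B) ≤ ⊥ ⊔ Ideal.span {(p : ℤ_[p])} • ⊤ := fun b _ => by
    obtain ⟨v, hv⟩ := hu.exists_left_inv
    refine Submodule.mem_sup_right ?_
    rw [show b = (p : ℤ_[p]) • (v * b) by
      rw [Algebra.smul_def, map_natCast, ← mul_assoc, mul_comm _ v, hv, one_mul]]
    exact Submodule.smul_mem_smul (Ideal.mem_span_singleton_self _) Submodule.mem_top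
  have h' := Submodule.le_of_le_smul_of_le_jacobson_bot Module.Finite.fg_top
    (by rw [← PadicInt.maximalIdeal_eq_span_p]; exact maximalIdeal_le_jacobson _) h
  exact one_ne_zero ((Submodule.mem_bot _).mp (h' (Submodule.mem_top (x := (1 : B)))))

theorem isUnit_one_add_natCast_mul (B : Type*) [CommRing B] [Algebra ℤ_[p] B]
    [Module.Finite ℤ_[p] B] (x : B) : IsUnit (1 + (p : B) * x) := by
  let f : B →ₗ[ℤ_[p]] B := LinearMap.mulLeft ℤ_[p] (1 + (p : B) * x)
  have h : (⊤ : Submodule ℤ_[p] B) ≤ LinearMap.range f ⊔ Ideal.span {(p : ℤ_[p])} • ⊤ :=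
    fun b _ => by
    rw [show b = f b + (p : ℤ_[p]) • (-(x * b)) by
      rw [Algebra.smul_def, map_natCast, LinearMap.mulLeft_apply]; ring]
    exact Submodule.add_mem_sup (LinearMap.mem_range_self _ _)
      (Submodule.smul_mem_smul (Ideal.mem_span_singleton_self _) Submodule.mem_top)
  obtain ⟨v, hv⟩ := Submodule.le_of_le_smul_of_le_jacobson_bot Module.Finite.fg_top
    (by rw [← PadicInt.maximalIdeal_eq_span_p]; exact maximalIdeal_le_jacobson _) h
    (Submodule.mem_top (x := (1 : B)))
  exact IsUnit.of_mul_eq_one v hv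

theorem residue_natCast_eq_zero (O : Type*) [CommRing O] [IsLocalRing O] [Algebra ℤ_[p] O]
    [Module.Finite ℤ_[p] O] : (p : ResidueField O) = 0 := by
  rw [← map_natCast (residue O), residue_eq_zero_iff]
  exact not_isUnit_natCast p O

theorem finite_residueField (O : Type*) [CommRing O] [IsLocalRing O] [Algebra ℤ_[p] O]
    [Module.Finite ℤ_[p] O] : Finite (ResidueField O) := by
  haveI := finite_quotient_span p O
  have hle : Ideal.span {(p : O)} ≤ maximalIdeal O :=
    (Ideal.span_singleton_le_iff_mem _).mpr (not_isUnit_natCast p O)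
  exact Finite.of_surjective _ (Ideal.Quotient.factor_surjective hle)

variable {p} {O : Type} [CommRing O] [IsDomain O] [IsDiscreteValuationRing O] [Algebra ℤ_[p] O]
  [Module.Finite ℤ_[p] O] {S : Setup p O} (X : Aux S)

namespace Aux

instance : Finite X.Dia :=
  haveI : ∀ q : X.Q, NeZero (q : ℕ) := fun q => ⟨(X.prime _ q.2).ne_zero⟩
  inferInstanceAs (Finite (X.Units' ⧸ X.coSylow))

omit [Module.Finite ℤ_[p] O] in
theorem dia_pow (g : X.Dia) : g ^ p ^ Nat.card X.Units' = 1 := by
  obtain ⟨u, rfl⟩ := QuotientGroup.mk'_surjective X.coSylow g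
  exact (map_pow (QuotientGroup.mk' X.coSylow) u _).symm.trans
    ((QuotientGroup.eq_one_iff _).mpr ⟨u, rfl⟩)

theorem finite_coef : Module.Finite ℤ_[p] X.Coef :=
  Module.Finite.trans O X.Coef

omit [Module.Finite ℤ_[p] O] in
theorem aug_of (g : X.Dia) : X.aug (MonoidAlgebra.of O X.Dia g) = 1 := by
  simp [Aux.aug]

/-- A power of every element is scalar modulo `p`. -/
theorem exists_pow_eq (a : X.Coef) : ∃ x : X.Coef,
    a ^ p ^ Nat.card X.Units' =
      algebraMap O X.Coef (X.aug a ^ p ^ Nat.card X.Units') + (p : X.Coef) * x := by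
  induction a using MonoidAlgebra.induction_on with
  | of g =>
    refine ⟨0, ?_⟩
    rw [← map_pow, X.dia_pow, X.aug_of, one_pow, map_one, map_one, mul_zero, add_zero]
  | add a b ha hb =>
    obtain ⟨x, hx⟩ := ha
    obtain ⟨y, hy⟩ := hb
    obtain ⟨r, hr⟩ := exists_add_pow_prime_pow_eq (Fact.out : p.Prime) a b (Nat.card X.Units')
    obtain ⟨s, hs⟩ := exists_add_pow_prime_pow_eq (Fact.out : p.Prime) (X.aug a) (X.aug b)
      (Nat.card X.Units')
    refine ⟨x + y + a * b * r - algebraMap O X.Coef (X.aug a * X.aug b * s), ?_⟩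
    rw [map_add, hr, hs, hx, hy]
    simp only [map_add, map_mul, map_natCast]
    ring
  | smul r a ha =>
    obtain ⟨x, hx⟩ := ha
    refine ⟨algebraMap O X.Coef (r ^ p ^ Nat.card X.Units') * x, ?_⟩
    rw [map_smul, smul_eq_mul, mul_pow, Algebra.smul_def, mul_pow, hx]
    simp only [map_mul, map_pow]
    ring

theorem isUnit_iff_aug (a : X.Coef) : IsUnit a ↔ IsUnit (X.aug a) := by
  haveI := X.finite_coef
  refine ⟨fun h => h.map X.aug, fun h => ?_⟩
  obtain ⟨x, hx⟩ := X.exists_pow_eq a
  obtain ⟨v, hv⟩ := (h.pow (p ^ Nat.card X.Units')).exists_left_inv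
  refine (isUnit_pow_iff (pow_ne_zero (Nat.card X.Units') (Fact.out : p.Prime).ne_zero)).mp
    (isUnit_of_mul_isUnit_right (x := algebraMap O X.Coef v) ?_)
  rw [hx, mul_add, ← map_mul, hv, map_one, mul_left_comm]
  exact isUnit_one_add_natCast_mul p X.Coef _

instance isLocalRing_coef : IsLocalRing X.Coef := by
  refine IsLocalRing.of_nonunits_add fun a b ha hb => ?_
  rw [mem_nonunits_iff, X.isUnit_iff_aug] at ha hb ⊢
  rw [map_add]
  exact IsLocalRing.nonunits_add ha hb

theorem finite_quotient_pow (n : ℕ) : Finite (X.Coef ⧸ maximalIdeal X.Coef ^ n) := by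
  haveI := X.finite_coef
  haveI : IsNoetherianRing X.Coef := IsNoetherianRing.of_finite ℤ_[p] X.Coef
  haveI := finite_quotient_span p X.Coef
  have hle : Ideal.span {(p : X.Coef)} ≤ maximalIdeal X.Coef :=
    (Ideal.span_singleton_le_iff_mem _).mpr (not_isUnit_natCast p X.Coef)
  haveI : Finite (X.Coef ⧸ maximalIdeal X.Coef) :=
    Finite.of_surjective _ (Ideal.Quotient.factor_surjective hle)
  exact Ideal.finite_quotient_pow (IsNoetherian.noetherian _) n

end Aux

end FLTAgent.ModLift
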