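import Fermat.Agent.ModLift.Modules.Modules

/-!
# The congruence of the two modules and its compatibility with coinvariants
-/

set_option autoImplicit false
set_option linter.unusedSectionVars false
set_option linter.style.haveILetI false

noncomputable section

set_option synthInstance.maxHeartbeats 400000
set_option maxHeartbeats 800000

open IsLocalRing FLTAgent.Lowering.Cocycle

namespace FLTAgent.ModLift.Aux

open FLTAgent.Lowering

variable {p : ℕ} [Fact p.Prime] {O : Type} [CommRing O] [IsDomain O] [IsDiscreteValuationRing O]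
  [Algebra ℤ_[p] O] [Module.Finite ℤ_[p] O] {S : Setup p O} (X : Aux S)

/-- Reduction of the twisted module. -/
def redTrue : X.Mod true →ₗ[O] Loc (X.chi true) X.ModQuot X.sys where
  toFun x := mapLoc (X.chi true) X.sys X.modIdeal.mkQ (X.modL true x)
  map_add' x y := by rw [map_add, map_add]
  map_smul' r x := by
    rw [mod_smul, map_smul, mapLoc_smul]
    rfl

theorem liftable_coef : Liftable X.level X.Coef :=
  S.liftable X.dvd_M0_level (algebraMap O X.Coef)

theorem redFalse_surjective : Function.Surjective X.redFalse := fun w => by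
  obtain ⟨z, hz⟩ := X.twistMap_bijective.2 w
  obtain ⟨x, hx⟩ := mapLoc_surjective (X.chi false) X.sys (X.chi_neg false) X.liftable_coef
    X.modIdeal.mkQ (Submodule.mkQ_surjective _) z
  refine ⟨(X.modL false).symm x, ?_⟩
  show X.twistMap.resLoc (mapLoc _ _ _ (X.modL false ((X.modL false).symm x))) = w
  rw [LinearEquiv.apply_symm_apply, hx, hz]

theorem redTrue_surjective : Function.Surjective X.redTrue := fun w => by
  obtain ⟨x, hx⟩ := mapLoc_surjective (X.chi true) X.sys (X.chi_neg true) X.liftable_coef
    X.modIdeal.mkQ (Submodule.mkQ_surjective _) w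
  refine ⟨(X.modL true).symm x, ?_⟩
  show mapLoc _ _ _ (X.modL true ((X.modL true).symm x)) = w
  rw [LinearEquiv.apply_symm_apply, hx]

theorem mem_maximal_smul_iff (e : Bool) (x : X.Mod e) :
    mapLoc (X.chi e) X.sys X.modIdeal.mkQ (X.modL e x) = 0 ↔
      x ∈ (maximalIdeal O • ⊤ : Submodule O (X.Mod e)) := by
  obtain ⟨r, b, hb⟩ := X.exists_universal_chi e
  refine (mapLoc_eq_zero_iff hb X.modIdeal.mkQ (X.modL e x)).trans ?_
  rw [Submodule.ker_mkQ, mem_smul_top_iff,
    ← Submodule.restrictScalars_mem O (X.modIdeal • ⊤ : Submodule X.Coef (X.Mod e)) x,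
    Ideal.smul_restrictScalars, Submodule.restrictScalars_top]

theorem ker_redTrue : LinearMap.ker X.redTrue = maximalIdeal O • ⊤ :=
  Submodule.ext fun x => X.mem_maximal_smul_iff true x

theorem ker_redFalse : LinearMap.ker X.redFalse = maximalIdeal O • ⊤ := by
  refine Submodule.ext fun x => Iff.trans ?_ (X.mem_maximal_smul_iff false x)
  exact ⟨fun h => X.twistMap_bijective.1 (h.trans (map_zero _).symm), fun h => by
    show X.twistMap.resLoc _ = 0
    rw [h, map_zero]⟩

/-- The two modules agree modulo the maximal ideal. -/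
def congrEquiv : (X.Mod false ⧸ (maximalIdeal O • ⊤ : Submodule O (X.Mod false))) ≃ₗ[O]
    (X.Mod true ⧸ (maximalIdeal O • ⊤ : Submodule O (X.Mod true))) :=
  ((Submodule.quotEquivOfEq _ _ X.ker_redFalse.symm).trans
      (X.redFalse.quotKerEquivOfSurjective X.redFalse_surjective)).trans
    ((Submodule.quotEquivOfEq _ _ X.ker_redTrue.symm).trans
      (X.redTrue.quotKerEquivOfSurjective X.redTrue_surjective)).symm

theorem congrEquiv_iff (x : X.Mod false) (y : X.Mod true) :
    X.congrEquiv (Submodule.Quotient.mk x) = Submodule.Quotient.mk y ↔ X.redFalse x = X.redTrue y := by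
  rw [congrEquiv, LinearEquiv.trans_apply, LinearEquiv.symm_apply_eq]
  rfl

theorem congrEquiv_smul (a : X.Coef) (x : X.Mod false) (y : X.Mod true)
    (h : X.congrEquiv (Submodule.Quotient.mk x) = Submodule.Quotient.mk y) :
    X.congrEquiv (Submodule.Quotient.mk (a • x)) = Submodule.Quotient.mk (a • y) := by
  rw [congrEquiv_iff] at h ⊢
  show X.twistMap.resLoc (mapLoc _ _ _ (X.modL false (a • x))) =
    mapLoc _ _ _ (X.modL true (a • y))
  rw [map_smul (X.modL false), map_smul (X.modL true), mapLoc_smul, mapLoc_smul,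
    X.twistMap.resLoc_smul_of_eq a a (fun _ => rfl) (X.surjective_toLoc_coef _)]
  exact congrArg (a • ·) h

/-! ### The residual classes of a level -/

/-- The residual quotient of the coefficients. -/
abbrev resIdeal : Ideal X.Coef := RingHom.ker ((Algebra.ofId O (ResidueField O)).comp X.aug)

/-- It is the residue field. -/
def resQuotEquiv : (X.Coef ⧸ X.resIdeal) ≃ₗ[O] ResidueField O :=
  (Ideal.quotientKerAlgEquivOfSurjective (f := (Algebra.ofId O (ResidueField O)).comp X.aug)
    (fun r => by
      obtain ⟨r, rfl⟩ := IsLocalRing.residue_surjective r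
      obtain ⟨a, rfl⟩ := X.aug_surjective r
      exact ⟨a, rfl⟩)).toLinearEquiv

theorem residue_chi (e : Bool) {d : ZMod X.level} (hd : IsUnit d) :
    residue O (X.aug (X.chi e d)) = 1 := by
  rw [X.aug_chi e hd, S.residue_charO _ e hd]

/-- From diamond coefficients to residual ones. -/
def toResMap : LevelMap (X.chi true) (S.charO X.dvd_M0_level true) (X.Coef ⧸ X.resIdeal) X.sys X.sys :=
  changeMap X.sys (fun d hd n => by
    obtain ⟨a, rfl⟩ := Submodule.Quotient.mk_surjective _ n
    rw [← Submodule.Quotient.mk_smul, ← Submodule.Quotient.mk_smul, Submodule.Quotient.eq,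
      RingHom.mem_ker, map_sub, smul_eq_mul, Algebra.smul_def, map_mul, map_mul, AlgHom.commutes]
    show residue O (X.aug (X.chi true d)) * _ - algebraMap O (ResidueField O) _ * _ = 0
    rw [X.residue_chi true hd, ResidueField.algebraMap_eq, S.residue_charO _ true hd, sub_self])
    fun r n => by rw [Algebra.algebraMap_self, RingHom.id_apply, algebraMap_smul]

/-- Between the residual classes of the two characters. -/
def twistRes (e : Bool) : LevelMap (S.charO X.dvd_M0_level e) (S.charO X.dvd_M0_level true)
    (ResidueField O) X.sys X.sys :=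
  changeMap X.sys (fun d hd n => by
    rw [← algebraMap_smul (ResidueField O) (S.charO X.dvd_M0_level e d),
      ← algebraMap_smul (ResidueField O) (S.charO X.dvd_M0_level true d),
      ResidueField.algebraMap_eq, S.residue_charO _ e hd, S.residue_charO _ true hd]) fun _ _ => rfl

/-- The residual class of an element. -/
def phi (e : Bool) (x : X.Mod e) :
    Loc (S.charO X.dvd_M0_level true) (ResidueField O) X.sys :=
  (X.twistRes e).resLoc (mapLoc (S.charO X.dvd_M0_level e) X.sys
    (Algebra.linearMap O (ResidueField O)) (X.toAug e x))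

theorem surjective_toLoc_base (e : Bool) (V : Type) [AddCommGroup V] [Module O V]
    [Module.Finite O V] : Function.Surjective (toLoc (S.charO X.dvd_M0_level e) V X.sys) :=
  toLoc_surjective (N := V) _ X.sys p (residue_natCast_eq_zero p O)

/-- From the reductions to the residual classes. -/
def psiRed (w : Loc (X.chi true) X.ModQuot X.sys) :
    Loc (S.charO X.dvd_M0_level true) (ResidueField O) X.sys :=
  mapLoc (S.charO X.dvd_M0_level true) X.sys X.resQuotEquiv.toLinearMap
    (X.toResMap.resLoc (mapLoc (X.chi true) X.sys (Submodule.factor (p := X.modIdeal) (p' := X.resIdeal)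
      (Ideal.map_le_iff_le_comap.mpr fun r hr => by
        rw [Ideal.mem_comap, RingHom.mem_ker, AlgHom.commutes, ResidueField.algebraMap_eq,
          residue_eq_zero_iff]
        exact hr)) w))

theorem psiRed_redTrue (y : X.Mod true) : X.psiRed (X.redTrue y) = X.phi true y := by
  obtain ⟨c, hc⟩ := exists_eq_cls (X.surjective_toLoc_coef (X.chi true)) (X.modL true y)
  show X.psiRed (mapLoc _ _ _ (X.modL true y)) = (X.twistRes true).resLoc (mapLoc _ _ _
    (mapLoc _ _ _ ((X.augMap true).resLoc (mapLoc _ _ _ (X.modL true y)))))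
  rw [← hc, psiRed, mapLoc_cls, mapLoc_cls, resLoc_cls, mapLoc_cls, mapLoc_cls, resLoc_cls,
    mapLoc_cls, mapLoc_cls, resLoc_cls]
  refine congrArg _ (congrArg _ (congrArg cls (Subtype.ext (funext fun γ => ?_))))
  rfl

theorem psiRed_redFalse (x : X.Mod false) : X.psiRed (X.redFalse x) = X.phi false x := by
  obtain ⟨c, hc⟩ := exists_eq_cls (X.surjective_toLoc_coef (X.chi false)) (X.modL false x)
  show X.psiRed (X.twistMap.resLoc (mapLoc _ _ _ (X.modL false x))) =
    (X.twistRes false).resLoc (mapLoc _ _ _
      (mapLoc _ _ _ ((X.augMap false).resLoc (mapLoc _ _ _ (X.modL false x)))))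
  rw [← hc, psiRed, mapLoc_cls, resLoc_cls, mapLoc_cls, resLoc_cls, mapLoc_cls, mapLoc_cls,
    resLoc_cls, mapLoc_cls, mapLoc_cls, resLoc_cls]
  refine congrArg _ (congrArg _ (congrArg cls (Subtype.ext (funext fun γ => ?_))))
  rfl

theorem phi_eq_fromBase (e : Bool) (x : X.Mod e) :
    X.phi e x = (X.fromBase true (ResidueField O)).resLoc ((Aux.empty S).phi e (X.coinv e x)) := by
  have h : X.toAug e x = (X.fromBase e O).resLoc ((Aux.empty S).toAug e (X.coinv e x)) :=
    (X.baseEquiv_coinv e x).symm
  rw [phi, h]
  show (X.twistRes e).resLoc _ =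
    (X.fromBase true (ResidueField O)).resLoc (((Aux.empty S).twistRes e).resLoc _)
  obtain ⟨c, hc⟩ := exists_eq_cls ((Aux.empty S).surjective_toLoc_base e O)
    ((Aux.empty S).toAug e (X.coinv e x))
  rw [← hc, resLoc_cls, mapLoc_cls, mapLoc_cls, resLoc_cls, resLoc_cls, resLoc_cls]
  refine congrArg _ (congrArg _ (congrArg cls (Subtype.ext (funext fun γ => ?_))))
  rfl

theorem finite_residue : Module.Finite O (ResidueField O) :=
  Module.Finite.of_surjective (Algebra.linearMap O (ResidueField O))
    fun x => IsLocalRing.residue_surjective x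

theorem fromBase_residue_injective :
    Function.Injective (X.fromBase true (ResidueField O)).resLoc := by
  haveI := finite_residue (O := O)
  haveI := X.neZero_lvl (subset_refl X.Q)
  haveI := (Aux.empty S).neZero_lvl (subset_refl (Aux.empty S).Q)
  set π := Algebra.linearMap O (ResidueField O)
  obtain ⟨r, b, hb⟩ := (Aux.empty S).exists_universal_lvl (s := (Aux.empty S).Q) subset_rfl true
  obtain ⟨r', b', hb'⟩ := X.exists_universal_lvl (s := X.Q) subset_rfl true
  have hker : (LinearMap.ker π : Ideal O) = maximalIdeal O :=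
    Ideal.ext fun a => IsLocalRing.residue_eq_zero_iff a
  refine (injective_iff_map_eq_zero _).mpr fun u hu => ?_
  obtain ⟨v, rfl⟩ := mapLoc_surjective (S.charO (Aux.empty S).dvd_M0_level true) (Aux.empty S).sys
    (S.charO_neg _ true) (S.liftable (Aux.empty S).dvd_M0_level (RingHom.id O)) π (fun z => IsLocalRing.residue_surjective z) u
  rw [← (X.fromBase true O).resLoc_natural (X.fromBase true (ResidueField O)) π π (fun _ => rfl)
    ((Aux.empty S).surjective_toLoc_base true O)] at hu
  have h1 := (mapLoc_eq_zero_iff hb' π _).mp hu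
  refine (mapLoc_eq_zero_iff hb π v).mpr ?_
  have h2 := (mem_smul_top_iff _ (LinearEquiv.ofBijective (X.baseLin true) (X.fromBase_bijective true))
    v).mp h1
  exact h2

theorem phi_empty_congr (x : (Aux.empty S).Mod false) (y : (Aux.empty S).Mod true)
    (h : (Aux.empty S).phi false x = (Aux.empty S).phi true y) :
    (Aux.empty S).congrEquiv (Submodule.Quotient.mk x) = Submodule.Quotient.mk y := by
  haveI := finite_residue (O := O)
  haveI := (Aux.empty S).neZero_lvl (subset_refl (Aux.empty S).Q)
  obtain ⟨y', hy'⟩ := Submodule.Quotient.mk_surjective _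
    ((Aux.empty S).congrEquiv (Submodule.Quotient.mk x))
  have h1 := congrArg (Aux.empty S).psiRed (((Aux.empty S).congrEquiv_iff x y').mp hy'.symm)
  rw [psiRed_redFalse, psiRed_redTrue, h] at h1
  have hinj := changeMap_bijective (Aux.empty S).sys (χ := S.charO (Aux.empty S).dvd_M0_level true)
    (χ' := S.charO (Aux.empty S).dvd_M0_level true) (N := ResidueField O) (fun _ _ _ => rfl)
    (fun _ _ => rfl) ((Aux.empty S).surjective_toLoc_base true _)
    ((Aux.empty S).surjective_toLoc_base true _)
  rw [phi, phi, LevelMap.resLoc_eq _ (changeMap (χ := S.charO (Aux.empty S).dvd_M0_level true)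
    (χ' := S.charO (Aux.empty S).dvd_M0_level true) (N := ResidueField O) (Aux.empty S).sys
    (fun _ _ _ => rfl) (fun _ _ => rfl)) ((Aux.empty S).surjective_toLoc_base true _)] at h1
  have h2 := sub_eq_zero.mpr (hinj.1 h1)
  rw [← map_sub, ← map_sub] at h2
  obtain ⟨r, b, hb⟩ := (Aux.empty S).exists_universal_lvl (s := (Aux.empty S).Q) subset_rfl true
  have h3 := (mapLoc_eq_zero_iff hb _ _).mp h2
  rw [show (LinearMap.ker (Algebra.linearMap O (ResidueField O)) : Ideal O) = maximalIdeal O from
    Ideal.ext fun a => IsLocalRing.residue_eq_zero_iff a] at h3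
  have h4 := (mem_smul_top_iff _ (LinearEquiv.ofBijective ((Aux.empty S).toAug true)
    (toAug_empty_bijective true)) _).mp h3
  rw [← hy', Submodule.Quotient.eq]
  rw [← neg_sub]
  exact Submodule.neg_mem _ h4

/-- The congruence is compatible with the coinvariants. -/
theorem coinv_congrEquiv (x : X.Mod false) (y : X.Mod true)
    (h : X.congrEquiv (Submodule.Quotient.mk x) = Submodule.Quotient.mk y) :
    (Aux.empty S).congrEquiv (Submodule.Quotient.mk (X.coinv false x)) =
      Submodule.Quotient.mk (X.coinv true y) := by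
  refine phi_empty_congr _ _ (X.fromBase_residue_injective ?_)
  rw [← phi_eq_fromBase, ← phi_eq_fromBase, ← psiRed_redFalse, ← psiRed_redTrue,
    (X.congrEquiv_iff x y).mp h]

end FLTAgent.ModLift.Aux
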