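import Fermat.Agent.ModLift.Modules.ModPow
import Fermat.Agent.Lowering.P4.Embedding
import Fermat.Agent.Lowering.P4.TorsionCoord
import Fermat.Agent.Lowering.P4.Padic

/-!
# The twisted traces as Galois operators on torsion

At an allowed level the twisted Galois operators `U σ + χ_p(σ) U σ⁻¹` on the eigenspace of the
diamonds agree, on the embedded modules modulo a power of `p`, with twisted traces.
-/

set_option autoImplicit false
set_option linter.unusedSectionVars false
set_option linter.style.haveILetI false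

noncomputable section

set_option synthInstance.maxHeartbeats 400000
set_option maxHeartbeats 1000000

open IsLocalRing FLTAgent.Lowering.Cocycle CongruenceSubgroup
open scoped MatrixGroups

namespace FLTAgent.ModLift

open FLTAgent.Lowering

open FLTAgent.PeriodHecke FLTAgent.DeligneSerre

local notation "LL" => AlgebraicClosure ℚ
local notation "GG" => (AlgebraicClosure ℚ ≃ₐ[ℚ] AlgebraicClosure ℚ)

theorem endAdd_apply {A : Type*} [AddCommGroup A] (f g : AddMonoid.End A) (a : A) :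
    (f + g) a = f a + g a := rfl

theorem endSub_apply {A : Type*} [AddCommGroup A] (f g : AddMonoid.End A) (a : A) :
    (f - g) a = f a - g a := rfl

theorem endMul_apply {A : Type*} [AddCommGroup A] (f g : AddMonoid.End A) (a : A) :
    (f * g) a = f (g a) := rfl

theorem endOne_apply {A : Type*} [AddCommGroup A] (a : A) : (1 : AddMonoid.End A) a = a := rfl

variable {p : ℕ} [Fact p.Prime] {O : Type} [CommRing O] [IsDomain O] [IsDiscreteValuationRing O]
  [Algebra ℤ_[p] O] [Module.Finite ℤ_[p] O] [CharZero O] {S : Setup p O} (X : Aux S)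
  {M : ℕ} [NeZero M]

namespace Aux

theorem not_dvd_pow (n : ℕ) {l : GoodPrime S.bad} : ¬ l.1 ∣ p ^ n := fun h =>
  l.2.2 (((Nat.prime_dvd_prime_iff_eq l.2.1 (Fact.out : p.Prime)).mp (l.2.1.dvd_of_dvd_pow h)).symm ▸
    S.p_mem)

theorem Allowed.not_dvd_of_trPrime {X : Aux S} (hA : X.Allowed M) (l : X.TrPrime) : ¬ l.1.1 ∣ M :=
  fun h => (hA.support l.1.1 l.1.2.1 h).elim l.1.2.2
    fun hq => l.2 (dvd_mul_of_dvd_right (Finset.dvd_prod_of_mem _ hq) _)

theorem exists_anchor (hA : X.Allowed M) :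
    Nonempty (Anchor (N := X.level) X.sys M) := by
  obtain ⟨l, V, τ, hl, hlb, hlM, hl1, hlp, hV, hτ, htr⟩ :=
    S.exists_separating (residue_natCast_eq_zero p O) M
  haveI : CharP (ResidueField O) p :=
    (CharP.charP_iff_prime_eq_zero Fact.out).mpr (residue_natCast_eq_zero p O)
  refine ⟨⟨⟨l, hl, hlb⟩, hA.dvd, hlM, hl1, ?_, ?_⟩⟩
  · rw [sys, X.sysOn_not_mem (l := ⟨l, hl, hlb⟩)
      fun hq => hlM ((dvd_mul_of_dvd_right (Finset.dvd_prod_of_mem _ hq) _).trans hA.dvd),
      S.tr0_spec _ V hV τ hτ]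
    have h1 : (l : ResidueField O) = 1 := by
      have := congrArg (ZMod.castHom (dvd_refl p) (ResidueField O)) hlp
      rwa [map_natCast, map_one] at this
    show trGL (S.rb τ) ≠ (l : ResidueField O) + 1
    rw [h1, one_add_one_eq_two]
    exact htr
  · exact S.five_le.trans (Nat.le_of_dvd (NeZero.pos M) (X.dvd_M0_level.trans hA.dvd))

variable (hA : X.Allowed M) (Z : Realisation p M) (e : Bool) (n : ℕ)

/-- The chosen anchor. -/
def anchor : Anchor (N := X.level) X.sys M := (X.exists_anchor hA).some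

/-- The chosen number of coordinates. -/
def coordDim : ℕ := (X.exists_coord n).choose

/-- The chosen coordinates. -/
def coord : X.PowQuot n ≃+ (Fin (X.coordDim n) → ZMod (p ^ n)) :=
  (X.exists_coord n).choose_spec.some

/-- The eigenspace of the diamonds. -/
abbrev Eig : AddSubgroup (Hpar (Gamma1 M) (X.PowQuot n)) :=
  eigenPar (X.PowQuot n) (X.chi e) hA.dvd

local instance neZero_pow : NeZero (p ^ n) := ⟨pow_ne_zero _ (Fact.out : p.Prime).ne_zero⟩

theorem ext_scal (f : AddMonoid.End (Hpar (Gamma1 M) (ZMod (p ^ n)))) (a : X.Coef)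
    (φ : Hpar (Gamma1 M) (X.PowQuot n)) :
    extEnd (X.coord n) f (scal a φ) = scal a (extEnd (X.coord n) f φ) :=
  extEnd_mapHpar (X.coord n) f _ φ

/-- The twisted action of an automorphism. -/
def bigU : GG →* AddMonoid.End (Hpar (Gamma1 M) (X.PowQuot n)) where
  toFun σ := scal (X.half e (expo X.level σ) : X.Coef) * extEnd (X.coord n) ((Z.gt n).act σ)
  map_one' := by rw [map_one, map_one, Units.val_one, map_one, map_one, map_one, one_mul]
  map_mul' σ τ := AddMonoidHom.ext fun φ => by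
    show scal (X.half e (expo X.level (σ * τ)) : X.Coef) (extEnd (X.coord n) ((Z.gt n).act (σ * τ)) φ) =
      scal (X.half e (expo X.level σ) : X.Coef) (extEnd (X.coord n) ((Z.gt n).act σ)
        (scal (X.half e (expo X.level τ) : X.Coef) (extEnd (X.coord n) ((Z.gt n).act τ) φ)))
    rw [map_mul, map_mul, Units.val_mul, map_mul, map_mul, map_mul, X.ext_scal]
    rfl

theorem bigU_apply (σ : GG) (φ : Hpar (Gamma1 M) (X.PowQuot n)) :
    X.bigU Z e n σ φ = scal (X.half e (expo X.level σ) : X.Coef)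
      (extEnd (X.coord n) ((Z.gt n).act σ) φ) := rfl

theorem scal_diamond (a : X.Coef) (γ : Gamma0 M) (φ : Hpar (Gamma1 M) (X.PowQuot n)) :
    diamond M γ (scal a φ) = scal a (diamond M γ φ) := rfl

theorem scal_comm (a b : X.Coef) (φ : Hpar (Gamma1 M) (X.PowQuot n)) :
    scal a (scal b φ) = scal b (scal a φ) :=
  Subtype.ext (AddMonoidHom.ext fun x => smul_comm a b (φ.1 x))

theorem scal_mem (a : X.Coef) {φ : Hpar (Gamma1 M) (X.PowQuot n)} (hφ : φ ∈ X.Eig hA e n) :
    scal a φ ∈ X.Eig hA e n := fun γ => by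
  rw [X.scal_diamond, hφ γ, X.scal_comm]

theorem bigU_mem (σ : GG) {φ : Hpar (Gamma1 M) (X.PowQuot n)} (hφ : φ ∈ X.Eig hA e n) :
    X.bigU Z e n σ φ ∈ X.Eig hA e n := fun γ => by
  rw [bigU_apply, X.scal_diamond, ← extEnd_diamond (X.coord n) γ _ ((Z.gt n).comm_diamond σ γ),
    hφ γ, X.ext_scal, X.scal_comm]

/-- The twisted action on the eigenspace. -/
def eigU : GG →* AddMonoid.End (X.Eig hA e n) where
  toFun σ := AddMonoidHom.mk' (fun w => ⟨X.bigU Z e n σ w.1, X.bigU_mem hA Z e n σ w.2⟩)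
    fun w w' => Subtype.ext (map_add (X.bigU Z e n σ) w.1 w'.1)
  map_one' := AddMonoidHom.ext fun w => Subtype.ext (by
    show X.bigU Z e n 1 w.1 = w.1
    rw [map_one]
    rfl)
  map_mul' σ τ := AddMonoidHom.ext fun w => Subtype.ext (by
    show X.bigU Z e n (σ * τ) w.1 = X.bigU Z e n σ (X.bigU Z e n τ w.1)
    rw [map_mul]
    rfl)

theorem coe_eigU (σ : GG) (w : X.Eig hA e n) :
    (X.eigU hA Z e n σ w).1 = X.bigU Z e n σ w.1 := rfl

/-- Multiplication by a coefficient on the eigenspace. -/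
def eigScal : X.Coef →+* AddMonoid.End (X.Eig hA e n) where
  toFun a := AddMonoidHom.mk' (fun w => ⟨scal a w.1, X.scal_mem hA e n a w.2⟩)
    fun w w' => Subtype.ext (map_add (scal a) w.1 w'.1)
  map_one' := AddMonoidHom.ext fun w => Subtype.ext (by
    show scal (1 : X.Coef) w.1 = w.1
    rw [map_one]
    rfl)
  map_mul' a b := AddMonoidHom.ext fun w => Subtype.ext (by
    show scal (a * b) w.1 = scal a (scal b w.1)
    rw [map_mul]
    rfl)
  map_zero' := AddMonoidHom.ext fun w => Subtype.ext (by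
    show scal (0 : X.Coef) w.1 = 0
    rw [map_zero]
    rfl)
  map_add' a b := AddMonoidHom.ext fun w => Subtype.ext (by
    show scal (a + b) w.1 = scal a w.1 + scal b w.1
    rw [map_add]
    rfl)

theorem coe_eigScal (a : X.Coef) (w : X.Eig hA e n) :
    (X.eigScal hA e n a w).1 = scal a w.1 := rfl

theorem eigU_eigScal (σ : GG) (a : X.Coef) :
    Commute (X.eigU hA Z e n σ) (X.eigScal hA e n a) :=
  AddMonoidHom.ext fun w => Subtype.ext (by
    show X.bigU Z e n σ (scal a w.1) = scal a (X.bigU Z e n σ w.1)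
    rw [bigU_apply, bigU_apply, X.ext_scal, X.scal_comm])

/-- The cyclotomic character as a coefficient. -/
def cycC : GG →* X.Coef := (algebraMap ℤ_[p] X.Coef).toMonoidHom.comp (cycZ p)

/-- The cyclotomic character on the eigenspace. -/
def eigC : GG →* AddMonoid.End (X.Eig hA e n) :=
  (X.eigScal hA e n).toMonoidHom.comp X.cycC

/-- The operator of an automorphism. -/
def opShape (σ : GG) : AddMonoid.End (X.Eig hA e n) :=
  shape (X.eigU hA Z e n) (X.eigC hA e n) σ

theorem eigScal_eq_zero {a : X.Coef} (ha : a ∈ Ideal.span {((p : X.Coef) ^ n)}) :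
    X.eigScal hA e n a = 0 :=
  AddMonoidHom.ext fun w => Subtype.ext (Subtype.ext (AddMonoidHom.ext fun x => by
    show a • w.1.1 x = 0
    obtain ⟨b, hb⟩ := Submodule.Quotient.mk_surjective _ (w.1.1 x)
    rw [← hb, ← Submodule.Quotient.mk_smul, Submodule.Quotient.mk_eq_zero, smul_eq_mul]
    exact Ideal.mul_mem_right _ _ ha))

theorem eigC_eq_of_expo {σ τ : GG} (h : expo (p ^ n) σ = expo (p ^ n) τ) :
    X.eigC hA e n σ = X.eigC hA e n τ := by
  refine sub_eq_zero.mp ?_
  show X.eigScal hA e n (X.cycC σ) - X.eigScal hA e n (X.cycC τ) = 0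
  rw [← map_sub]
  refine X.eigScal_eq_zero hA e n ?_
  obtain ⟨z, hz⟩ := Ideal.mem_span_singleton'.mp (cycZ_sub_mem_of_expo p h)
  show algebraMap ℤ_[p] X.Coef (cycZ p σ) - algebraMap ℤ_[p] X.Coef (cycZ p τ) ∈ _
  rw [← map_sub, ← hz, map_mul, map_pow, map_natCast]
  exact Ideal.mem_span_singleton'.mpr ⟨_, rfl⟩

/-- The embedded module. -/
def embW : X.Mod e →+ X.Eig hA e n :=
  haveI := X.finite_coef
  haveI : IsNoetherianRing X.Coef := IsNoetherianRing.of_finite ℤ_[p] X.Coef
  ((X.anchor hA).embed (X.surjective_toLoc_coef (N := X.PowQuot n) (X.chi e))).comp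
    (X.modPow e n).toAddMonoidHom |>.codRestrict (X.Eig hA e n) fun _ => (X.anchor hA).embed_mem _ _

theorem embW_smul (a : X.Coef) (x : X.Mod e) :
    X.embW hA e n (a • x) = X.eigScal hA e n a (X.embW hA e n x) := by
  haveI := X.finite_coef
  haveI : IsNoetherianRing X.Coef := IsNoetherianRing.of_finite ℤ_[p] X.Coef
  refine Subtype.ext ?_
  show (X.anchor hA).embed _ (X.modPow e n (a • x)) =
    scal a ((X.anchor hA).embed _ (X.modPow e n x))
  rw [(X.modPow e n).map_smul, Anchor.embed_smul]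

theorem embW_eq_zero_iff (x : X.Mod e) : X.embW hA e n x = 0 ↔ X.modPow e n x = 0 := by
  haveI := X.finite_coef
  haveI : IsNoetherianRing X.Coef := IsNoetherianRing.of_finite ℤ_[p] X.Coef
  refine ⟨fun h => ((X.anchor hA).embed_injective
    (X.surjective_toLoc_coef (N := X.PowQuot n) (X.chi e))) ?_, fun h => Subtype.ext ?_⟩
  · rw [map_zero]
    exact congrArg Subtype.val h
  · show (X.anchor hA).embed _ (X.modPow e n x) = 0
    rw [h, map_zero]

/-- A lift of an automorphism. -/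
def IsTrLift (σ : GG) (t : X.TR) : Prop :=
  ∀ e x, X.embW hA e n (X.actTR e t x) = X.opShape hA Z e n σ (X.embW hA e n x)

/-- The operator commutes with the twisted action. -/
def IsCentralShape (σ : GG) : Prop :=
  ∀ e g, Commute (X.eigU hA Z e n g) (X.opShape hA Z e n σ)

theorem hecke_eigenpar {φ : Hpar (Gamma1 M) (X.PowQuot n)} (hφ : φ ∈ X.Eig hA e n) (l : X.TrPrime)
    {V : ValuationSubring LL} (hV : V.LiesOverPrime l.1.1) {τ : GG}
    (hτ : V.IsFrobeniusAt τ l.1.1) :
    (heckeFam1 (hA.not_dvd_of_trPrime l)).heckePar φ =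
      extEnd (X.coord n) ((Z.gt n).act τ) φ +
        scal ((l.1.1 : X.Coef) * X.chi e (l.1.1 : ZMod X.level))
          (extEnd (X.coord n) ((Z.gt n).act τ⁻¹) φ) := by
  have hlM := hA.not_dvd_of_trPrime l
  set γ := gammaLower l.1.1 (coprime_of_not_dvd hlM)
  have h1 : (heckeFam1 hlM).heckePar φ = extEnd (X.coord n) ((Z.gt n).act τ) φ +
      l.1.1 • diamond M γ (extEnd (X.coord n) ((Z.gt n).act τ⁻¹) φ) := by
    refine coordHpar_ext (X.coord n) fun i => ?_
    rw [map_add, map_nsmul, coordHpar_extEnd]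
    show mapHpar _ ((heckeFam1 hlM).heckePar φ) = _
    rw [← HeckeFamily.heckePar_mapHpar]
    refine ((Z.gt n).frobenius l.1.1 hlM (not_dvd_pow n) V hV τ hτ _).trans ?_
    congr 2
    exact congrArg (diamond M γ) (coordHpar_extEnd (X.coord n) _ φ i).symm
  rw [h1, ← extEnd_diamond (X.coord n) γ _ ((Z.gt n).comm_diamond τ⁻¹ γ), hφ γ, X.ext_scal,
    map_mul]
  congr 1
  show l.1.1 • scal (psi (X.chi e) (sub0 hA.dvd γ)) _ = scal (l.1.1 : X.Coef) (scal _ _)
  rw [map_natCast, psi_apply, mat_sub0]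
  simp only [γ, mat, gammaLower_entry, Int.cast_natCast]
  rfl

theorem opShape_frobenius (l : X.TrPrime) {V : ValuationSubring LL}
    (hV : V.LiesOverPrime l.1.1) {τ : GG} (hτ : V.IsFrobeniusAt τ l.1.1)
    (w : X.Eig hA e n) :
    (X.opShape hA Z e n τ w).1 = scal (X.half e (X.unitOf l) : X.Coef)
      ((heckeFam1 (hA.not_dvd_of_trPrime l)).heckePar w.1) := by
  have hexp : expo X.level τ = X.unitOf l :=
    Units.ext (expo_frobenius l.1.2.1 l.2 hV hτ)
  have hl : l.1.1 ≠ p := fun h => l.1.2.2 (by rw [h]; exact S.p_mem)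
  have hc : X.cycC τ = (l.1.1 : X.Coef) := by
    show algebraMap ℤ_[p] X.Coef (cycZ p τ) = _
    rw [cycZ_frobenius p l.1.2.1 hl hV hτ, map_natCast]
  rw [X.hecke_eigenpar hA Z e n w.2 l hV hτ, map_add]
  show (X.bigU Z e n τ w.1) + scal (X.cycC τ) (X.bigU Z e n τ⁻¹ w.1) = _
  rw [bigU_apply, bigU_apply, hc, map_inv, hexp]
  congr 1
  set u := X.unitOf l
  set ψ := extEnd (X.coord n) ((Z.gt n).act τ⁻¹) w.1
  have hu : ((X.half e u)⁻¹ : X.Coefˣ) = X.half e u * X.chiU e u :=
    inv_eq_of_mul_eq_one_right (by rw [← mul_assoc, X.half_sq_mul])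
  have hchi : X.chi e (l.1.1 : ZMod X.level) = (X.chiU e u : X.Coef) :=
    MulChar.ofUnitHom_coe (X.chiU e) u
  rw [map_inv, hu, hchi]
  refine Subtype.ext (AddMonoidHom.ext fun x => ?_)
  rw [coe_scal, coe_scal, coe_scal, coe_scal, Units.val_mul, smul_smul, smul_smul]
  congr 1
  ring

theorem commute_frobenius (l : X.TrPrime) {V : ValuationSubring LL} (hV : V.LiesOverPrime l.1.1)
    {τ : GG} (hτ : V.IsFrobeniusAt τ l.1.1) : X.IsCentralShape hA Z n τ := fun e g =>
  AddMonoidHom.ext fun w => Subtype.ext (by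
    have hlM := hA.not_dvd_of_trPrime l
    show X.bigU Z e n g (X.opShape hA Z e n τ w).1 =
      (X.opShape hA Z e n τ (X.eigU hA Z e n g w)).1
    rw [X.opShape_frobenius hA Z e n l hV hτ, X.opShape_frobenius hA Z e n l hV hτ, coe_eigU,
      bigU_apply, bigU_apply, X.ext_scal, X.scal_comm, extEnd_heckePar (X.coord n) _ _
        (fun ψ => (Z.gt n).comm_hecke g l.1.1 hlM (not_dvd_pow n) ψ)]
    exact congrArg (scal _) (HeckeFamily.heckePar_mapHpar _ _ _).symm)

theorem isTrLift_frobenius (l : X.TrPrime) {V : ValuationSubring LL} (hV : V.LiesOverPrime l.1.1)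
    {τ : GG} (hτ : V.IsFrobeniusAt τ l.1.1) : X.IsTrLift hA Z n τ (X.trace l) := fun e x => by
  haveI := X.finite_coef
  haveI : IsNoetherianRing X.Coef := IsNoetherianRing.of_finite ℤ_[p] X.Coef
  refine Subtype.ext ?_
  rw [X.opShape_frobenius hA Z e n l hV hτ, X.actTR_trace]
  show (X.anchor hA).embed _ (X.modPow e n
      ((X.half e (X.unitOf l) : X.Coef) • X.opMod e (MvPolynomial.X l.1) x)) =
    scal _ ((heckeFam1 _).heckePar ((X.anchor hA).embed _ (X.modPow e n x)))
  rw [(X.modPow e n).map_smul, Anchor.embed_smul, X.modPow_natural,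
    Anchor.embed_X _ _ l.1 (hA.not_dvd_of_trPrime l)]

/-- The cyclotomic character in the twisted traces. -/
def cycT : GG →* X.TR := (algebraMap ℤ_[p] X.TR).toMonoidHom.comp (cycZ p)

theorem embW_cycT (σ : GG) (x : X.Mod e) :
    X.embW hA e n (X.actTR e (X.cycT σ) x) = X.eigC hA e n σ (X.embW hA e n x) := by
  show X.embW hA e n (X.actTR e (algebraMap ℤ_[p] X.TR (cycZ p σ)) x) =
    X.eigScal hA e n (algebraMap ℤ_[p] X.Coef (cycZ p σ)) (X.embW hA e n x)
  rw [IsScalarTower.algebraMap_apply ℤ_[p] O X.TR, X.actTR_algebraMap, X.mod_smul,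
    ← IsScalarTower.algebraMap_apply ℤ_[p] O X.Coef, X.embW_smul]

theorem embW_act_add (a b : X.TR) (x : X.Mod e) :
    X.embW hA e n (X.actTR e (a + b) x) =
      X.embW hA e n (X.actTR e a x) + X.embW hA e n (X.actTR e b x) :=
  (congrArg (X.embW hA e n) (LinearMap.congr_fun (map_add (X.actTR e) a b) x)).trans
    (map_add (X.embW hA e n) _ _)

theorem embW_act_sub (a b : X.TR) (x : X.Mod e) :
    X.embW hA e n (X.actTR e (a - b) x) =
      X.embW hA e n (X.actTR e a x) - X.embW hA e n (X.actTR e b x) :=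
  (congrArg (X.embW hA e n) (LinearMap.congr_fun (map_sub (X.actTR e) a b) x)).trans
    (map_sub (X.embW hA e n) _ _)

theorem actTR_mul_apply (a b : X.TR) (x : X.Mod e) :
    X.actTR e (a * b) x = X.actTR e a (X.actTR e b x) :=
  LinearMap.congr_fun (map_mul (X.actTR e) a b) x

theorem embW_act_one (x : X.Mod e) : X.embW hA e n (X.actTR e 1 x) = X.embW hA e n x :=
  congrArg (X.embW hA e n) (LinearMap.congr_fun (map_one (X.actTR e)) x)

theorem central_cyc (σ g : GG) : Commute (X.eigU hA Z e n g) (X.eigC hA e n σ) :=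
  X.eigU_eigScal hA Z e n g _

theorem comm_eigC (σ τ : GG) : Commute (X.eigC hA e n σ) (X.eigC hA e n τ) :=
  (Commute.all (X.cycC σ) (X.cycC τ)).map (X.eigScal hA e n)

theorem isTrLift_one : X.IsTrLift hA Z n 1 2 := fun e x => by
  have h : X.opShape hA Z e n 1 (X.embW hA e n x) = X.embW hA e n x + X.embW hA e n x :=
    (DFunLike.congr_fun ((shape_one _ _).trans one_add_one_eq_two.symm) _).trans
      ((endAdd_apply _ _ _).trans (congrArg₂ (· + ·) (endOne_apply _) (endOne_apply _)))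
  exact ((congrArg (fun t : X.TR => X.embW hA e n (X.actTR e t x))
    (one_add_one_eq_two (R := X.TR)).symm).trans ((X.embW_act_add hA e n 1 1 x).trans
      (congrArg₂ (· + ·) (X.embW_act_one hA e n x) (X.embW_act_one hA e n x)))).trans h.symm

theorem central_one : X.IsCentralShape hA Z n 1 := fun e g => by
  rw [opShape, shape_one]
  exact Commute.ofNat_right _ _

theorem lift_pow {τ : GG} {T : X.TR} (hT : X.IsTrLift hA Z n τ T) (hτ : X.IsCentralShape hA Z n τ)
    (j : ℕ) : (∃ t, X.IsTrLift hA Z n (τ ^ j) t) ∧ X.IsCentralShape hA Z n (τ ^ j) := by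
  induction j using Nat.twoStepInduction with
  | zero => simpa using ⟨⟨2, X.isTrLift_one hA Z n⟩, X.central_one hA Z n⟩
  | one => simpa using ⟨⟨T, hT⟩, hτ⟩
  | more j h0 h1 =>
    obtain ⟨⟨t0, ht0⟩, hc0⟩ := h0
    obtain ⟨⟨t1, ht1⟩, hc1⟩ := h1
    have hs : ∀ e, X.opShape hA Z e n (τ ^ (j + 2)) =
        X.opShape hA Z e n (τ ^ (j + 1)) * X.opShape hA Z e n τ -
          X.eigC hA e n τ * X.opShape hA Z e n (τ ^ j) := fun e =>
      shape_pow_step _ _ (fun g h => X.central_cyc hA Z e n h g) (X.comm_eigC hA e n)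
        (hτ e) j
    refine ⟨⟨t1 * T - X.cycT τ * t0, fun e x => ?_⟩, fun e g => ?_⟩
    · have hl : X.embW hA e n (X.actTR e (t1 * T) x) =
          (X.opShape hA Z e n (τ ^ (j + 1)) * X.opShape hA Z e n τ) (X.embW hA e n x) :=
        ((congrArg (X.embW hA e n) (X.actTR_mul_apply e t1 T x)).trans
          ((ht1 e _).trans (congrArg (X.opShape hA Z e n (τ ^ (j + 1))) (hT e x)))).trans
          (endMul_apply _ _ _).symm
      have hr : X.embW hA e n (X.actTR e (X.cycT τ * t0) x) =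
          (X.eigC hA e n τ * X.opShape hA Z e n (τ ^ j)) (X.embW hA e n x) :=
        ((congrArg (X.embW hA e n) (X.actTR_mul_apply e _ t0 x)).trans
          ((X.embW_cycT hA e n τ _).trans (congrArg (X.eigC hA e n τ) (ht0 e x)))).trans
          (endMul_apply _ _ _).symm
      exact ((X.embW_act_sub hA e n _ _ x).trans (congrArg₂ (· - ·) hl hr)).trans
        ((endSub_apply _ _ _).symm.trans (DFunLike.congr_fun (hs e).symm _))
    · exact (hs e).symm ▸
        ((hc1 e g).mul_right (hτ e g)).sub_right ((X.central_cyc hA Z e n τ g).mul_right (hc0 e g))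

theorem exists_good_frobenius (L : IntermediateField ℚ LL) [FiniteDimensional ℚ L] (σ : GG) :
    ∃ (l : X.TrPrime) (V : ValuationSubring LL) (τ : GG) (j : ℕ), V.LiesOverPrime l.1.1 ∧
      V.IsFrobeniusAt τ l.1.1 ∧ ∀ x ∈ L, σ x = (τ ^ j) x := by
  obtain ⟨ℓ, V, τ, j, hℓ, hℓS, hV, hτ, hj⟩ :=
    Frobenius.exists_frobenius_pow_eqOn L σ (S.bad ∪ X.level.primeFactors)
  rw [Finset.mem_union, not_or] at hℓS
  exact ⟨⟨⟨ℓ, hℓ, hℓS.1⟩, fun h => hℓS.2
    (Nat.mem_primeFactors.mpr ⟨hℓ, h, X.level_pos.ne'⟩)⟩, V, τ, j, hV, hτ, hj⟩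

/-- A number field through which the operators at one exponent factor. -/
theorem exists_op_level : ∃ L : IntermediateField ℚ LL, FiniteDimensional ℚ L ∧
    ∀ σ τ : GG, (∀ x ∈ L, σ x = τ x) → ∀ e, X.opShape hA Z e n σ = X.opShape hA Z e n τ := by
  obtain ⟨L1, hL1, h1⟩ := (Z.gt n).level
  obtain ⟨L2, hL2, h2⟩ := exists_expo_level X.level
  obtain ⟨L3, hL3, h3⟩ := exists_expo_level (p ^ n)
  refine ⟨L1 ⊔ L2 ⊔ L3, inferInstance, fun σ τ hστ e => ?_⟩
  set d := τ⁻¹ * σ
  have hd : ∀ x ∈ L1 ⊔ L2 ⊔ L3, d x = x := fun x hx => by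
    rw [AlgEquiv.mul_apply, hστ x hx, ← AlgEquiv.mul_apply, inv_mul_cancel, AlgEquiv.one_apply]
  have hU : X.eigU hA Z e n d = 1 := AddMonoidHom.ext fun w => Subtype.ext (by
    show X.bigU Z e n d w.1 = w.1
    rw [bigU_apply, h1 d (fun x hx => hd x ((le_sup_left.trans le_sup_left :
        L1 ≤ L1 ⊔ L2 ⊔ L3) hx)), h2 d (fun x hx => hd x ((le_sup_right.trans le_sup_left :
        L2 ≤ L1 ⊔ L2 ⊔ L3) hx)), map_one, map_one, Units.val_one, map_one]
    rfl)
  have hσ : σ = τ * d := (mul_inv_cancel_left τ σ).symm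
  have hexp : expo (p ^ n) (τ * d) = expo (p ^ n) τ := by
    rw [map_mul, h3 d (fun x hx => hd x ((le_sup_right : L3 ≤ L1 ⊔ L2 ⊔ L3) hx)), mul_one]
  exact (congrArg (X.opShape hA Z e n) hσ).trans
    (shape_mul_eq (X.eigU hA Z e n) (X.eigC hA e n) hU (X.eigC_eq_of_expo hA e n hexp))

/-- Every automorphism has a lift, and its operator is central. -/
theorem exists_isTrLift (σ : GG) :
    (∃ t, X.IsTrLift hA Z n σ t) ∧ X.IsCentralShape hA Z n σ := by
  obtain ⟨L, hL, hfac⟩ := X.exists_op_level hA Z n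
  obtain ⟨l, V, τ, j, hV, hτ, hj⟩ := X.exists_good_frobenius L σ
  obtain ⟨⟨t, ht⟩, hc⟩ := X.lift_pow hA Z n (X.isTrLift_frobenius hA Z n l hV hτ)
    (X.commute_frobenius hA Z n l hV hτ) j
  have h := hfac σ (τ ^ j) hj
  exact ⟨⟨t, fun e x => by rw [h e]; exact ht e x⟩, fun e g => by rw [h e]; exact hc e g⟩

/-- Products of lifts. -/
theorem IsTrLift.tr_mul {g h : GG} {t u w v : X.TR} (ht : X.IsTrLift hA Z n g t)
    (hu : X.IsTrLift hA Z n h u) (hw : X.IsTrLift hA Z n (g * h) w)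
    (hv : X.IsTrLift hA Z n (g * h⁻¹) v) (e : Bool) (x : X.Mod e) :
    X.embW hA e n (X.actTR e (w + X.cycT h * v - t * u) x) = 0 := by
  have hs := DFunLike.congr_fun (shape_mul (X.eigU hA Z e n) (X.eigC hA e n)
    (fun a b => X.central_cyc hA Z e n b a) (X.comm_eigC hA e n)
    ((X.exists_isTrLift hA Z n h).2 e g⁻¹)) (X.embW hA e n x)
  have h1 : X.embW hA e n (X.actTR e (t * u) x) =
      (X.opShape hA Z e n g * X.opShape hA Z e n h) (X.embW hA e n x) :=
    ((congrArg (X.embW hA e n) (X.actTR_mul_apply e t u x)).trans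
      ((ht e _).trans (congrArg (X.opShape hA Z e n g) (hu e x)))).trans (endMul_apply _ _ _).symm
  have h2 : X.embW hA e n (X.actTR e (w + X.cycT h * v) x) =
      (X.opShape hA Z e n (g * h) + X.eigC hA e n h * X.opShape hA Z e n (g * h⁻¹))
        (X.embW hA e n x) :=
    ((X.embW_act_add hA e n _ _ x).trans (congrArg₂ (· + ·) (hw e x)
      (((congrArg (X.embW hA e n) (X.actTR_mul_apply e _ v x)).trans
        ((X.embW_cycT hA e n h _).trans (congrArg (X.eigC hA e n h) (hv e x)))).trans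
        (endMul_apply _ _ _).symm))).trans (endAdd_apply _ _ _).symm
  exact (X.embW_act_sub hA e n _ _ x).trans (sub_eq_zero.mpr (h2.trans (hs.symm.trans h1.symm)))

theorem isTrLift_unique {σ : GG} {t t' : X.TR} (ht : X.IsTrLift hA Z n σ t)
    (ht' : X.IsTrLift hA Z n σ t') (e : Bool) (x : X.Mod e) :
    X.embW hA e n (X.actTR e (t - t') x) = 0 := by
  rw [X.embW_act_sub, ht, ht', sub_self]

end Aux

end FLTAgent.ModLift
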