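import Fermat.Agent.ModLift.Modules.Character
import Fermat.Agent.Lowering.P4.Levels

/-!
# Bases and changes of level for the auxiliary levels
-/

set_option autoImplicit false
set_option linter.unusedSectionVars false
set_option linter.style.haveILetI false

noncomputable section

set_option synthInstance.maxHeartbeats 400000
set_option maxHeartbeats 800000

open IsLocalRing FLTAgent.Lowering.Cocycle

namespace FLTAgent.ModLift

open FLTAgent.Lowering

variable {p : ℕ} [Fact p.Prime] {O : Type} [CommRing O] [IsDomain O] [IsDiscreteValuationRing O]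
  [Algebra ℤ_[p] O] [Module.Finite ℤ_[p] O] {S : Setup p O} (X : Aux S)

theorem finite_quotient_pow_base (p : ℕ) [Fact p.Prime] (O : Type) [CommRing O] [IsDomain O]
    [IsDiscreteValuationRing O] [Algebra ℤ_[p] O] [Module.Finite ℤ_[p] O] (n : ℕ) :
    Finite (O ⧸ maximalIdeal O ^ n) := by
  haveI : Finite (O ⧸ maximalIdeal O) := finite_residueField p O
  exact Ideal.finite_quotient_pow (IsNoetherian.noetherian _) n

namespace Aux

theorem surjective_toLoc_O {s : Finset ℕ} [NeZero (X.lvl s)] (χ : ZMod (X.lvl s) →* O)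
    (N : Type) [AddCommGroup N] [Module O N] [Module.Finite O N] :
    Function.Surjective (toLoc χ N (X.sysOn s)) :=
  toLoc_surjective (N := N) χ (X.sysOn s) p (residue_natCast_eq_zero p O)

theorem exists_universal_lvl {s : Finset ℕ} (hs : s ⊆ X.Q) [NeZero (X.lvl s)] (e : Bool) :
    ∃ (r : ℕ) (b : Fin r → Loc (S.charO (X.dvd_lvl s) e) O (X.sysOn s)),
      IsUniversalBasis (S.charO (X.dvd_lvl s) e) (X.sysOn s) b := by
  obtain ⟨l, hl⟩ := X.exists_separating hs (S.charO (X.dvd_lvl s) e)
  exact exists_comparison_bijective (finite_quotient_pow_base p O) (S.charO_neg _ e) (S.liftable (X.dvd_lvl s) (RingHom.id O)) hl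
    p (residue_natCast_eq_zero p O)

/-- One prime, with residual coefficients. -/
theorem stepMap_bijective_residue {s : Finset ℕ} {q : ℕ} (hq : q ∉ s) (hs : insert q s ⊆ X.Q)
    [NeZero (X.lvl s)] [NeZero (X.lvl (insert q s))] (e : Bool) :
    Function.Bijective (X.stepMap (Finset.subset_insert q s) hs e (ResidueField O)).resLoc := by
  classical
  have hqQ : q ∈ X.Q := hs (Finset.mem_insert_self q s)
  set l : GoodPrime S.bad := ⟨q, X.prime q hqQ, X.notMem q hqQ⟩
  have hlM : ¬ l.1 ∣ X.lvl s := fun h =>
    hq ((X.prime_dvd_lvl ((Finset.subset_insert q s).trans hs) l).mp h)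
  obtain ⟨r, b, hb⟩ := X.exists_universal_lvl hs e
  haveI : Module.Finite O (ResidueField O) :=
    Module.Finite.of_surjective (Algebra.linearMap O (ResidueField O))
      fun x => IsLocalRing.residue_surjective x
  haveI := finite_residueField p O
  haveI : Finite (Loc (S.charO (X.dvd_lvl (insert q s)) e) (ResidueField O) (X.sysOn (insert q s))) :=
    Finite.of_surjective _ (hb (ResidueField O)).2
  have hα := X.alpha_quadratic (l := l) hqQ
  have hmem : X.sysOn (insert q s) (MvPolynomial.X l) = X.α q :=
    X.sysOn_mem (l := l) (Finset.mem_insert_self q s)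
  obtain ⟨a, ha⟩ := IsLocalRing.residue_surjective (R := O) (X.α q)
  refine LevelMap.resLoc_bijective_one _ l ?_ hlM (fun d hd n => ?_) ?_ a ?_ ?_ ?_
    (X.surjective_toLoc_O _ _) (X.surjective_toLoc_O _ _)
  · show S.M0 * ∏ x ∈ insert q s, x = S.M0 * (∏ x ∈ s, x) * q
    rw [Finset.prod_insert hq]
    ring
  · show S.charO _ e d • n = n
    rw [← algebraMap_smul (ResidueField O), ResidueField.algebraMap_eq, S.residue_charO _ e hd,
      one_smul]
  · rw [X.sysOn_not_mem (l := l) hq, Nat.cast_add, X.natCast_eq_one hqQ, Nat.cast_one]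
    intro h
    refine X.α_sq q hqQ ?_
    have h2 : (X.α q ^ 2 - 1) ^ 2 = 0 := by
      have h3 : X.α q ^ 2 + 1 = S.tr0 l * X.α q := by linear_combination hα
      linear_combination (X.α q ^ 2 + 1 + S.tr0 l * X.α q) * h3 + X.α q ^ 2 * h
    exact sub_eq_zero.mp (pow_eq_zero_iff two_ne_zero |>.mp h2)
  · rw [hmem, X.sysOn_C, ha]
  · rw [hmem, X.sysOn_C, map_mul, map_natCast, X.natCast_eq_one hqQ, one_mul]
    show X.α q ^ 2 ≠ residue O (S.charO (X.dvd_lvl s) e ((q : ℕ) : ZMod (X.lvl s)))
    rw [S.residue_charO _ e ((ZMod.isUnit_iff_coprime q _).mpr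
      ((l.2.1.coprime_iff_not_dvd).mpr hlM))]
    exact X.α_sq q hqQ
  · rw [hmem]
    exact X.α_sq q hqQ

/-- All the primes, with base coefficients. -/
theorem stepMap_bijective (e : Bool) : ∀ (s : Finset ℕ) (hs : s ⊆ X.Q),
    haveI := X.neZero_lvl hs
    haveI := X.neZero_lvl (Finset.empty_subset X.Q)
    Function.Bijective (X.stepMap (Finset.empty_subset s) hs e O).resLoc := by
  classical
  intro s
  induction s using Finset.induction with
  | empty =>
    intro hs
    haveI := X.neZero_lvl (Finset.empty_subset X.Q)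
    have h := changeMap_bijective (X.sysOn ∅) (χ := S.charO (X.dvd_lvl ∅) e)
      (χ' := S.charO (X.dvd_lvl ∅) e) (N := O) (fun _ _ _ => rfl) (fun _ _ => rfl)
      (X.surjective_toLoc_O _ _) (X.surjective_toLoc_O _ _)
    rwa [LevelMap.resLoc_eq _ (X.stepMap (Finset.empty_subset ∅) hs e O)
      (X.surjective_toLoc_O _ _)] at h
  | insert q s hq ih =>
    intro hs
    have hs' : s ⊆ X.Q := (Finset.subset_insert q s).trans hs
    haveI := X.neZero_lvl hs
    haveI := X.neZero_lvl hs'
    haveI := X.neZero_lvl (Finset.empty_subset X.Q)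
    obtain ⟨r, b, hb⟩ := X.exists_universal_lvl hs' e
    obtain ⟨r', b', hb'⟩ := X.exists_universal_lvl hs e
    have h1 := LevelMap.resLoc_bijective_of_residue (X.stepMap (Finset.subset_insert q s) hs e O)
      (X.stepMap (Finset.subset_insert q s) hs e (ResidueField O)) hb hb'
      (X.surjective_toLoc_O _ _) (X.stepMap_bijective_residue hq hs e)
    have h2 : ⇑(X.stepMap (Finset.empty_subset (insert q s)) hs e O).resLoc =
        (X.stepMap (Finset.subset_insert q s) hs e O).resLoc ∘
          (X.stepMap (Finset.empty_subset s) hs' e O).resLoc :=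
      funext fun x => ((X.stepMap (Finset.empty_subset s) hs' e O).resLoc_resLoc
        (X.stepMap (Finset.subset_insert q s) hs e O)
        (X.stepMap (Finset.empty_subset (insert q s)) hs e O) (X.surjective_toLoc_O _ _) x).symm
    rw [h2]
    exact h1.comp (ih hs')

theorem sysOn_empty : X.sysOn ∅ = (Aux.empty S).sys :=
  MvPolynomial.ringHom_ext (fun r => by rw [sysOn_C, sys, sysOn_C]) fun l => by
    rw [X.sysOn_not_mem (Finset.notMem_empty _), sys,
      (Aux.empty S).sysOn_not_mem (s := (Aux.empty S).Q) (Finset.notMem_empty _)]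

/-- Restriction from the base level. -/
def fromBase (e : Bool) (V : Type) [AddCommGroup V] [Module O V] :
    LevelMap (S.charO (Aux.empty S).dvd_M0_level e) (S.charO X.dvd_M0_level e) V
      (Aux.empty S).sys X.sys :=
  haveI := X.neZero_lvl (subset_refl X.Q)
  haveI := X.neZero_lvl (Finset.empty_subset X.Q)
  let L := X.stepMap (Finset.empty_subset X.Q) subset_rfl e V
  { dvd := L.dvd
    compat := L.compat
    scal := L.scal
    cst := L.cst
    cst_spec := L.cst_spec
    sys_C := fun r => by rw [← X.sysOn_empty]; exact L.sys_C r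
    sys_old := fun l h => by rw [← X.sysOn_empty]; exact L.sys_old l h
    sys_new := fun l h => by rw [← X.sysOn_empty]; exact L.sys_new l h }

theorem fromBase_bijective (e : Bool) : Function.Bijective (X.fromBase e O).resLoc := by
  haveI := X.neZero_lvl (subset_refl X.Q)
  haveI := X.neZero_lvl (Finset.empty_subset X.Q)
  have key : ∀ (θ0 : Poly O S.bad →+* ResidueField O), θ0 = X.sysOn ∅ →
      ∀ L : LevelMap (S.charO (X.dvd_lvl ∅) e) (S.charO (X.dvd_lvl X.Q) e) O θ0 (X.sysOn X.Q),
        Function.Bijective L.resLoc := by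
    rintro θ0 rfl L
    rw [LevelMap.resLoc_eq L (X.stepMap (Finset.empty_subset X.Q) subset_rfl e O)
      (X.surjective_toLoc_O _ _)]
    exact X.stepMap_bijective e X.Q subset_rfl
  exact key _ X.sysOn_empty.symm (X.fromBase e O)

theorem exists_universal_chi (e : Bool) :
    ∃ (r : ℕ) (b : Fin r → Loc (X.chi e) X.Coef X.sys), IsUniversalBasis (X.chi e) X.sys b := by
  haveI := X.finite_coef
  haveI : IsNoetherianRing X.Coef := IsNoetherianRing.of_finite ℤ_[p] X.Coef
  haveI := X.neZero_lvl (subset_refl X.Q)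
  obtain ⟨l, hl⟩ := X.exists_separating (s := X.Q) subset_rfl (X.chi e)
  exact exists_comparison_bijective (fun n => X.finite_quotient_pow n) (X.chi_neg e)
    (S.liftable X.dvd_M0_level (algebraMap O X.Coef)) hl p (residue_natCast_eq_zero p O)

end Aux

end FLTAgent.ModLift
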