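import Fermat.Agent.ModLift.Modules.TraceAlgebra
import Fermat.Agent.Lowering.P4.ModPow

/-!
# The modules modulo powers of `p`, saturation and congruence of the traces
-/

set_option autoImplicit false
set_option linter.unusedSectionVars false
set_option linter.style.haveILetI false

noncomputable section

set_option synthInstance.maxHeartbeats 400000
set_option maxHeartbeats 800000

open IsLocalRing FLTAgent.Lowering.Cocycle

namespace FLTAgent.ModLift

open FLTAgent.Lowering

variable {p : ℕ} [Fact p.Prime] {O : Type} [CommRing O] [IsDomain O] [IsDiscreteValuationRing O]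
  [Algebra ℤ_[p] O] [Module.Finite ℤ_[p] O] {S : Setup p O} (X : Aux S)

namespace Aux

/-- The coefficients modulo a power of `p`. -/
abbrev PowQuot (n : ℕ) : Type := X.Coef ⧸ Ideal.span {((p : X.Coef) ^ n)}

/-- A module modulo a power of `p`, as localised classes. -/
def modPow (e : Bool) (n : ℕ) : X.Mod e →ₗ[X.Coef] Loc (X.chi e) (X.PowQuot n) X.sys where
  toFun x := mapLoc (X.chi e) X.sys
    (Ideal.span {((p : X.Coef) ^ n)} : Submodule X.Coef X.Coef).mkQ (X.modL e x)
  map_add' x y := by rw [map_add, map_add]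
  map_smul' a x := (congrArg _ ((X.modL e).map_smul a x)).trans
    (mapLoc_smul (X.chi e) X.sys _ a (X.modL e x))

theorem modPow_surjective (e : Bool) (n : ℕ) : Function.Surjective (X.modPow e n) :=
  (mapLoc_surjective (X.chi e) X.sys (X.chi_neg e)
    (S.liftable X.dvd_M0_level (algebraMap O X.Coef))
    _ (Submodule.mkQ_surjective _)).comp (X.modL e).surjective

theorem modPow_eq_zero_iff (e : Bool) (n : ℕ) (x : X.Mod e) :
    X.modPow e n x = 0 ↔ ∃ y : X.Mod e, x = (p : X.Coef) ^ n • y := by
  obtain ⟨r, b, hb⟩ := X.exists_universal_chi e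
  have h := mapLoc_eq_zero_iff hb (Ideal.span {((p : X.Coef) ^ n)} : Submodule X.Coef X.Coef).mkQ
    (X.modL e x)
  rw [Submodule.ker_mkQ] at h
  refine (h.trans (mem_smul_top_iff _ _ _)).trans ?_
  rw [Submodule.ideal_span_singleton_smul]
  exact ⟨fun ⟨y, _, hy⟩ => ⟨y, hy.symm⟩, fun ⟨y, hy⟩ => ⟨y, Submodule.mem_top, hy.symm⟩⟩

theorem modPow_natural (e : Bool) (n : ℕ) (r : Poly O S.bad) (x : X.Mod e) :
    X.modPow e n (X.opMod e r x) = r • X.modPow e n x := by
  show mapLoc _ _ _ (r • X.modL e x) = _
  rw [map_smul]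
  rfl

variable [CharZero O]

omit [Module.Finite ℤ_[p] O] in
theorem algebraMap_padic_injective : Function.Injective (algebraMap ℤ_[p] O) := by
  rw [RingHom.injective_iff_ker_eq_bot]
  by_contra hne
  have hmax : (RingHom.ker (algebraMap ℤ_[p] O)).IsMaximal :=
    (RingHom.ker_isPrime (algebraMap ℤ_[p] O)).isMaximal hne
  have hp : (p : ℤ_[p]) ∈ RingHom.ker (algebraMap ℤ_[p] O) := by
    rw [IsLocalRing.eq_maximalIdeal hmax, PadicInt.maximalIdeal_eq_span_p]
    exact Ideal.mem_span_singleton_self _
  rw [RingHom.mem_ker, map_natCast] at hp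
  exact (Fact.out : p.Prime).ne_zero (Nat.cast_eq_zero.mp hp)

theorem free_coef : Module.Free ℤ_[p] X.Coef := by
  haveI : Module.IsTorsionFree ℤ_[p] O := by
    haveI : FaithfulSMul ℤ_[p] O :=
      (faithfulSMul_iff_algebraMap_injective ℤ_[p] O).mpr (algebraMap_padic_injective (O := O))
    infer_instance
  haveI : Module.Free ℤ_[p] O := Module.free_of_finite_type_torsion_free'
  exact Module.Free.trans (R := ℤ_[p]) (S := O)

theorem smul_pow_injective (e : Bool) (n : ℕ) :
    Function.Injective fun x : X.Mod e => (p : X.Coef) ^ n • x := by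
  haveI := X.free_coef
  haveI := (X.mod_finite_free e).2
  intro x y hxy
  apply (Module.Free.chooseBasis X.Coef (X.Mod e)).repr.injective
  refine Finsupp.ext fun i => ?_
  have h1 := congrArg (fun v => (Module.Free.chooseBasis X.Coef (X.Mod e)).repr v i) hxy
  simp only [map_smul, Finsupp.smul_apply, smul_eq_mul] at h1
  have h2 : ((p : ℤ_[p]) ^ n) • ((Module.Free.chooseBasis X.Coef (X.Mod e)).repr x i) =
      ((p : ℤ_[p]) ^ n) • ((Module.Free.chooseBasis X.Coef (X.Mod e)).repr y i) := by
    rw [Algebra.smul_def, Algebra.smul_def, map_pow, map_natCast]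
    exact h1
  refine (Module.Free.chooseBasis ℤ_[p] X.Coef).repr.injective (Finsupp.ext fun j => ?_)
  have h3 := congrArg (fun v => (Module.Free.chooseBasis ℤ_[p] X.Coef).repr v j) h2
  simp only [map_smul, Finsupp.smul_apply, smul_eq_mul] at h3
  exact mul_left_cancel₀ (pow_ne_zero _ (Nat.cast_ne_zero.mpr (Fact.out : p.Prime).ne_zero)) h3

/-- **Saturation**: traces killing a module power are divisible by almost that power. -/
theorem exists_trace_shift : ∃ c : ℕ, ∀ (n : ℕ) (t : X.TR),
    (∀ e x, X.modPow e n (X.actTR e t x) = 0) → t ∈ Ideal.span {(p : X.TR) ^ (n - c)} := by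
  haveI := X.finite_endPair
  haveI : IsNoetherian O X.EndPair := isNoetherian_of_isNoetherianRing_of_finite _ _
  let F : ℕ →o Submodule O X.EndPair :=
    { toFun := fun n => (LinearMap.range X.actPair.toLinearMap).comap
        (((p : O) ^ n) • LinearMap.id)
      monotone' := fun a b hab f hf => by
        show (p : O) ^ b • f ∈ LinearMap.range X.actPair.toLinearMap
        rw [← Nat.sub_add_cancel hab, pow_add, mul_smul]
        exact Submodule.smul_mem _ _ hf }
  obtain ⟨c, hc⟩ := monotone_stabilizes_iff_noetherian.2 ‹_› F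
  refine ⟨c, fun n t ht => ?_⟩
  rcases Nat.lt_or_ge n c with hn | hn
  · rw [Nat.sub_eq_zero_of_le hn.le, pow_zero, Ideal.span_singleton_one]
    exact Submodule.mem_top
  have hdiv : ∀ e, ∃ f : Module.End X.Coef (X.Mod e),
      ∀ x, X.actTR e t x = (p : X.Coef) ^ n • f x := fun e => by
    choose g hg using fun x => (X.modPow_eq_zero_iff e n _).mp (ht e x)
    refine ⟨{ toFun := g, map_add' := fun x y => X.smul_pow_injective e n ?_,
              map_smul' := fun a x => X.smul_pow_injective e n ?_ }, hg⟩
    · show (p : X.Coef) ^ n • g (x + y) = (p : X.Coef) ^ n • (g x + g y)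
      rw [smul_add, ← hg, ← hg, ← hg, map_add]
    · exact (hg (a • x)).symm.trans (((X.actTR e t).map_smul a x).trans
        ((congrArg (a • ·) (hg x)).trans ((smul_smul a ((p : X.Coef) ^ n) (g x)).trans
          ((congrArg (· • g x) (mul_comm a _)).trans
            (smul_smul ((p : X.Coef) ^ n) a (g x)).symm))))
  obtain ⟨f0, hf0⟩ := hdiv false
  obtain ⟨f1, hf1⟩ := hdiv true
  have hscal : ∀ (e : Bool) (y : X.Mod e), (p : X.Coef) ^ n • y = (p : O) ^ n • y := fun e y =>
    (congrArg (· • y) (show (p : X.Coef) ^ n = algebraMap O X.Coef ((p : O) ^ n) by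
      rw [map_pow, map_natCast])).trans (X.mod_smul e ((p : O) ^ n) y).symm
  have heq : X.actPair t = (p : O) ^ n • ((f0, f1) : X.EndPair) :=
    Prod.ext (LinearMap.ext fun x => (hf0 x).trans (hscal _ _))
      (LinearMap.ext fun x => (hf1 x).trans (hscal _ _))
  have hmem : ((f0, f1) : X.EndPair) ∈ F n := ⟨t, heq⟩
  have hmem' : ((f0, f1) : X.EndPair) ∈ F c := by
    rw [hc n hn]
    exact hmem
  obtain ⟨r, hr⟩ := hmem'
  change X.actPair r = (p : O) ^ c • ((f0, f1) : X.EndPair) at hr
  refine Ideal.mem_span_singleton'.mpr ⟨r, X.actPair_injective ?_⟩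
  rw [heq, ← Nat.sub_add_cancel hn, Nat.add_sub_cancel, pow_add, mul_smul, ← hr, map_mul, map_pow,
    map_natCast, Algebra.smul_def, map_pow, map_natCast]
  exact (((Nat.cast_commute p (X.actPair r)).pow_left (n - c)).eq).symm

omit [CharZero O] in
theorem twist_opMod (r : Poly O S.bad) (x : X.Mod false) :
    X.redFalse (X.opMod false r x) = r • X.redFalse x := by
  show X.twistMap.resLoc (mapLoc _ _ _ (r • X.modL false x)) =
    r • X.twistMap.resLoc (mapLoc _ _ _ (X.modL false x))
  rw [map_smul]
  obtain ⟨m, hm⟩ := X.surjective_toLoc_coef (X.chi false)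
    (mapLoc (X.chi false) X.sys X.modIdeal.mkQ (X.modL false x))
  rw [← hm, ← map_smul, LevelMap.resLoc_toLoc, LevelMap.resLoc_toLoc, LevelMap.resTo_smul]
  suffices h : X.twistMap.sub r = algebraMap _ _ r by rw [h, algebraMap_smul]
  suffices h : X.twistMap.sub = algebraMap _ _ from RingHom.congr_fun h r
  refine MvPolynomial.ringHom_ext (fun a => X.twistMap.sub_C a) fun l => ?_
  rw [LevelMap.sub_X, LevelMap.subX, dif_neg fun h => h.2 h.1]

omit [CharZero O] in
theorem red_half (u : (ZMod X.level)ˣ) :
    (X.half false u : X.Coef) - (X.half true u : X.Coef) ∈ X.modIdeal := by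
  rw [← Ideal.Quotient.eq]
  let F := Units.map (Ideal.Quotient.mk X.modIdeal).toMonoidHom
  suffices h : F (X.half false u) = F (X.half true u) from congrArg Units.val h
  have h0 : F (X.chiU false u) = F (X.chiU true u) := Units.ext (by
    show Ideal.Quotient.mk X.modIdeal (X.chiU false u : X.Coef) =
      Ideal.Quotient.mk X.modIdeal (X.chiU true u : X.Coef)
    rw [Ideal.Quotient.eq,
      show (X.chiU false u : X.Coef) = X.chi false u from (MulChar.ofUnitHom_coe _ u).symm,
      show (X.chiU true u : X.Coef) = X.chi true u from (MulChar.ofUnitHom_coe _ u).symm,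
      X.chi_coe, X.chi_coe, ← sub_mul, ← map_sub]
    refine Ideal.mul_mem_right _ _ (Ideal.mem_map_of_mem _ ?_)
    rw [← residue_eq_zero_iff, map_sub, ← S.charO_coe, ← S.charO_coe,
      S.residue_charO _ _ u.isUnit, S.residue_charO _ _ u.isUnit, sub_self])
  rw [half_apply, half_apply, map_inv, map_inv, map_pow, map_pow, h0]

omit [CharZero O] in
/-- The congruence respects the twisted traces. -/
theorem congrEquiv_act (t : X.TR) : ∀ (x : X.Mod false) (y : X.Mod true),
    X.congrEquiv (Submodule.Quotient.mk x) = Submodule.Quotient.mk y →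
      X.congrEquiv (Submodule.Quotient.mk (X.actTR false t x)) =
        Submodule.Quotient.mk (X.actTR true t y) := by
  induction t using X.TR_induction with
  | hC r =>
    intro x y h
    rw [X.actTR_algebraMap, X.actTR_algebraMap, Submodule.Quotient.mk_smul, map_smul, h,
      Submodule.Quotient.mk_smul]
  | hX l =>
    intro x y h
    rw [congrEquiv_iff] at h ⊢
    rw [X.actTR_trace, X.actTR_trace]
    set a := (X.half false (X.unitOf l) : X.Coef)
    set b := (X.half true (X.unitOf l) : X.Coef)
    have h1 : X.redFalse (X.genE false l x) =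
        a • ((MvPolynomial.X l.1 : Poly O S.bad) • X.redFalse x) := by
      rw [← X.twist_opMod]
      exact (congrArg X.twistMap.resLoc ((congrArg _ ((X.modL false).map_smul a _)).trans
        (mapLoc_smul (X.chi false) X.sys _ a _))).trans
        (X.twistMap.resLoc_smul_of_eq a a (fun _ => rfl) (X.surjective_toLoc_coef _) _)
    have h2 : X.redTrue (X.genE true l y) =
        b • ((MvPolynomial.X l.1 : Poly O S.bad) • X.redTrue y) := by
      show mapLoc _ _ _ (X.modL true (b • X.opMod true (MvPolynomial.X l.1) y)) = _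
      rw [(X.modL true).map_smul, mapLoc_smul, X.modL_opMod, map_smul]
      rfl
    rw [h1, h2, h, ← sub_eq_zero, ← sub_smul]
    refine smul_loc_eq_zero _ (fun v => ?_) _
    obtain ⟨v, rfl⟩ := Submodule.Quotient.mk_surjective _ v
    rw [← Submodule.Quotient.mk_smul, Submodule.Quotient.mk_eq_zero, smul_eq_mul]
    exact Ideal.mul_mem_right _ _ (X.red_half _)
  | hadd a b ha hb =>
    intro x y h
    rw [map_add, map_add, LinearMap.add_apply, LinearMap.add_apply, Submodule.Quotient.mk_add,
      map_add, ha x y h, hb x y h, Submodule.Quotient.mk_add]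
  | hmul a b ha hb =>
    intro x y h
    rw [map_mul, map_mul, Module.End.mul_apply, Module.End.mul_apply]
    exact ha _ _ (hb x y h)

/-- Coordinates of the coefficients modulo a power of `p`. -/
theorem exists_coord (n : ℕ) :
    ∃ d : ℕ, Nonempty (X.PowQuot n ≃+ (Fin d → ZMod (p ^ n))) := by
  haveI := X.free_coef
  haveI := X.finite_coef
  let b := Module.finBasis ℤ_[p] X.Coef
  refine ⟨Module.finrank ℤ_[p] X.Coef, ⟨?_⟩⟩
  let f : X.Coef →+ (Fin (Module.finrank ℤ_[p] X.Coef) → ZMod (p ^ n)) :=
    AddMonoidHom.mk' (fun a i => PadicInt.toZModPow n (b.repr a i)) fun a a' => funext fun i => by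
      simp
  have hsurj : Function.Surjective f := fun g => by
    choose z hz using fun i => ZMod.ringHom_surjective (PadicInt.toZModPow n) (g i)
    refine ⟨b.equivFun.symm z, funext fun i => ?_⟩
    show PadicInt.toZModPow n (b.equivFun (b.equivFun.symm z) i) = _
    rw [LinearEquiv.apply_symm_apply, hz]
  have hker : f.ker = (Ideal.span {((p : X.Coef) ^ n)}).toAddSubgroup := by
    ext a
    rw [AddMonoidHom.mem_ker, Submodule.mem_toAddSubgroup, Ideal.mem_span_singleton']
    constructor
    · intro ha
      choose z hz using fun i => (by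
        have h := congrFun ha i
        rw [← Ideal.mem_span_singleton']
        rw [← PadicInt.ker_toZModPow]
        exact h : ∃ z, z * (p : ℤ_[p]) ^ n = b.repr a i)
      refine ⟨b.equivFun.symm z, b.equivFun.injective (funext fun i => ?_)⟩
      rw [mul_comm, show (p : X.Coef) ^ n * b.equivFun.symm z =
        ((p : ℤ_[p]) ^ n) • b.equivFun.symm z by rw [Algebra.smul_def, map_pow, map_natCast],
        map_smul, LinearEquiv.apply_symm_apply, Pi.smul_apply, smul_eq_mul, mul_comm, hz]
      rfl
    · rintro ⟨c, rfl⟩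
      funext i
      show PadicInt.toZModPow n (b.repr (c * (p : X.Coef) ^ n) i) = 0
      rw [mul_comm, show (p : X.Coef) ^ n * c = ((p : ℤ_[p]) ^ n) • c by
        rw [Algebra.smul_def, map_pow, map_natCast], map_smul, Finsupp.smul_apply, smul_eq_mul,
        map_mul, ← Nat.cast_pow, map_natCast, ZMod.natCast_self, zero_mul]
  exact ((QuotientAddGroup.quotientAddEquivOfEq hker.symm).trans
    (QuotientAddGroup.quotientKerEquivOfSurjective f hsurj))

end Aux

end FLTAgent.ModLift
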