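import Fermat.Agent.ModLift.Modules.TraceRep

/-!
# Inertia in the twisted traces

The bounds on inertia at an auxiliary level give exact relations in the twisted traces, the modules
being torsion free.
-/

set_option autoImplicit false
set_option linter.unusedSectionVars false
set_option linter.style.haveILetI false

noncomputable section

set_option synthInstance.maxHeartbeats 400000
set_option maxHeartbeats 2000000
set_option maxRecDepth 4000

open IsLocalRing FLTAgent.Lowering.Cocycle FLTAgent.EigenReps CongruenceSubgroup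
open scoped MatrixGroups

namespace FLTAgent.ModLift

open FLTAgent.Lowering

open FLTAgent.PeriodHecke FLTAgent.DeligneSerre

local notation "LL" => AlgebraicClosure ℚ
local notation "GG" => (AlgebraicClosure ℚ ≃ₐ[ℚ] AlgebraicClosure ℚ)

section Algebra

variable {A B : Type*} [AddCommGroup A] [AddCommGroup B] (h : A →+ B)

theorem semiconj_sub {f g : AddMonoid.End A} {f' g' : AddMonoid.End B}
    (hf : ∀ a, h (f a) = f' (h a)) (hg : ∀ a, h (g a) = g' (h a)) (a : A) :
    h ((f - g) a) = (f' - g') (h a) := by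
  rw [endSub_apply, endSub_apply, map_sub, hf, hg]

theorem semiconj_mul {f g : AddMonoid.End A} {f' g' : AddMonoid.End B}
    (hf : ∀ a, h (f a) = f' (h a)) (hg : ∀ a, h (g a) = g' (h a)) (a : A) :
    h ((f * g) a) = (f' * g') (h a) := by
  rw [endMul_apply, endMul_apply, hf, hg]

theorem semiconj_pow {f : AddMonoid.End A} {f' : AddMonoid.End B}
    (hf : ∀ a, h (f a) = f' (h a)) (k : ℕ) (a : A) : h ((f ^ k) a) = (f' ^ k) (h a) := by
  induction k generalizing a with
  | zero => rw [pow_zero, pow_zero, endOne_apply, endOne_apply]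
  | succ k ih => rw [pow_succ, pow_succ, endMul_apply, endMul_apply, ih, hf]

theorem semiconj_one (a : A) : h ((1 : AddMonoid.End A) a) = (1 : AddMonoid.End B) (h a) := by
  rw [endOne_apply, endOne_apply]

theorem semiconj_modEnd {R : Type*} [Semiring R] [Module R A] (f : Module.End R A)
    {f' : AddMonoid.End B} (hf : ∀ a, h (f a) = f' (h a)) (k : ℕ) (a : A) :
    h ((f ^ k) a) = (f' ^ k) (h a) := by
  induction k generalizing a with
  | zero => rw [pow_zero, pow_zero, endOne_apply]; rfl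
  | succ k ih => rw [pow_succ, pow_succ, Module.End.mul_apply, endMul_apply, ih, hf]

theorem twisted_quadratic {E : Type*} [Ring E] {U Ui a ai : E} (hUU : U * Ui = 1) (haa : a * ai = 1)
    (haa' : ai * a = 1) (hUa : Commute U a) (hUai : Commute U ai) :
    U * (U + Ui - (a + ai)) = a * a * ((ai * U - 1) * (ai * U - ai * ai)) := by
  have h1 : a * a * (ai * ai) = 1 := by rw [mul_assoc, ← mul_assoc a ai, haa, one_mul, haa]
  have h2 : a * a * ai = a := by rw [mul_assoc, haa, mul_one]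
  have e1 : (ai * U - 1) * (ai * U - ai * ai) = ai * ai * (U * U) - ai * (ai * ai) * U - ai * U + ai * ai := by
    rw [sub_mul, one_mul, mul_sub, mul_assoc ai U (ai * U), ← mul_assoc U ai, hUai.eq, mul_assoc ai U U,
      ← mul_assoc ai ai, mul_assoc ai U (ai * ai), (hUai.mul_right hUai).eq, ← mul_assoc ai (ai * ai)]
    abel
  rw [e1]
  simp only [mul_add, mul_sub]
  rw [h1, ← mul_assoc (a * a) (ai * ai), h1, one_mul,
    ← mul_assoc (a * a) (ai * (ai * ai)), ← mul_assoc (a * a) ai (ai * ai), h2,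
    ← mul_assoc a ai, haa, one_mul, ← mul_assoc (a * a) ai, h2, hUU,
    hUa.eq, hUai.eq]
  abel

theorem unipotent_identity {E : Type*} [Ring E] {U Ui : E} (h : Ui * U = 1) :
    U + Ui - (1 + 1) = Ui * (U - 1) ^ 2 := by
  simp only [sq, sub_mul, mul_sub, one_mul, mul_one, ← mul_assoc, h]
  abel

theorem kill_of_quadratic {U Ui a ai : AddMonoid.End A} (hUU : U * Ui = 1) (hUU' : Ui * U = 1)
    (haa : a * ai = 1) (haa' : ai * a = 1) (hUa : Commute U a) (hUai : Commute U ai) {B k : ℕ} {w : A}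
    (hw : B • (((ai * U - 1) ^ k * (ai * U - ai * ai) ^ k : AddMonoid.End A) w) = 0) :
    B • (((U + Ui - (a + ai)) ^ k : AddMonoid.End A) w) = 0 := by
  have hU : Commute U (U + Ui - (a + ai)) :=
    ((Commute.refl U).add_right (hUU.trans hUU'.symm)).sub_right (hUa.add_right hUai)
  have h0 : Commute a ai := haa.trans haa'.symm
  have h1 : Commute (ai * U) (ai * ai) := Commute.mul_left
    ((Commute.refl ai).mul_right (Commute.refl ai)) (hUai.mul_right hUai)
  have hEE : Commute (ai * U - 1) (ai * U - ai * ai) :=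
    ((Commute.refl _).sub_right h1).sub_left (Commute.one_left _)
  have h2 : Commute a (ai * U) := h0.mul_right hUa.symm
  have h3 : Commute a ((ai * U - 1) * (ai * U - ai * ai)) :=
    (h2.sub_right (Commute.one_right _)).mul_right (h2.sub_right (h0.mul_right h0))
  have h4 : (U + Ui - (a + ai)) ^ k = Ui ^ k *
      ((a * a) ^ k * ((ai * U - 1) ^ k * (ai * U - ai * ai) ^ k)) := by
    rw [← hEE.mul_pow, ← (h3.mul_left h3).mul_pow, ← twisted_quadratic hUU haa haa' hUa hUai,
      hU.mul_pow, ← mul_assoc, ← Commute.mul_pow (show Commute Ui U from hUU'.trans hUU.symm), hUU', one_pow,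
      one_mul]
  rw [h4, endMul_apply, endMul_apply, ← map_nsmul, ← map_nsmul, hw, map_zero, map_zero]

theorem eq_of_sq_eq_of_odd {G : Type*} [CommGroup G] {P : ℕ} (hP : Odd P) {x y : G}
    (hx : x ^ P = 1) (hy : y ^ P = 1) (hxy : x ^ 2 = y ^ 2) : x = y := by
  have h2 : (x * y⁻¹) ^ 2 = 1 := by rw [mul_pow, hxy, inv_pow, mul_inv_cancel]
  have hP' : (x * y⁻¹) ^ P = 1 := by rw [mul_pow, hx, inv_pow, hy, inv_one, one_mul]
  have hg := pow_gcd_eq_one.mpr ⟨h2, hP'⟩
  rw [Nat.coprime_two_left.mpr hP, pow_one] at hg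
  exact mul_inv_eq_one.mp hg

theorem prime_dvd_div {a l M : ℕ} (ha : a.Prime) (hl : l.Prime) (hne : a ≠ l) (haM : a ∣ M)
    (hlM : l ∣ M) : a ∣ M / l := by
  obtain ⟨e, rfl⟩ := hlM
  rw [Nat.mul_div_cancel_left _ hl.pos]
  exact (ha.dvd_mul.mp haM).resolve_left fun h => hne ((Nat.prime_dvd_prime_iff_eq ha hl).mp h)

theorem scal_inv_scal {Γ : Subgroup SL(2, ℤ)} {A V : Type} [CommRing A] [AddCommGroup V]
    [Module A V] (u : Aˣ) (φ : Hpar Γ V) : scal (↑u⁻¹ : A) (scal (↑u : A) φ) = φ :=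
  Subtype.ext (AddMonoidHom.ext fun z => by rw [coe_scal, coe_scal, smul_smul, Units.inv_mul, one_smul])

theorem cast_gammaLower_sq {M l : ℕ} (hl : l.Prime) (hlM : l ∣ M) (h2 : ¬ l ^ 2 ∣ M) {d : ℤ}
    (h1 : (d : ZMod (M / l)) = 1) (hm : (d : ZMod l) = -1) : (d : ZMod M) ^ 2 = 1 := by
  have hco : (M / l).Coprime l := by
    refine ((hl.coprime_iff_not_dvd).mpr fun h => h2 ?_).symm
    rw [sq]
    exact (Nat.mul_dvd_mul_left l h).trans (by rw [Nat.mul_div_cancel' hlM])
  have e1 : ((M / l : ℕ) : ℤ) ∣ d ^ 2 - 1 := by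
    rw [← ZMod.intCast_zmod_eq_zero_iff_dvd]; push_cast; rw [h1]; ring
  have e2 : (l : ℤ) ∣ d ^ 2 - 1 := by
    rw [← ZMod.intCast_zmod_eq_zero_iff_dvd]; push_cast; rw [hm]; ring
  have e3 : (M : ℤ) ∣ d ^ 2 - 1 := by
    rw [← Nat.div_mul_cancel hlM, Nat.cast_mul]
    exact (Int.isCoprime_iff_nat_coprime.mpr (by rw [Int.natAbs_natCast, Int.natAbs_natCast]; exact hco)).mul_dvd e1 e2
  rw [← ZMod.intCast_zmod_eq_zero_iff_dvd] at e3
  push_cast at e3
  linear_combination e3

end Algebra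

variable {p : ℕ} [Fact p.Prime] {O : Type} [CommRing O] [IsDomain O] [IsDiscreteValuationRing O]
  [Algebra ℤ_[p] O] [Module.Finite ℤ_[p] O] [CharZero O] {S : Setup p O} (X : Aux S)

namespace Aux

/-- Torsion freeness in the form used with the bounds. -/
theorem eq_zero_of_embW {M : ℕ} [NeZero M] (hA : X.Allowed M) (e : Bool) {B : ℕ} (hB : 0 < B)
    (y : X.Mod e) (h : ∀ n, B • X.embW hA e n y = 0) : y = 0 := by
  haveI := X.free_coef
  haveI := (X.mod_finite_free e).2
  apply (Module.Free.chooseBasis X.Coef (X.Mod e)).repr.injective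
  rw [map_zero]
  refine Finsupp.ext fun i => ?_
  apply (Module.Free.chooseBasis ℤ_[p] X.Coef).repr.injective
  refine Finsupp.ext fun j => ?_
  rw [Finsupp.zero_apply, map_zero, Finsupp.zero_apply]
  set z := (Module.Free.chooseBasis ℤ_[p] X.Coef).repr
    ((Module.Free.chooseBasis X.Coef (X.Mod e)).repr y i) j
  refine mul_left_cancel₀ (Nat.cast_ne_zero.mpr hB.ne' : (B : ℤ_[p]) ≠ 0) ?_
  rw [mul_zero]
  refine PadicInt.ext_of_toZModPow.mp fun n => ?_
  obtain ⟨x, hx⟩ := (X.modPow_eq_zero_iff e n (B • y)).mp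
    ((X.embW_eq_zero_iff hA e n _).mp (by rw [map_nsmul]; exact h n))
  have h1 := congrArg (fun v => (Module.Free.chooseBasis ℤ_[p] X.Coef).repr
    ((Module.Free.chooseBasis X.Coef (X.Mod e)).repr v i) j) hx
  simp only [map_nsmul, map_smul, Finsupp.smul_apply, smul_eq_mul] at h1
  rw [show ((p : X.Coef) ^ n) * (Module.Free.chooseBasis X.Coef (X.Mod e)).repr x i =
    ((p : ℤ_[p]) ^ n) • (Module.Free.chooseBasis X.Coef (X.Mod e)).repr x i by
      rw [Algebra.smul_def, map_pow, map_natCast], map_smul, Finsupp.smul_apply, smul_eq_mul,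
    nsmul_eq_mul] at h1
  rw [show (B : ℤ_[p]) * z = _ from h1, map_mul, map_zero, ← Nat.cast_pow, map_natCast,
    ZMod.natCast_self, zero_mul]

theorem ne_of_mem_T (_X : Aux S) {t : ℕ} (ht : t ∈ S.T) : t ≠ p := by
  obtain ⟨htp, -, hd⟩ := S.T_prime t ht
  rintro rfl
  have h := Nat.le_of_dvd (by have := htp.two_le; omega) hd
  have := htp.two_le
  omega

theorem ne_of_mem_Q {q : ℕ} (hq : q ∈ X.Q) : q ≠ p := fun h => X.notMem q hq (h ▸ S.p_mem)

theorem eps_eq_one {u : (ZMod X.level)ˣ} {e : Bool} (hT : e = true → ∀ (t : ℕ) (ht : t ∈ S.T),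
    ZMod.castHom ((S.T_prime t ht).2.1.trans X.dvd_M0_level) (ZMod t) (u : ZMod X.level) = 1) :
    S.eps X.dvd_M0_level e u = 1 := by
  cases e
  · simp [Setup.eps]
  · simp only [Setup.eps, if_true, MonoidHom.finsetProd_apply]
    refine Finset.prod_eq_one fun t _ => ?_
    rw [MonoidHom.comp_apply, show Units.map _ u = 1 from Units.ext (hT rfl t.1 t.2), map_one]

theorem dia_eq_one {u : (ZMod X.level)ˣ} (hQ : ∀ (q : ℕ) (hq : q ∈ X.Q), ZMod.castHom
    (dvd_mul_of_dvd_right (Finset.dvd_prod_of_mem _ hq) _ : q ∣ X.level) (ZMod q)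
      (u : ZMod X.level) = 1) : X.dia u = 1 := by
  exact (congrArg (QuotientGroup.mk' X.coSylow) (funext fun q => Units.ext (hQ q.1 q.2) :
    (MonoidHom.pi fun q : X.Q => Units.map (ZMod.castHom
      (dvd_mul_of_dvd_right (Finset.dvd_prod_of_mem _ q.2) _ : (q : ℕ) ∣ X.level)
        (ZMod (q : ℕ))).toMonoidHom) u = 1)).trans (map_one _)

theorem chiU_eq (e : Bool) (u : (ZMod X.level)ˣ) : (X.chiU e u : X.Coef) =
    algebraMap O X.Coef (S.eps X.dvd_M0_level e u : O) * MonoidAlgebra.of O X.Dia (X.dia u) := rfl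

theorem chiU_of_sq {e : Bool} {u : (ZMod X.level)ˣ} (h : u * u = 1) : X.chiU e u = 1 :=
  eq_of_sq_eq_of_odd (((Fact.out : p.Prime).eq_two_or_odd').resolve_left
      S.p_ne |>.pow) (X.chiU_pow e u) (one_pow _)
    (by rw [sq, ← map_mul, h, map_one, one_pow])

section Bound

variable {X} {P : PseudoChar GG X.TR} (hP : X.IsTracePseudo P) {M : ℕ} [NeZero M]
  (hA : X.Allowed M) (Z : Realisation p M) {l : ℕ} (hl : l.Prime) (hlp : l ≠ p) (hlN : l ∣ X.level)
  {V : ValuationSubring LL} (hV : V.LiesOverPrime l) {σ : GG} (hσ : σ ∈ V.inertiaSubgroupIn ℚ)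

/-- A coordinate of an element of the eigenspace. -/
def eigCoord (e : Bool) (n : ℕ) (i : Fin (X.coordDim n)) :
    X.Eig hA e n →+ Hpar (Gamma1 M) (ZMod (p ^ n)) :=
  (coordHpar (X.coord n) i).comp (X.Eig hA e n).subtype

theorem eq_zero_of_eigCoord (e : Bool) (n : ℕ) (v : X.Eig hA e n)
    (h : ∀ i, eigCoord hA e n i v = 0) : v = 0 :=
  Subtype.ext (coordHpar_ext (X.coord n) fun i =>
    (h i).trans (map_zero (coordHpar (Γ := Gamma1 M) (X.coord n) i)).symm)

theorem eigCoord_diamond (e : Bool) (n : ℕ) (i : Fin (X.coordDim n)) (γ : Gamma0 M)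
    (u : (ZMod X.level)ˣ) (hu : ((mat γ 1 1 : ℤ) : ZMod X.level) = (u : ZMod X.level))
    (w : X.Eig hA e n) :
    eigCoord hA e n i (X.eigScal hA e n (X.chiU e u : X.Coef) w) =
      diamond M γ (eigCoord hA e n i w) := by
  show coordHpar (X.coord n) i (scal (X.chiU e u : X.Coef) w.1) = _
  have h := w.2 γ
  rw [psi_apply, mat_sub0, hu, show X.chi e (u : ZMod X.level) = (X.chiU e u : X.Coef) from
    MulChar.ofUnitHom_coe (X.chiU e) u] at h
  rw [← h]
  rfl

theorem diamond_eigCoord_of_sq (e : Bool) (n : ℕ) (i : Fin (X.coordDim n)) (g : Gamma0 M)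
    (h : ((mat g 1 1 : ℤ) : ZMod M) ^ 2 = 1) (w : X.Eig hA e n) :
    diamond M g (eigCoord hA e n i w) = eigCoord hA e n i w := by
  have hd : ((mat g 1 1 : ℤ) : ZMod X.level) * ((mat g 1 1 : ℤ) : ZMod X.level) = 1 := by
    rw [← map_intCast (ZMod.castHom hA.dvd (ZMod X.level)), ← map_mul, ← sq, h, map_one]
  obtain ⟨v, hv⟩ : IsUnit ((mat g 1 1 : ℤ) : ZMod X.level) := IsUnit.of_mul_eq_one _ hd
  have h1v : X.eigScal hA e n (X.chiU e v : X.Coef) = 1 :=
    (congrArg (fun z : X.Coefˣ => X.eigScal hA e n (z : X.Coef))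
      (X.chiU_of_sq (e := e) (u := v) (Units.ext (by rw [Units.val_mul, hv, Units.val_one, hd])))).trans
      (map_one (X.eigScal hA e n))
  exact (eigCoord_diamond hA e n i g v hv.symm w).symm.trans
    (congrArg (fun f : AddMonoid.End (X.Eig hA e n) => eigCoord hA e n i (f w)) h1v)

include hP hl hlp hlN hV hσ in
theorem IsTracePseudo.det_inertia : P.det σ = 1 := by
  rw [hP.det_eq]
  show algebraMap ℤ_[p] X.TR (cycZ p σ) = 1
  rw [cycZ_inertia p hl hlp hV hσ, map_one]

include hl hlp hlN hV hσ in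
theorem eigC_inertia (e : Bool) (n : ℕ) : X.eigC hA e n σ = 1 := by
  show X.eigScal hA e n (algebraMap ℤ_[p] X.Coef (cycZ p σ)) = 1
  rw [cycZ_inertia p hl hlp hV hσ, map_one, map_one]

theorem expo_level_eq (hA : X.Allowed M) (σ : GG) :
    ((expo X.level σ : (ZMod X.level)ˣ) : ZMod X.level) =
      ZMod.castHom hA.dvd (ZMod X.level) ((expo M σ : (ZMod M)ˣ) : ZMod M) :=
  (expo_cast hA.dvd σ).symm

include hP hA hl hlp hlN hV hσ in
/-- The quadratic relation bound gives an exact relation. -/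
theorem IsTracePseudo.inertia_bound (hM2 : ¬ l ^ 2 ∣ M) (hI : Z.InertiaBound l) (e : Bool) :
    (X.actTR e (P.tr σ) -
      ((X.half e (expo X.level σ) : X.Coef) + ((X.half e (expo X.level σ))⁻¹ : X.Coefˣ) : X.Coef) •
        (1 : Module.End X.Coef (X.Mod e))) ^ inertiaExp = 0 := by
  obtain ⟨B, hB, hI⟩ := hI
  have hlM : l ∣ M := hlN.trans hA.dvd
  haveI : NeZero (M / l) := ⟨(Nat.div_pos (Nat.le_of_dvd (NeZero.pos M) hlM) hl.pos).ne'⟩
  haveI : NeZero l := ⟨hl.ne_zero⟩
  set cM : ℕ := ((expo M σ : (ZMod M)ˣ) : ZMod M).val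
  have hcop : cM.Coprime M := ZMod.val_coe_unit_coprime _
  set γ := gammaLower cM hcop
  have hγ : ((γ : SL(2, ℤ)) 1 1 : ℤ) = cM := gammaLower_entry cM hcop
  have hγ1 : ((((γ : SL(2, ℤ)) 1 1 : ℤ)) : ZMod (M / l)) = 1 := by
    rw [hγ, Int.cast_natCast, ← map_natCast (ZMod.castHom (Nat.div_dvd_of_dvd hlM) (ZMod (M / l))),
      ZMod.natCast_zmod_val, expo_cast, expo_inertia hl ?_ hV hσ, Units.val_one]
    exact fun h => hM2 (by rw [sq]; exact (Nat.mul_dvd_mul_left l h).trans (by rw [Nat.mul_div_cancel' hlM]))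
  have hγ2 : ∀ ζ : LL, ζ ^ l = 1 → σ ζ = ζ ^ ((((γ : SL(2, ℤ)) 1 1 : ℤ) : ZMod l).val) := by
    intro ζ hζ
    rw [hγ, Int.cast_natCast, ← map_natCast (ZMod.castHom hlM (ZMod l)), ZMod.natCast_zmod_val,
      expo_cast]
    exact expo_spec σ hζ
  set u := expo X.level σ
  have hu : ((mat γ 1 1 : ℤ) : ZMod X.level) = (u : ZMod X.level) := by
    show ((((γ : SL(2, ℤ)) 1 1 : ℤ)) : ZMod X.level) = _
    rw [hγ, Int.cast_natCast, ← map_natCast (ZMod.castHom hA.dvd (ZMod X.level)),
      ZMod.natCast_zmod_val, expo_cast]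
  refine LinearMap.ext fun x => X.eq_zero_of_embW hA e hB _ fun n => ?_
  set U := X.eigU hA Z e n σ
  set Ui := X.eigU hA Z e n σ⁻¹
  set a := X.eigScal hA e n (X.half e u : X.Coef)
  set ai := X.eigScal hA e n ((X.half e u)⁻¹ : X.Coefˣ)
  set D := U + Ui - (a + ai)
  have hD : ∀ y, X.embW hA e n ((X.actTR e (P.tr σ) -
      ((X.half e u : X.Coef) + ((X.half e u)⁻¹ : X.Coefˣ) : X.Coef) •
        (1 : Module.End X.Coef (X.Mod e))) y) = D (X.embW hA e n y) := fun y => by
    have e1 : X.opShape hA Z e n σ = U + Ui := by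
      show U + X.eigC hA e n σ * Ui = U + Ui
      rw [eigC_inertia hA hl hlp hlN hV hσ, one_mul]
    have e2 : X.eigScal hA e n ((X.half e u : X.Coef) + ((X.half e u)⁻¹ : X.Coefˣ)) = a + ai :=
      map_add (X.eigScal hA e n) _ _
    have h3 : X.embW hA e n (X.actTR e (P.tr σ) y -
        ((X.half e u : X.Coef) + ((X.half e u)⁻¹ : X.Coefˣ) : X.Coef) • y) =
          (U + Ui) (X.embW hA e n y) - (a + ai) (X.embW hA e n y) :=
      (map_sub (X.embW hA e n) _ _).trans (congrArg₂ (· - ·)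
        ((hP.embW_tr hA Z n σ e y).trans (DFunLike.congr_fun e1 _))
        ((X.embW_smul hA e n _ y).trans (DFunLike.congr_fun e2 _)))
    exact h3.trans (endSub_apply (U + Ui) (a + ai) _).symm
  have hpow : ∀ k y, X.embW hA e n (((X.actTR e (P.tr σ) -
      ((X.half e u : X.Coef) + ((X.half e u)⁻¹ : X.Coefˣ) : X.Coef) •
        (1 : Module.End X.Coef (X.Mod e))) ^ k) y) = (D ^ k) (X.embW hA e n y) := by
    exact fun k y => semiconj_modEnd (X.embW hA e n) _ hD k y
  rw [hpow]
  set w := X.embW hA e n x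
  have hUU : U * Ui = 1 := (map_mul (X.eigU hA Z e n) σ σ⁻¹).symm.trans
    ((congrArg (X.eigU hA Z e n) (mul_inv_cancel σ)).trans (map_one (X.eigU hA Z e n)))
  have hUU' : Ui * U = 1 := (map_mul (X.eigU hA Z e n) σ⁻¹ σ).symm.trans
    ((congrArg (X.eigU hA Z e n) (inv_mul_cancel σ)).trans (map_one (X.eigU hA Z e n)))
  have hchi : ((X.half e u)⁻¹ : X.Coefˣ) * (X.half e u)⁻¹ = X.chiU e u := by
    rw [← mul_inv, inv_eq_iff_mul_eq_one, X.half_sq_mul]
  have haa : a * ai = 1 := (map_mul (X.eigScal hA e n) _ _).symm.trans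
    ((congrArg (X.eigScal hA e n) (X.half e u).mul_inv).trans (map_one (X.eigScal hA e n)))
  have haa' : ai * a = 1 := (map_mul (X.eigScal hA e n) _ _).symm.trans
    ((congrArg (X.eigScal hA e n) (X.half e u).inv_mul).trans (map_one (X.eigScal hA e n)))
  have hkill : B • (((ai * U - 1) ^ inertiaExp * (ai * U - ai * ai) ^ inertiaExp) w) = 0 := by
    refine eq_zero_of_eigCoord hA e n _ fun i => ?_
    have hE : ∀ v, eigCoord hA e n i ((ai * U) v) = (Z.gt n).act σ (eigCoord hA e n i v) := by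
      intro v
      exact (congrArg (coordHpar (X.coord n) i) (scal_inv_scal (X.half e u)
        (extEnd (X.coord n) ((Z.gt n).act σ) v.1))).trans
          (coordHpar_extEnd (X.coord n) ((Z.gt n).act σ) v.1 i)
    have hδ : ∀ v, eigCoord hA e n i ((ai * ai) v) = Realisation.diaEnd γ n (eigCoord hA e n i v) := by
      intro v
      have h0 : ai * ai = X.eigScal hA e n (X.chiU e u : X.Coef) :=
        (map_mul (X.eigScal hA e n) _ _).symm.trans (congrArg (X.eigScal hA e n)
          ((Units.val_mul _ _).symm.trans (congrArg Units.val hchi)))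
      exact (congrArg (fun f : AddMonoid.End (X.Eig hA e n) => eigCoord hA e n i (f v)) h0).trans
        (eigCoord_diamond hA e n i γ u hu v)
    rw [map_nsmul, semiconj_mul _ (semiconj_pow _ (semiconj_sub _ hE (semiconj_one _)) _)
      (semiconj_pow _ (semiconj_sub _ hE hδ) _)]
    exact hI V hV σ hσ γ hγ1 hγ2 n _ fun g hg1 hg2 =>
      diamond_eigCoord_of_sq hA e n i g
        (cast_gammaLower_sq hl hlM hM2 hg1 hg2) w
  have hUa : Commute U a := X.eigU_eigScal hA Z e n σ (X.half e u : X.Coef)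
  have hUai : Commute U ai := X.eigU_eigScal hA Z e n σ (↑((X.half e u)⁻¹ : X.Coefˣ) : X.Coef)
  exact kill_of_quadratic (k := inertiaExp) (B := B) (w := w) hUU hUU' haa haa' hUa hUai hkill

include hP hA hl hlp hlN hV hσ in
/-- The unipotence bound gives unipotence. -/
theorem IsTracePseudo.unipotent_bound (hU : Z.UnipotentBound l) (e : Bool)
    (hfix : ∀ γ : Gamma0 M, (((γ : SL(2, ℤ)) 1 1 : ℤ) : ZMod (M / l)) = 1 →
      X.chi e ((mat γ 1 1 : ℤ) : ZMod X.level) = 1)
    (hone : X.half e (expo X.level σ) = 1) : X.actTR e (P.tr σ) = 2 := by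
  obtain ⟨B, hB, hU⟩ := hU
  refine sub_eq_zero.mp (LinearMap.ext fun x => X.eq_zero_of_embW hA e hB _ fun n => ?_)
  set U := X.eigU hA Z e n σ
  set Ui := X.eigU hA Z e n σ⁻¹
  set w := X.embW hA e n x
  have e1 : X.embW hA e n ((X.actTR e (P.tr σ) - 2) x) = (U + Ui - (1 + 1)) w := by
    have h0 : X.opShape hA Z e n σ = U + Ui := by
      show U + X.eigC hA e n σ * Ui = U + Ui
      rw [eigC_inertia hA hl hlp hlN hV hσ, one_mul]
    have h2 : (2 : Module.End X.Coef (X.Mod e)) x = x + x :=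
      congrArg (fun f : Module.End X.Coef (X.Mod e) => f x) one_add_one_eq_two.symm
    have h3 : X.embW hA e n (X.actTR e (P.tr σ) x - (2 : Module.End X.Coef (X.Mod e)) x) =
        (U + Ui) w - ((1 : AddMonoid.End (X.Eig hA e n)) + 1) w :=
      (map_sub (X.embW hA e n) _ _).trans (congrArg₂ (· - ·)
        ((hP.embW_tr hA Z n σ e x).trans (DFunLike.congr_fun h0 _))
        (((congrArg (X.embW hA e n) h2).trans (map_add (X.embW hA e n) x x)).trans
          ((endAdd_apply 1 1 w).trans (congrArg₂ (· + ·) (endOne_apply w) (endOne_apply w))).symm))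
    exact h3.trans (endSub_apply (U + Ui) (1 + 1) w).symm
  have hUU' : Ui * U = 1 := (map_mul (X.eigU hA Z e n) σ⁻¹ σ).symm.trans
    ((congrArg (X.eigU hA Z e n) (inv_mul_cancel σ)).trans (map_one (X.eigU hA Z e n)))
  have e3 := e1.trans ((DFunLike.congr_fun (unipotent_identity hUU') w).trans (endMul_apply _ _ _))
  rw [e3, ← map_nsmul]
  suffices h : B • (((U - 1) ^ 2 : AddMonoid.End (X.Eig hA e n)) w) = 0 by rw [h, map_zero]
  refine eq_zero_of_eigCoord hA e n _ fun i => ?_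
  have hE : ∀ v, eigCoord hA e n i (U v) = (Z.gt n).act σ (eigCoord hA e n i v) := fun v => by
    show coordHpar (X.coord n) i (X.bigU Z e n σ v.1) = _
    rw [bigU_apply, hone, Units.val_one, map_one]
    exact coordHpar_extEnd _ _ _ _
  rw [map_nsmul, semiconj_pow _ (semiconj_sub _ hE (semiconj_one _))]
  refine hU V hV σ hσ n _ fun γ hγ => ?_
  show coordHpar (X.coord n) i (diamond M γ w.1) = _
  rw [w.2 γ, psi_apply, mat_sub0, hfix γ hγ, map_one]
  rfl

end Bound

end Aux

end FLTAgent.ModLift
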