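import Fermat.Agent.ModLift.Modules.TracePseudo

/-!
# The representation of the twisted traces

Complex conjugation splits the pseudo-character and residual irreducibility gives a unit among the
products of off-diagonal entries, so there is a representation with entries combinations of traces.
-/

set_option autoImplicit false
set_option linter.unusedSectionVars false
set_option linter.style.haveILetI false

noncomputable section

set_option synthInstance.maxHeartbeats 400000
set_option maxHeartbeats 1000000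

open IsLocalRing FLTAgent.Lowering.Cocycle FLTAgent.EigenReps
open scoped MatrixGroups

namespace FLTAgent.ModLift

open FLTAgent.Lowering

local notation "LL" => AlgebraicClosure ℚ
local notation "GG" => (AlgebraicClosure ℚ ≃ₐ[ℚ] AlgebraicClosure ℚ)

/-- The pseudo-character of a two dimensional representation. -/
def pseudoOfRep {G k : Type*} [Group G] [CommRing k] (r : G →* GL (Fin 2) k) : PseudoChar G k where
  tr g := Matrix.trace (r g : Matrix (Fin 2) (Fin 2) k)
  det := Matrix.detMonoidHom.comp ((Units.coeHom _).comp r)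
  tr_one := by simp
  tr_mul g h := by
    set A := (r g : Matrix (Fin 2) (Fin 2) k)
    set B := (r h : Matrix (Fin 2) (Fin 2) k)
    have hinv : B.det • ((r h⁻¹ : GL (Fin 2) k) : Matrix (Fin 2) (Fin 2) k) = B.adjugate := by
      have h1 : B * ((r h⁻¹ : GL (Fin 2) k) : Matrix (Fin 2) (Fin 2) k) = 1 := by
        rw [← Units.val_mul, ← map_mul, mul_inv_cancel, map_one, Units.val_one]
      have h2 := congrArg (B.adjugate * ·) h1
      simp only [← mul_assoc, Matrix.adjugate_mul, Matrix.smul_mul, one_mul, mul_one] at h2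
      exact h2
    show (r (g * h) : Matrix (Fin 2) (Fin 2) k).trace +
      B.det * (r (g * h⁻¹) : Matrix (Fin 2) (Fin 2) k).trace = A.trace * B.trace
    rw [map_mul, map_mul, Units.val_mul, Units.val_mul, ← smul_eq_mul B.det, ← Matrix.trace_smul,
      ← Matrix.mul_smul, hinv, Matrix.adjugate_fin_two]
    simp [Matrix.trace_fin_two, Matrix.mul_apply, Fin.sum_univ_two, A, B]
    ring

section Entries

variable {G k : Type*} [Group G] [CommRing k] {P : PseudoChar G k}

theorem linExt_sub_mem (I : Ideal k) {τ : G} (h : ∀ g, P.tr (g * τ) - P.tr g ∈ I)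
    (x : MonoidAlgebra k G) : P.linExt (x * MonoidAlgebra.of k G τ) - P.linExt x ∈ I := by
  induction x using MonoidAlgebra.induction_linear with
  | zero => simp
  | add a b ha hb =>
    rw [add_mul, map_add, map_add, add_sub_add_comm]
    exact add_mem ha hb
  | single g a =>
    rw [MonoidAlgebra.of_apply, MonoidAlgebra.single_mul_single, PseudoChar.linExt_single,
      PseudoChar.linExt_single, mul_one, ← mul_sub]
    exact Ideal.mul_mem_left _ _ (h g)

/-- The four entry functions are combinations of translates of the trace. -/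
theorem splitData_entries_mem {r : k} (c : G) (l m : k) (hr : r * (l - m) = 1)
    (hadd : l + m = P.tr c) (hmul : l * m = P.det c) (I : Ideal k) {τ : G}
    (h : ∀ g, P.tr (g * τ) - P.tr g ∈ I) :
    (PseudoChar.splitData (P := P) c l m hr hadd hmul).diag₁ τ - 1 ∈ I ∧
    (PseudoChar.splitData (P := P) c l m hr hadd hmul).diag₂ τ - 1 ∈ I ∧
    ∀ w, (PseudoChar.splitData (P := P) c l m hr hadd hmul).off τ w ∈ I ∧
      (PseudoChar.splitData (P := P) c l m hr hadd hmul).off w τ ∈ I := by
  set s := PseudoChar.splitData (P := P) c l m hr hadd hmul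
  set e : MonoidAlgebra k G := r • (MonoidAlgebra.of k G c - m • 1)
  have key := linExt_sub_mem I h
  have h1 : ∀ g, s.diag₁ g = P.linExt (e * MonoidAlgebra.of k G g) := fun _ => rfl
  have h2 : ∀ g, s.diag₂ g = P.linExt ((1 - e) * MonoidAlgebra.of k G g) := fun _ => rfl
  have h3 : ∀ g w, s.off g w =
      P.linExt (e * MonoidAlgebra.of k G g * (1 - e) * MonoidAlgebra.of k G w) := fun _ _ => rfl
  have h3' : ∀ g w, s.off g w =
      P.linExt ((1 - e) * MonoidAlgebra.of k G w * e * MonoidAlgebra.of k G g) := fun g w => by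
    rw [h3, show e * MonoidAlgebra.of k G g * (1 - e) * MonoidAlgebra.of k G w =
      (e * MonoidAlgebra.of k G g) * ((1 - e) * MonoidAlgebra.of k G w) by simp only [mul_assoc],
      P.linExt_comm]
    simp only [mul_assoc]
  refine ⟨?_, ?_, fun w => ⟨?_, ?_⟩⟩
  · rw [← s.diag₁_one, h1, h1, map_one, mul_one]
    exact key _
  · rw [← s.diag₂_one, h2, h2, map_one, mul_one]
    exact key _
  · rw [← sub_zero (s.off τ w), ← s.off_one_left w, h3', h3', map_one, mul_one]
    exact key _
  · rw [← sub_zero (s.off w τ), ← s.off_one_right w, h3, h3, map_one, mul_one]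
    exact key _

end Entries

variable {p : ℕ} [Fact p.Prime] {O : Type} [CommRing O] [IsDomain O] [IsDiscreteValuationRing O]
  [Algebra ℤ_[p] O] [Module.Finite ℤ_[p] O] [CharZero O] {S : Setup p O} (X : Aux S)

namespace Aux

theorem redTR_cycT [Nontrivial (X.Mod false)] (σ : GG) : X.redTR (X.cycT σ) = detGL (S.rb σ) := by
  obtain ⟨c, hc⟩ := DetCyclo.exists_cycloExponent p 1 σ
  obtain ⟨z, hz⟩ := Ideal.mem_span_singleton'.mp (cycZ_sub_mem p hc)
  rw [S.rb_det σ c hc]
  show X.redTR (algebraMap ℤ_[p] X.TR (cycZ p σ)) = _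
  rw [eq_add_of_sub_eq hz.symm, map_add, map_add, map_natCast, map_natCast, map_mul, map_mul,
    pow_one, map_natCast, map_natCast, residue_natCast_eq_zero p O, mul_zero, zero_add]

variable {X} [Nontrivial (X.Mod false)] {P : PseudoChar GG X.TR} (hP : X.IsTracePseudo P)

include hP in
/-- The traces reduce to those of the residual representation. -/
theorem IsTracePseudo.residual (σ : GG) : X.redTR (P.tr σ) = trGL (S.rb σ) := by
  obtain ⟨L, hL, hfix⟩ := hP.level 1
  obtain ⟨L0, hL0, hrb⟩ := S.rb_level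
  refine tr_eq_of_good (X := X) (P.map X.redTR.toRingHom) (pseudoOfRep S.rb)
    ⟨L, hL, fun τ hτ g => ?_⟩ ⟨L0, hL0, fun τ hτ g => ?_⟩ (fun l V hV τ hτ => ⟨?_, ?_⟩) σ
  · obtain ⟨z, hz⟩ := Ideal.mem_span_singleton'.mp (by simpa using hfix τ hτ g :
      P.tr (g * τ) - P.tr g ∈ Ideal.span {(p : X.TR)})
    show X.redTR (P.tr (g * τ)) = X.redTR (P.tr g)
    rw [eq_add_of_sub_eq hz.symm, map_add, map_mul, map_natCast, residue_natCast_eq_zero p O,
      mul_zero, zero_add]
  · show trGL (S.rb (g * τ)) = trGL (S.rb g)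
    rw [map_mul, hrb τ hτ, mul_one]
  · show X.redTR (P.tr τ) = trGL (S.rb τ)
    rw [hP.frob l V hV τ hτ, X.redTR_trace, S.tr0_spec l.1 V hV τ hτ]
  · show X.redTR (P.det τ) = detGL (S.rb τ)
    rw [hP.det_eq, X.redTR_cycT]

include hP in
theorem IsTracePseudo.det_conj : P.det complexConjugation = -1 := by
  rw [hP.det_eq]
  show algebraMap ℤ_[p] X.TR (cycZ p complexConjugation) = -1
  rw [cycZ_complexConjugation, map_neg, map_one]

variable (X) in
theorem isUnit_two_TR : IsUnit (2 : X.TR) := by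
  have h := (S.isUnit_two).map (algebraMap O X.TR)
  rwa [map_ofNat] at h

include hP in
theorem IsTracePseudo.tr_conj : P.tr complexConjugation = 0 := by
  have h := P.tr_mul_self complexConjugation complexConjugation
  rw [complexConjugation_mul_self, one_mul, P.tr_one, hP.det_conj] at h
  refine (X.isUnit_two_TR.mul_right_eq_zero).mp ?_
  linear_combination -h

/-- The split data of complex conjugation. -/
def IsTracePseudo.split : SplitData P :=
  PseudoChar.splitData (r := ↑(X.isUnit_two_TR.unit⁻¹)) complexConjugation 1 (-1)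
    (by rw [sub_neg_eq_add, one_add_one_eq_two]; exact IsUnit.val_inv_mul _)
    (by rw [hP.tr_conj]; exact add_neg_cancel 1) (by rw [hP.det_conj, one_mul])

theorem IsTracePseudo.exists_unit_off : ∃ g h : GG, IsUnit (hP.split.off g h) := by
  by_contra hne
  push Not at hne
  have h0 : ∀ g h, X.redTR (hP.split.off g h) = 0 := fun g h =>
    by_contra fun hh => hne g h (X.isUnit_of_redTR hh)
  obtain ⟨g, h, hgh⟩ := S.rb_big
  refine hgh ?_
  rw [← hP.residual, ← hP.split.diag_add, map_add]
  have hm1 : ∀ a b, X.redTR (hP.split.diag₁ (a * b)) =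
      X.redTR (hP.split.diag₁ a) * X.redTR (hP.split.diag₁ b) := fun a b => by
    rw [hP.split.diag₁_mul, map_add, map_mul, h0, add_zero]
  have hm2 : ∀ a b, X.redTR (hP.split.diag₂ (a * b)) =
      X.redTR (hP.split.diag₂ a) * X.redTR (hP.split.diag₂ b) := fun a b => by
    rw [hP.split.diag₂_mul, map_add, map_mul, h0, add_zero]
  let f1 : GG →* ResidueField O :=
    { toFun := fun a => X.redTR (hP.split.diag₁ a)
      map_one' := by rw [hP.split.diag₁_one, map_one]
      map_mul' := hm1 }
  let f2 : GG →* ResidueField O :=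
    { toFun := fun a => X.redTR (hP.split.diag₂ a)
      map_one' := by rw [hP.split.diag₂_one, map_one]
      map_mul' := hm2 }
  have hcomm : ∀ f : GG →* ResidueField O, f (g * h * g⁻¹ * h⁻¹) = 1 := fun f => by
    calc f (g * h * g⁻¹ * h⁻¹) = f (g * g⁻¹) * f (h * h⁻¹) := by simp only [map_mul]; ring
      _ = 1 := by rw [mul_inv_cancel, mul_inv_cancel, map_one, one_mul]
  show f1 _ + f2 _ = 2
  rw [hcomm, hcomm, one_add_one_eq_two]

/-- The representation by matrices. -/
def IsTracePseudo.repMat : GG →* Matrix (Fin 2) (Fin 2) X.TR :=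
  hP.split.matrixRep hP.exists_unit_off.choose hP.exists_unit_off.choose_spec.choose
    ↑(hP.exists_unit_off.choose_spec.choose_spec.unit⁻¹) fun g h => by
      have hu := IsUnit.mul_val_inv hP.exists_unit_off.choose_spec.choose_spec
      rw [mul_right_comm, hP.split.off_cross g _ _ h]
      linear_combination hP.split.off g h * hu

/-- The representation. -/
def IsTracePseudo.rep : GG →* GL (Fin 2) X.TR := hP.repMat.toHomUnits

theorem IsTracePseudo.tr_rep (σ : GG) : trGL (hP.rep σ) = P.tr σ :=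
  hP.split.trace_matrixRep _ _ _ _ σ

theorem IsTracePseudo.det_rep (σ : GG) : detGL (hP.rep σ) = P.det σ :=
  hP.split.det_matrixRep _ _ _ _ σ

theorem IsTracePseudo.rep_sub_mem (I : Ideal X.TR) {τ : GG}
    (h : ∀ g, P.tr (g * τ) - P.tr g ∈ I) (i j : Fin 2) :
    (hP.rep τ : Matrix (Fin 2) (Fin 2) X.TR) i j - (1 : Matrix (Fin 2) (Fin 2) X.TR) i j ∈ I := by
  obtain ⟨h1, h2, h3⟩ := splitData_entries_mem (P := P) complexConjugation 1 (-1) _ _ _ I h
  fin_cases i <;> fin_cases j
  · exact h1
  · show hP.split.off τ _ * _ - (1 : Matrix (Fin 2) (Fin 2) X.TR) 0 1 ∈ I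
    rw [Matrix.one_apply_ne (by decide), sub_zero]
    exact Ideal.mul_mem_right _ _ (h3 _).1
  · show hP.split.off _ τ - (1 : Matrix (Fin 2) (Fin 2) X.TR) 1 0 ∈ I
    rw [Matrix.one_apply_ne (by decide), sub_zero]
    exact (h3 _).2
  · exact h2

theorem IsTracePseudo.rep_eq_one {τ : GG} (h : ∀ g, P.tr (g * τ) = P.tr g) : hP.rep τ = 1 :=
  Units.ext (Matrix.ext fun i j => sub_eq_zero.mp ((Submodule.mem_bot X.TR).mp
    (hP.rep_sub_mem ⊥ (fun g => by rw [h, sub_self]; exact zero_mem _) i j)))

theorem IsTracePseudo.adjoin_traces :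
    Algebra.adjoin O (Set.range fun σ => trGL (hP.rep σ)) = ⊤ := by
  refine eq_top_iff.mpr (X.adjoin_trace_eq_top ▸ Algebra.adjoin_mono ?_)
  rintro _ ⟨l, rfl⟩
  obtain ⟨V, hV⟩ := Frobenius.exists_liesOverPrime l.1.1 l.1.2.1
  obtain ⟨τ, hτ⟩ := Frobenius.exists_isFrobeniusAt V l.1.1 l.1.2.1 hV
  exact ⟨τ, (hP.tr_rep τ).trans (hP.frob l V hV τ hτ)⟩

theorem IsTracePseudo.det_cyclotomic (n : ℕ) (σ : GG) (c : ℕ) (hc : DetCyclo.CycloExponent p n σ c) :
    detGL (hP.rep σ) - (c : X.TR) ∈ Ideal.span {(p : X.TR) ^ n} := by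
  obtain ⟨z, hz⟩ := Ideal.mem_span_singleton'.mp (cycZ_sub_mem p hc)
  rw [hP.det_rep, hP.det_eq, Ideal.mem_span_singleton']
  refine ⟨algebraMap ℤ_[p] X.TR z, ?_⟩
  show _ = algebraMap ℤ_[p] X.TR (cycZ p σ) - _
  rw [← map_natCast (algebraMap ℤ_[p] X.TR) c, ← map_sub, ← hz, map_mul, map_pow, map_natCast]

theorem IsTracePseudo.continuous_rep (n : ℕ) : ∃ L : IntermediateField ℚ LL,
    FiniteDimensional ℚ L ∧ ∀ σ : GG, (∀ x ∈ L, σ x = x) → ∀ i j,
      (hP.rep σ : Matrix (Fin 2) (Fin 2) X.TR) i j - (1 : Matrix (Fin 2) (Fin 2) X.TR) i j ∈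
        Ideal.span {(p : X.TR) ^ n} := by
  obtain ⟨L, hL, h⟩ := hP.level n
  exact ⟨L, hL, fun σ hσ i j => by
    rw [← Ideal.span_singleton_pow]; exact hP.rep_sub_mem _ (h σ hσ) i j⟩

end Aux

end FLTAgent.ModLift
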