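import Fermat.Agent.Lowering.P4.ParabolicHecke

/-!
# Twisting parabolic homomorphisms at a prime dividing the level

For `q ∣ N` the matrices `(q a; 0 q)` conjugate `Γ₁(N q)` into `Γ₁(N)`. Twisting by a character of
the residues modulo `q` changes the action of the diamonds by the inverse of its square and the
Hecke operators away from the level by the inverse of its value. With values in a torsion free
group it is injective on the homomorphisms on which the diamonds at `q` act by that square.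
-/

set_option autoImplicit false
set_option linter.unusedSectionVars false
set_option linter.style.haveILetI false

noncomputable section

open CongruenceSubgroup
open scoped MatrixGroups

namespace FLTAgent.ModLift

open FLTAgent.PeriodHecke FLTAgent.DeligneSerre

local notation "M2" => Matrix (Fin 2) (Fin 2) ℤ

variable {N q : ℕ}

/-- The matrix of the translation by `a / q`. -/
def shiftMx (q : ℕ) (a : ℤ) : M2 := !![(q : ℤ), a; 0, (q : ℤ)]

theorem det_shiftMx (q : ℕ) (a : ℤ) : (shiftMx q a).det = (q : ℤ) * q := by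
  simp [shiftMx, Matrix.det_fin_two_of]

theorem mul_shiftMx_cancel [NeZero q] {X Y : M2} {a : ℤ}
    (h : X * shiftMx q a = Y * shiftMx q a) : X = Y := by
  have h' := congrArg (fun Z => Z * Matrix.adjugate (shiftMx q a)) h
  simp only [Matrix.mul_assoc, Matrix.mul_adjugate, Matrix.mul_smul, mul_one] at h'
  exact smul_right_injective M2
    (by rw [det_shiftMx]; exact mul_ne_zero (NeZero.ne (q : ℤ)) (NeZero.ne (q : ℤ))) h'

theorem mat_eq_mul {Γ : Subgroup SL(2, ℤ)} (γ δ : Γ) : mat (γ * δ) = mat γ * mat δ := mat_mul γ δ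

variable [hq : Fact q.Prime]

/-- Conjugation by translations. -/
theorem exists_shift (hqN : q ∣ N) (γ : Gamma0 (N * q)) {a a' : ℤ}
    (h : (q : ℤ) ∣ a * mat γ 1 1 - a' * mat γ 0 0) :
    ∃ δ : Gamma0 N, shiftMx q a * mat γ = mat δ * shiftMx q a' ∧
      ((mat δ 1 1 : ℤ) : ZMod N) = ((mat γ 1 1 : ℤ) : ZMod N) ∧
      ((mat δ 0 0 : ℤ) : ZMod N) = ((mat γ 0 0 : ℤ) : ZMod N) := by
  obtain ⟨e, he⟩ := dvd_lower_left (N * q) γ
  obtain ⟨n, hn⟩ := hqN
  obtain ⟨k, hk⟩ := h
  have hdet := mat_det γ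
  rw [Matrix.det_fin_two] at hdet
  have hn' : (N : ℤ) = q * n := by exact_mod_cast hn
  push_cast at he
  refine ⟨gamma0Mk N (mat γ 0 0 + a * N * e) (mat γ 0 1 + k - a * a' * n * e) (mat γ 1 0)
    (mat γ 1 1 - a' * N * e) ?_ ⟨q * e, by rw [he]; ring⟩, ?_, ?_, ?_⟩
  · linear_combination hdet + (N : ℤ) * e * hk - (k - a * a' * n * e) * he
      - a * a' * (N : ℤ) * e ^ 2 * hn'
  · rw [mat_gamma0Mk]
    conv_lhs => rw [Matrix.eta_fin_two (mat γ)]
    ext i j
    fin_cases i <;> fin_cases j <;> simp [shiftMx, Matrix.mul_apply, Fin.sum_univ_two]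
    · linear_combination a * he
    · linear_combination hk - a * a' * e * hn'
    · ring
    · linear_combination -a' * he
  · simp
  · simp

theorem gamma1_shift_dvd (γ : Gamma1 (N * q)) (a : ℤ) :
    (q : ℤ) ∣ a * mat γ 1 1 - a * mat γ 0 0 := by
  obtain ⟨h00, h11, -⟩ := (Gamma1_mem (N * q) _).mp γ.2
  rw [← mul_sub]
  refine dvd_mul_of_dvd_right ?_ a
  rw [← ZMod.intCast_zmod_eq_zero_iff_dvd]
  have e := congrArg (ZMod.castHom (dvd_mul_left q N) (ZMod q))
    (show ((mat γ 1 1 : ℤ) : ZMod (N * q)) - (mat γ 0 0 : ℤ) = 0 by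
      rw [show ((mat γ 1 1 : ℤ) : ZMod (N * q)) = 1 from h11,
        show ((mat γ 0 0 : ℤ) : ZMod (N * q)) = 1 from h00, sub_self])
  rw [map_sub, map_intCast, map_intCast, map_zero] at e
  rwa [Int.cast_sub]

variable (hqN : q ∣ N)

include hqN in
theorem exists_conjShift (a : ℤ) (γ : Gamma1 (N * q)) :
    ∃ δ : Gamma1 N, shiftMx q a * mat γ = mat δ * shiftMx q a := by
  obtain ⟨δ, hδ, h11, h00⟩ := exists_shift hqN ⟨γ, Gamma1_in_Gamma0 _ γ.2⟩
    (gamma1_shift_dvd γ a)
  obtain ⟨g00, g11, -⟩ := (Gamma1_mem (N * q) _).mp γ.2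
  refine ⟨⟨δ, (Gamma1_mem N _).mpr ⟨?_, ?_, Gamma0_mem.mp δ.2⟩⟩, hδ⟩
  · refine h00.trans ?_
    have e := congrArg (ZMod.castHom (dvd_mul_right N q) (ZMod N)) g00
    rwa [map_intCast, map_one] at e
  · refine h11.trans ?_
    have e := congrArg (ZMod.castHom (dvd_mul_right N q) (ZMod N)) g11
    rwa [map_intCast, map_one] at e

/-- Conjugation by the translation by `a / q`. -/
def conjShift (a : ℤ) : Gamma1 (N * q) →* Gamma1 N :=
  MonoidHom.mk' (fun γ => (exists_conjShift hqN a γ).choose) fun γ δ => by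
    apply mat_injective
    refine mul_shiftMx_cancel (q := q) (a := a) ?_
    have h1 := (exists_conjShift hqN a γ).choose_spec
    have h2 := (exists_conjShift hqN a δ).choose_spec
    have h3 := (exists_conjShift hqN a (γ * δ)).choose_spec
    generalize (exists_conjShift hqN a γ).choose = u at h1 ⊢
    generalize (exists_conjShift hqN a δ).choose = v at h2 ⊢
    generalize (exists_conjShift hqN a (γ * δ)).choose = w at h3 ⊢
    rw [mat_mul, mul_assoc, ← h2, ← mul_assoc, ← h1, ← h3, mat_mul, mul_assoc]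

theorem conjShift_rel (a : ℤ) (γ : Gamma1 (N * q)) :
    shiftMx q a * mat γ = mat (conjShift hqN a γ) * shiftMx q a :=
  (exists_conjShift hqN a γ).choose_spec

theorem eq_conjShift {a : ℤ} {γ : Gamma1 (N * q)} {δ : Gamma1 N}
    (h : shiftMx q a * mat γ = mat δ * shiftMx q a) : conjShift hqN a γ = δ :=
  mat_injective (mul_shiftMx_cancel (q := q) (a := a) ((conjShift_rel hqN a γ).symm.trans h))

theorem trace_conjShift (a : ℤ) (γ : Gamma1 (N * q)) :
    (mat (conjShift hqN a γ)).trace = (mat γ).trace := by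
  have h := conjShift_rel hqN a γ
  have h00 := congrFun (congrFun h 0) 0
  have h11 := congrFun (congrFun h 1) 1
  have h10 := congrFun (congrFun h 1) 0
  simp [shiftMx, Matrix.mul_apply, Fin.sum_univ_two] at h00 h11 h10
  rw [Matrix.trace_fin_two, Matrix.trace_fin_two]
  refine mul_left_cancel₀ (Int.natCast_ne_zero.mpr hq.out.ne_zero : (q : ℤ) ≠ 0) ?_
  have e := mul_left_cancel₀ (Int.natCast_ne_zero.mpr hq.out.ne_zero : (q : ℤ) ≠ 0)
    (h10.trans (mul_comm _ _))
  linear_combination -h00 - h11 + a * e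

/-- The translation by an integer. -/
def transl1 (k : ℤ) : Gamma1 N :=
  ⟨⟨!![1, k; 0, 1], by rw [Matrix.det_fin_two_of]; ring⟩, (Gamma1_mem N _).mpr (by simp)⟩

theorem mat_transl1 (k : ℤ) : mat (transl1 (N := N) k) = !![1, k; 0, 1] := rfl

variable {V : Type*} [AddCommGroup V]

theorem apply_conjShift_congr (φ : Additive (Gamma1 N) →+ V) {a a' : ℤ} (h : (q : ℤ) ∣ a' - a)
    (γ : Gamma1 (N * q)) :
    φ (Additive.ofMul (conjShift hqN a' γ)) = φ (Additive.ofMul (conjShift hqN a γ)) := by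
  obtain ⟨k, hk⟩ := h
  have hl : mat (transl1 (N := N) k) * shiftMx q a = shiftMx q a' := by
    rw [mat_transl1, eq_add_of_sub_eq hk]
    simp [shiftMx]
    ring
  have hr : shiftMx q a * mat (transl1 (N := N * q) k) = shiftMx q a' := by
    rw [mat_transl1, eq_add_of_sub_eq hk]
    simp [shiftMx]
  have e : conjShift hqN a' γ * transl1 k = transl1 k * conjShift hqN a γ := by
    apply mat_injective
    refine mul_shiftMx_cancel (q := q) (a := a) ?_
    rw [mat_mul, mat_mul, mul_assoc, hl, ← conjShift_rel, ← hl, mul_assoc (mat (transl1 k)),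
      mul_assoc (mat (transl1 k)), ← conjShift_rel]
  have h2 := congrArg (fun x => φ (Additive.ofMul x)) e
  simp only [ofMul_mul, map_add] at h2
  rwa [add_comm (φ (Additive.ofMul (transl1 k))), add_left_inj] at h2

/-! ### The twist -/

variable {A : Type*} [CommRing A] [Module A V] (η : (ZMod q)ˣ →* Aˣ)

/-- The twist by `η`. -/
def twist : Hpar (Gamma1 N) V →+ Hpar (Gamma1 (N * q)) V where
  toFun φ := ⟨∑ a : (ZMod q)ˣ, (DistribSMul.toAddMonoidHom V (η a : A)).comp
      (φ.1.comp (conjShift hqN ((a : ZMod q).val : ℤ)).toAdditive), fun γ hγ => by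
    rw [AddMonoidHom.finsetSum_apply]
    refine Finset.sum_eq_zero fun a _ => ?_
    show (η a : A) • φ.1 (Additive.ofMul (conjShift hqN _ γ)) = 0
    rw [φ.2 _ (by rw [trace_conjShift]; exact hγ), smul_zero]⟩
  map_zero' := Subtype.ext (Finset.sum_eq_zero fun a _ => AddMonoidHom.ext fun x => smul_zero _)
  map_add' φ φ' := Subtype.ext ((Finset.sum_congr rfl fun a _ => AddMonoidHom.ext fun x =>
    smul_add _ _ _).trans Finset.sum_add_distrib)

theorem twist_apply (φ : Hpar (Gamma1 N) V) (γ : Gamma1 (N * q)) :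
    (twist hqN η φ).1 (Additive.ofMul γ) =
      ∑ a : (ZMod q)ˣ, (η a : A) •
        φ.1 (Additive.ofMul (conjShift hqN ((a : ZMod q).val : ℤ) γ)) := by
  show (∑ a : (ZMod q)ˣ, (DistribSMul.toAddMonoidHom V (η a : A)).comp
      (φ.1.comp (conjShift hqN ((a : ZMod q).val : ℤ)).toAdditive)) (Additive.ofMul γ) = _
  rw [AddMonoidHom.finsetSum_apply]
  rfl

theorem twist_smul (c : A) (φ : Hpar (Gamma1 N) V) :
    twist hqN η (mapHpar (DistribSMul.toAddMonoidHom V c) φ) =
      mapHpar (DistribSMul.toAddMonoidHom V c) (twist hqN η φ) := by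
  refine Subtype.ext (AddMonoidHom.ext fun x => ?_)
  obtain ⟨γ, rfl⟩ := Additive.ofMul.surjective x
  rw [twist_apply]
  show _ = c • ((twist hqN η φ).1 (Additive.ofMul γ) : V)
  rw [twist_apply, Finset.smul_sum]
  exact Finset.sum_congr rfl fun a _ => smul_comm _ _ _

theorem natCast_val_units (a : (ZMod q)ˣ) : (((a : ZMod q).val : ℤ) : ZMod q) = a := by
  rw [Int.cast_natCast, ZMod.natCast_zmod_val]

/-- The behaviour under the diamonds. -/
theorem twist_diamond (φ : Hpar (Gamma1 N) V) (γ : Gamma0 (N * q)) (d : (ZMod q)ˣ)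
    (hd : ((mat γ 1 1 : ℤ) : ZMod q) = d) (c : A)
    (hφ : ∀ γ' : Gamma0 N, ((mat γ' 1 1 : ℤ) : ZMod N) = ((mat γ 1 1 : ℤ) : ZMod N) →
      ∀ x, (diamond N γ' φ).1 x = c • φ.1 x)
    (x : Additive (Gamma1 (N * q))) :
    (diamond (N * q) γ (twist hqN η φ)).1 x =
      (c * ((η d⁻¹ : Aˣ) : A) * ((η d⁻¹ : Aˣ) : A)) • (twist hqN η φ).1 x := by
  obtain ⟨δ, rfl⟩ := Additive.ofMul.surjective x
  rw [diamond_apply, twist_apply, twist_apply, Finset.smul_sum]
  refine Fintype.sum_equiv (Equiv.mulRight (d * d)) _ _ fun a => ?_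
  show _ = _ • (η (a * (d * d)) : A) • φ.1 (Additive.ofMul (conjShift hqN _ δ))
  have hA : ((mat γ 0 0 : ℤ) : ZMod q) * d = 1 := by
    have h := congrArg (Int.cast : ℤ → ZMod q) ((Matrix.det_fin_two (mat γ)).symm.trans (mat_det γ))
    have hc : ((mat γ 1 0 : ℤ) : ZMod q) = 0 := by
      have e := congrArg (ZMod.castHom (dvd_mul_left q N) (ZMod q)) (Gamma0_mem.mp γ.2)
      rwa [map_intCast, map_zero] at e
    push_cast at h
    rw [hc, hd, mul_zero, sub_zero] at h
    exact h
  obtain ⟨γ', hγ', h11, -⟩ := exists_shift hqN γ (a := ((a : ZMod q).val : ℤ))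
    (a' := (((a * (d * d) : (ZMod q)ˣ) : ZMod q).val : ℤ)) (by
      rw [← ZMod.intCast_zmod_eq_zero_iff_dvd]
      push_cast
      simp only [ZMod.natCast_zmod_val]
      rw [hd]
      push_cast
      linear_combination -((a : ZMod q) * d) * hA)
  set b : ℤ := (((a * (d * d) : (ZMod q)ˣ) : ZMod q).val : ℤ)
  have e : conjShift hqN ((a : ZMod q).val : ℤ) (conjGamma1 (N * q) γ δ) =
      conjGamma1 N γ' (conjShift hqN b δ) := by
    refine eq_conjShift hqN ?_
    have hsplit : mat (conjGamma1 (N * q) γ δ) = mat γ * mat δ * mat γ⁻¹ := rfl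
    have hsplit' : mat (conjGamma1 N γ' (conjShift hqN b δ)) =
        mat γ' * mat (conjShift hqN b δ) * mat γ'⁻¹ := rfl
    have hinv : shiftMx q b * mat γ⁻¹ = mat γ'⁻¹ * shiftMx q ((a : ZMod q).val : ℤ) := by
      have h1 : mat γ'⁻¹ * (shiftMx q ((a : ZMod q).val : ℤ) * mat γ) * mat γ⁻¹ =
          mat γ'⁻¹ * (mat γ' * shiftMx q b) * mat γ⁻¹ := by rw [hγ']
      rw [mul_assoc (mat γ'⁻¹) (_ * mat γ), mul_assoc _ (mat γ), ← mat_mul γ, mul_inv_cancel,
        mat_one, mul_one, ← mul_assoc (mat γ'⁻¹), ← mat_mul, inv_mul_cancel, mat_one, one_mul] at h1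
      exact h1.symm
    rw [hsplit, hsplit', ← mul_assoc, ← mul_assoc, hγ', mul_assoc (mat γ') (shiftMx q b),
      conjShift_rel, mul_assoc, mul_assoc, hinv, ← mul_assoc, ← mul_assoc]
  rw [e, ← diamond_apply, hφ γ' h11, smul_smul, smul_smul]
  congr 1
  have hdd : ((η d⁻¹ : Aˣ) : A) * (η d : A) = 1 := by
    rw [← Units.val_mul, ← map_mul, inv_mul_cancel, map_one, Units.val_one]
  rw [map_mul, map_mul, Units.val_mul, Units.val_mul]
  linear_combination -((η a : A) * c * (((η d⁻¹ : Aˣ) : A) * (η d : A) + 1)) * hdd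

/-- An integral matrix of determinant `l` congruent to `(* *; 0 l)` lies in the double coset. -/
theorem exists_rep1_of_low {M l : ℕ} [NeZero M] [Fact l.Prime] (hl : ¬ l ∣ M) {B : M2}
    (hdet : B.det = (l : ℤ)) (h10 : (B 1 0 : ZMod M) = 0) (h11 : (B 1 1 : ZMod M) = l) :
    ∃ (i : HeckeIdx M l) (δ : Gamma1 M), B = mat δ * heckeRep1 hl i := by
  obtain ⟨i, δ₀, hδ₀⟩ := LevelRaise.exists_heckeRep M l B hdet
    ((ZMod.intCast_zmod_eq_zero_iff_dvd _ _).mp h10) fun h => absurd h hl
  set e : Gamma0 M := δ₀ * (corr1 hl i)⁻¹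
  have he : B = mat e * heckeRep1 hl i := by
    rw [heckeRep1, ← mul_assoc, ← mat_mul, inv_mul_cancel_right, hδ₀]
  have hu : IsUnit (l : ZMod M) := (ZMod.unitOfCoprime l (coprime_of_not_dvd hl)).isUnit
  have h := congrArg (fun Z : M2 => ((Z 1 1 : ℤ) : ZMod M)) he
  simp only [Matrix.mul_apply, Fin.sum_univ_two, Int.cast_add, Int.cast_mul, mat_low, zero_mul,
    zero_add, (heckeRep1_diag hl i).2, h11] at h
  have hmem : e ∈ Gamma1' M := by
    rw [Gamma1_mem']
    exact (hu.mul_right_cancel ((one_mul _).trans h)).symm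
  rw [Gamma1_to_Gamma0_mem] at hmem
  exact ⟨i, ⟨(e : SL(2, ℤ)), (Gamma1_mem M _).mpr hmem⟩, he⟩

variable [NeZero N] {l : ℕ} [Fact l.Prime] (hlN : ¬ l ∣ N) (hlNq : ¬ l ∣ N * q)

include hqN in
theorem exists_shift_rep {b a : ℤ} (hab : (a : ZMod q) = b * (l : ZMod q))
    (i : HeckeIdx (N * q) l) :
    ∃ (j : HeckeIdx N l) (κ : Gamma1 N),
      shiftMx q b * heckeRep1 hlNq i = mat κ * heckeRep1 hlN j * shiftMx q a := by
  haveI : NeZero q := ⟨hq.out.ne_zero⟩
  set R := heckeRep1 hlNq i with hR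
  obtain ⟨hz, hw⟩ := heckeRep1_diag hlNq i
  rw [← hR] at hz hw
  obtain ⟨e, he⟩ := (ZMod.intCast_zmod_eq_zero_iff_dvd _ _).mp hz
  push_cast at he
  have hdetR : R.det = (l : ℤ) := by
    rw [hR, heckeRep1, Matrix.det_mul, mat_det, one_mul]
    rcases HeckeIdx.cases (N * q) l i with ⟨h, rfl⟩ | ⟨j, rfl⟩ <;>
      simp [heckeRep, idxSome, Matrix.det_fin_two_of]
  have hwq : ((R 1 1 : ℤ) : ZMod q) = (l : ZMod q) := by
    have h := congrArg (ZMod.castHom (dvd_mul_left q N) (ZMod q)) hw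
    rwa [map_intCast, map_natCast] at h
  have hzq : ((R 1 0 : ℤ) : ZMod q) = 0 := by
    rw [he]; push_cast; rw [ZMod.natCast_self]; ring
  have hlq : (l : ZMod q) ≠ 0 := by
    rw [Ne, ZMod.natCast_eq_zero_iff]
    exact fun h => hlNq (((Nat.prime_dvd_prime_iff_eq hq.out Fact.out).mp h) ▸ dvd_mul_left q N)
  have hxq : ((R 0 0 : ℤ) : ZMod q) = 1 := by
    have h := congrArg (Int.cast : ℤ → ZMod q) ((Matrix.det_fin_two R).symm.trans hdetR)
    push_cast at h
    rw [hzq, hwq, mul_zero, sub_zero] at h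
    exact mul_right_cancel₀ hlq (h.trans (one_mul _).symm)
  obtain ⟨k, hk⟩ : (q : ℤ) ∣ b * R 1 1 - a * R 0 0 := by
    rw [← ZMod.intCast_zmod_eq_zero_iff_dvd]
    push_cast
    rw [hwq, hxq, hab]
    ring
  obtain ⟨n, hn⟩ := hqN
  have hn' : (N : ℤ) = q * n := by exact_mod_cast hn
  set X : M2 := !![R 0 0 + b * N * e, R 0 1 + k - b * a * n * e; R 1 0, R 1 1 - a * N * e]
  have hX : shiftMx q b * R = X * shiftMx q a := by
    conv_lhs => rw [Matrix.eta_fin_two R]
    ext i j
    fin_cases i <;> fin_cases j <;> simp [X, shiftMx, Matrix.mul_apply, Fin.sum_univ_two]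
    · linear_combination b * he
    · linear_combination hk - b * a * e * hn'
    · ring
    · linear_combination -a * he
  have hdetX : X.det = (l : ℤ) := by
    have h := congrArg Matrix.det hX
    rw [Matrix.det_mul, Matrix.det_mul, det_shiftMx, det_shiftMx, hdetR, mul_comm X.det] at h
    exact (mul_left_cancel₀ (mul_ne_zero (NeZero.ne (q : ℤ)) (NeZero.ne (q : ℤ))) h).symm
  obtain ⟨j, κ, hj⟩ := exists_rep1_of_low hlN hdetX
    (by simp [X]; rw [he]; push_cast; rw [ZMod.natCast_self]; ring)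
    (by
      have h := congrArg (ZMod.castHom (dvd_mul_right N q) (ZMod N)) hw
      rw [map_intCast, map_natCast] at h
      simp [X, h])
  exact ⟨j, κ, by rw [hX, hj]⟩

include hqN in
/-- The representatives are permuted. -/
theorem bijective_shift_rep {b a : ℤ} (σ : HeckeIdx (N * q) l → HeckeIdx N l)
    (κ : HeckeIdx (N * q) l → Gamma1 N)
    (h : ∀ i, shiftMx q b * heckeRep1 hlNq i = mat (κ i) * heckeRep1 hlN (σ i) * shiftMx q a) :
    Function.Bijective σ := by
  classical
  haveI : NeZero q := ⟨hq.out.ne_zero⟩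
  refine (Fintype.bijective_iff_injective_and_card σ).mpr ⟨fun i i' hii => ?_, ?_⟩
  · set R := heckeRep1 hlNq i
    set R' := heckeRep1 hlNq i'
    have hdetR' : R'.det = (l : ℤ) := by
      show (mat _ * _).det = _
      rw [Matrix.det_mul, mat_det, one_mul]
      rcases HeckeIdx.cases (N * q) l i' with ⟨h, rfl⟩ | ⟨j, rfl⟩ <;>
        simp [heckeRep, idxSome, Matrix.det_fin_two_of]
    have h1 : shiftMx q b * R = mat (κ i * (κ i')⁻¹) * (shiftMx q b * R') := by
      rw [h i, h i', hii, mat_mul]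
      simp only [mul_assoc]
      rw [← mul_assoc (mat (κ i')⁻¹), ← mat_mul, inv_mul_cancel, mat_one, one_mul]
    set g := κ i * (κ i')⁻¹
    have h2 : ((q : ℤ) * q) • (R * R'.adjugate) =
        (l : ℤ) • ((shiftMx q b).adjugate * mat g * shiftMx q b) := by
      have h3 := congrArg (fun Z => (shiftMx q b).adjugate * Z * R'.adjugate) h1
      simp only [← mul_assoc, Matrix.adjugate_mul, det_shiftMx, Matrix.smul_mul, one_mul] at h3
      rw [h3, mul_assoc ((shiftMx q b).adjugate * mat g * shiftMx q b), Matrix.mul_adjugate, hdetR',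
        Matrix.mul_smul, mul_one]
    have hl0 : (l : ℤ) ≠ 0 := Int.natCast_ne_zero.mpr (Fact.out : l.Prime).ne_zero
    have hcop : IsCoprime ((q : ℤ) * q) (l : ℤ) := by
      have hne : q ≠ l := fun h => hlNq (h ▸ dvd_mul_left q N)
      have := Int.isCoprime_iff_nat_coprime.mpr
        (by simpa using (Nat.coprime_primes hq.out (Fact.out : l.Prime)).mpr hne :
          (q : ℤ).natAbs.Coprime (l : ℤ).natAbs)
      exact this.mul_left this
    have hE : ∀ u v, (l : ℤ) ∣ (R * R'.adjugate) u v := fun u v => by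
      refine hcop.symm.dvd_of_dvd_mul_left ⟨((shiftMx q b).adjugate * mat g * shiftMx q b) u v, ?_⟩
      simpa using congrFun (congrFun h2 u) v
    choose E hE using hE
    have hER : R = Matrix.of E * R' := by
      refine smul_right_injective M2 hl0 ?_
      show (l : ℤ) • R = (l : ℤ) • (Matrix.of E * R')
      rw [← Matrix.smul_mul, show (l : ℤ) • Matrix.of E = R * R'.adjugate from
        Matrix.ext fun u v => by simp [hE u v], mul_assoc, Matrix.adjugate_mul, hdetR',
        Matrix.mul_smul, mul_one]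
    have hdetE : (Matrix.of E).det = 1 := by
      have h3 := congrArg Matrix.det hER
      have hdR : R.det = (l : ℤ) := by
        show (mat _ * _).det = _
        rw [Matrix.det_mul, mat_det, one_mul]
        rcases HeckeIdx.cases (N * q) l i with ⟨h, rfl⟩ | ⟨j, rfl⟩ <;>
          simp [heckeRep, idxSome, Matrix.det_fin_two_of]
      rw [Matrix.det_mul, hdetR', hdR] at h3
      exact mul_right_cancel₀ hl0 (h3.symm.trans (one_mul _).symm)
    obtain ⟨hz, hw⟩ := heckeRep1_diag hlNq i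
    obtain ⟨hz', hw'⟩ := heckeRep1_diag hlNq i'
    have hdx : ((R' 0 0 : ℤ) : ZMod (N * q)) * (l : ZMod (N * q)) = l := by
      have h3 := congrArg (Int.cast : ℤ → ZMod (N * q))
        ((Matrix.det_fin_two R').symm.trans hdetR')
      push_cast at h3
      rw [hz', hw', mul_zero, sub_zero] at h3
      exact h3
    have hu : IsUnit (l : ZMod (N * q)) :=
      (ZMod.unitOfCoprime l (coprime_of_not_dvd hlNq)).isUnit
    have hx1 : ((R' 0 0 : ℤ) : ZMod (N * q)) = 1 :=
      hu.mul_right_cancel (hdx.trans (one_mul _).symm)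
    have e10 := congrArg (fun Z : M2 => ((Z 1 0 : ℤ) : ZMod (N * q))) hER
    have e11 := congrArg (fun Z : M2 => ((Z 1 1 : ℤ) : ZMod (N * q))) hER
    simp [Matrix.mul_apply, Fin.sum_univ_two] at e10 e11
    rw [hz, hz', hx1, mul_zero, add_zero, mul_one] at e10
    rw [hw, hw', ← e10, zero_mul, zero_add] at e11
    have e11' : ((E 1 1 : ℤ) : ZMod (N * q)) = 1 :=
      hu.mul_right_cancel (e11.symm.trans (one_mul _).symm)
    have hdet' := congrArg (Int.cast : ℤ → ZMod (N * q))
      ((Matrix.det_fin_two (Matrix.of E)).symm.trans hdetE)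
    simp at hdet'
    rw [← e10, e11', mul_zero, sub_zero, mul_one] at hdet'
    exact ((heckeFam1 hlNq).inj ⟨⟨Matrix.of E, hdetE⟩,
      (Gamma1_mem (N * q) _).mpr ⟨hdet', e11', e10.symm⟩⟩ i' i hER.symm).symm
  · exact Fintype.card_congr
      { toFun := fun i => ⟨i.1, fun _ => hlN⟩
        invFun := fun i => ⟨i.1, fun _ => hlNq⟩
        left_inv := fun i => rfl
        right_inv := fun i => rfl }

/-- The twist commutes with the Hecke operators away from the level up to a factor. -/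
theorem twist_hecke (φ : Hpar (Gamma1 N) V) (lq : (ZMod q)ˣ) (hlq : (lq : ZMod q) = (l : ZMod q)) :
    (heckeFam1 hlNq).heckePar (twist hqN η φ) =
      mapHpar (DistribSMul.toAddMonoidHom V ((η lq⁻¹ : Aˣ) : A))
        (twist hqN η ((heckeFam1 hlN).heckePar φ)) := by
  classical
  haveI : NeZero q := ⟨hq.out.ne_zero⟩
  refine Subtype.ext (AddMonoidHom.ext fun x => ?_)
  obtain ⟨g, rfl⟩ := Additive.ofMul.surjective x
  show (heckeFam1 hlNq).hecke (twist hqN η φ).1 (Additive.ofMul g) =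
    ((η lq⁻¹ : Aˣ) : A) • (twist hqN η ((heckeFam1 hlN).heckePar φ)).1 (Additive.ofMul g)
  rw [HeckeFamily.hecke_apply, twist_apply, Finset.smul_sum]
  simp only [twist_apply]
  rw [Finset.sum_comm]
  refine Fintype.sum_equiv (Equiv.mulRight lq) _ _ fun b => ?_
  set a : ℤ := (((b * lq : (ZMod q)ˣ) : ZMod q).val : ℤ)
  have hab : (a : ZMod q) = (((b : ZMod q).val : ℤ) : ZMod q) * (l : ZMod q) := by
    rw [natCast_val_units, natCast_val_units, Units.val_mul, hlq]
  choose σ κ hσ using exists_shift_rep hqN hlN hlNq hab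
  have hbij := bijective_shift_rep hqN hlN hlNq σ κ hσ
  show ∑ i, (η b : A) • φ.1 (Additive.ofMul (conjShift hqN ((b : ZMod q).val : ℤ)
      ((heckeFam1 hlNq).coc g i))) =
    ((η lq⁻¹ : Aˣ) : A) • (η (b * lq) : A) •
      (heckeFam1 hlN).hecke φ.1 (Additive.ofMul (conjShift hqN a g))
  rw [HeckeFamily.hecke_apply, smul_smul, ← Units.val_mul, ← map_mul,
    show lq⁻¹ * (b * lq) = b by rw [mul_comm b, inv_mul_cancel_left], ← Finset.smul_sum]
  congr 1
  have key : ∀ i, φ.1 (Additive.ofMul (conjShift hqN ((b : ZMod q).val : ℤ)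
      ((heckeFam1 hlNq).coc g i))) + φ.1 (Additive.ofMul (κ ((heckeFam1 hlNq).next g i))) =
      φ.1 (Additive.ofMul (κ i)) +
        φ.1 (Additive.ofMul ((heckeFam1 hlN).coc (conjShift hqN a g) (σ i))) := by
    intro i
    set δ := (heckeFam1 hlNq).coc g i
    set i' := (heckeFam1 hlNq).next g i
    have hr : heckeRep1 hlNq i * mat g = mat δ * heckeRep1 hlNq i' := (heckeFam1 hlNq).rel g i
    set D := conjShift hqN ((b : ZMod q).val : ℤ) δ
    have h2 : heckeRep1 hlN (σ i) * mat (conjShift hqN a g) =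
        mat ((κ i)⁻¹ * D * κ i') * heckeRep1 hlN (σ i') := by
      refine mul_shiftMx_cancel (q := q) (a := a) ?_
      have h3 : shiftMx q ((b : ZMod q).val : ℤ) * heckeRep1 hlNq i * mat g =
          shiftMx q ((b : ZMod q).val : ℤ) * mat δ * heckeRep1 hlNq i' := by
        rw [mul_assoc, hr, mul_assoc]
      rw [conjShift_rel hqN _ δ, mul_assoc (mat D), hσ i', hσ i, mul_assoc _ (shiftMx q a),
        conjShift_rel hqN a g] at h3
      rw [mat_mul, mat_mul]
      have h4 := congrArg (fun Z => mat (κ i)⁻¹ * Z) h3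
      simp only [← mul_assoc, ← mat_mul, inv_mul_cancel, mat_one, one_mul] at h4
      simp only [← mul_assoc, ← mat_mul]
      exact h4
    have h5 := ((heckeFam1 hlN).eq_of_rel (i := σ i) (j := σ i') h2).2
    rw [h5]
    simp only [ofMul_mul, ofMul_inv, map_add, map_neg]
    abel
  rw [← hbij.sum_comp]
  refine add_right_cancel (b := ∑ i, φ.1 (Additive.ofMul (κ i))) ?_
  rw [← Equiv.sum_comp ((heckeFam1 hlNq).perm g) (fun i => φ.1 (Additive.ofMul (κ i))),
    ← Finset.sum_add_distrib]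
  refine (Finset.sum_congr rfl fun i _ => key i).trans ?_
  rw [Finset.sum_add_distrib, add_comm,
    Equiv.sum_comp ((heckeFam1 hlNq).perm g) (fun i => φ.1 (Additive.ofMul (κ i)))]

/-! ### Injectivity -/

theorem eq_zero_of_principal {M : ℕ} [NeZero M]
    (htf : ∀ (m : ℕ) (v : V), m ≠ 0 → m • v = 0 → v = 0) {φ : Additive (Gamma1 N) →+ V}
    (h : ∀ γ : Gamma1 N, (γ : SL(2, ℤ)) ∈ Gamma M → φ (Additive.ofMul γ) = 0) : φ = 0 := by
  refine AddMonoidHom.ext fun x => ?_
  obtain ⟨γ, rfl⟩ := Additive.ofMul.surjective x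
  obtain ⟨k, hk0, -, hk⟩ := Subgroup.exists_pow_mem_of_index_ne_zero
    (H := Gamma M) Subgroup.FiniteIndex.index_ne_zero ((γ : SL(2, ℤ)))
  refine htf k _ hk0.ne' ?_
  rw [← map_nsmul, ← ofMul_pow]
  exact h _ (by simpa using hk)

theorem conjShift_principal {M : ℕ} (a : ℤ) (γ : Gamma1 (N * q))
    (hγ : (γ : SL(2, ℤ)) ∈ Gamma (M * (q * q))) :
    (conjShift hqN a γ : SL(2, ℤ)) ∈ Gamma M := by
  have hq0 : (q : ℤ) ≠ 0 := Int.natCast_ne_zero.mpr hq.out.ne_zero
  rw [Gamma_mem] at hγ ⊢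
  obtain ⟨g00, g01, g10, g11⟩ := hγ
  rw [ZMod.intCast_zmod_eq_zero_iff_dvd] at g01 g10
  replace g00 := (ZMod.intCast_eq_intCast_iff_dvd_sub 1 _ _).mp (by simpa using g00.symm)
  replace g11 := (ZMod.intCast_eq_intCast_iff_dvd_sub 1 _ _).mp (by simpa using g11.symm)
  obtain ⟨A', hA⟩ := g00
  obtain ⟨B', hB⟩ := g01
  obtain ⟨C', hC⟩ := g10
  obtain ⟨D', hD⟩ := g11
  set δ := conjShift hqN a γ
  have h := conjShift_rel hqN a γ
  have h00 := congrFun (congrFun h 0) 0
  have h01 := congrFun (congrFun h 0) 1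
  have h10 := congrFun (congrFun h 1) 0
  have h11 := congrFun (congrFun h 1) 1
  simp [shiftMx, Matrix.mul_apply, Fin.sum_univ_two] at h00 h01 h10 h11
  push_cast at hA hB hC hD
  replace hA : mat γ 0 0 - 1 = (M : ℤ) * (q * q) * A' := hA
  replace hB : mat γ 0 1 = (M : ℤ) * (q * q) * B' := hB
  replace hC : mat γ 1 0 = (M : ℤ) * (q * q) * C' := hC
  replace hD : mat γ 1 1 - 1 = (M : ℤ) * (q * q) * D' := hD
  have e00 : mat δ 0 0 = 1 + (M : ℤ) * (q * q * A' + a * q * C') := by
    refine mul_left_cancel₀ hq0 ?_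
    linear_combination -h00 + (q : ℤ) * hA + a * hC
  have e10 : mat δ 1 0 = (M : ℤ) * (q * q * C') := by
    refine mul_right_cancel₀ hq0 ?_
    linear_combination -h10 + (q : ℤ) * hC
  have e11 : mat δ 1 1 = 1 + (M : ℤ) * (q * q * D' - a * q * C') := by
    refine mul_left_cancel₀ hq0 ?_
    linear_combination -h11 + (q : ℤ) * hD - a * e10
  have e01 : mat δ 0 1 = (M : ℤ) * (q * q * B' + a * (q * D' - q * A' - a * C')) := by
    refine mul_left_cancel₀ hq0 ?_
    linear_combination -h01 + (q : ℤ) * hB + a * hD - a * e00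
  refine ⟨?_, ?_, ?_, ?_⟩
  · show ((mat δ 0 0 : ℤ) : ZMod M) = 1
    rw [e00]; push_cast; simp
  · show ((mat δ 0 1 : ℤ) : ZMod M) = 0
    rw [e01]; push_cast; simp
  · show ((mat δ 1 0 : ℤ) : ZMod M) = 0
    rw [e10]; push_cast; simp
  · show ((mat δ 1 1 : ℤ) : ZMod M) = 1
    rw [e11]; push_cast; simp

/-- The lower unipotent element of level `N`. -/
def lower1 : Gamma1 N :=
  ⟨⟨!![1, 0; (N : ℤ), 1], by rw [Matrix.det_fin_two_of]; ring⟩, (Gamma1_mem N _).mpr (by simp)⟩

omit [NeZero N] in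
theorem odd_pow_eq {G : Type*} [Monoid G] {x : G} {n : ℕ} (hn : Odd n) (hx : x ^ n = 1)
    (h2 : x ^ 2 = 1) : x = 1 := by
  obtain ⟨j, rfl⟩ := hn
  rwa [pow_succ, pow_mul, h2, one_pow, one_mul] at hx

/-- **The twist is injective.** -/
theorem twist_injective (htf : ∀ (m : ℕ) (v : V), m ≠ 0 → m • v = 0 → v = 0)
    (hq2 : ¬ q ^ 2 ∣ N) {n : ℕ} (hn : Odd n) (hη : ∀ d, η d ^ n = 1) (φ : Hpar (Gamma1 N) V)
    (hφ : ∀ (γ : Gamma0 N) (d : (ZMod q)ˣ), ((mat γ 1 1 : ℤ) : ZMod (N / q)) = 1 →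
      ((mat γ 1 1 : ℤ) : ZMod q) = d →
      ∀ x, (diamond N γ φ).1 x = ((η d : A) * (η d : A)) • φ.1 x)
    (h0 : twist hqN η φ = 0) : φ = 0 := by
  classical
  haveI : NeZero q := ⟨hq.out.ne_zero⟩
  obtain ⟨N₀, hN₀⟩ := hqN
  have hqN : q ∣ N := ⟨N₀, hN₀⟩
  have hdiv : N / q = N₀ := by rw [hN₀, Nat.mul_div_cancel_left _ hq.out.pos]
  rw [hdiv] at hφ
  have hN₀q : ¬ q ∣ N₀ := fun h => hq2 (by rw [hN₀, sq]; exact mul_dvd_mul_left q h)
  -- values on the deep principal subgroups
  let Φ : Gamma1 (N * q) → ZMod q → V := fun g x =>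
    φ.1 (Additive.ofMul (conjShift hqN (x.val : ℤ) g))
  have hzero : ∀ g, ∑ a : (ZMod q)ˣ, (η a : A) • Φ g a = 0 := fun g => by
    rw [← twist_apply, h0]; rfl
  have hinc : ∀ {M : ℕ} {g : SL(2, ℤ)}, N * q ∣ M → g ∈ Gamma M → g ∈ Gamma1 (N * q) := by
    intro M g hM hg
    obtain ⟨g00, -, g10, g11⟩ := Gamma_mem.mp hg
    refine (Gamma1_mem (N * q) _).mpr ⟨?_, ?_, ?_⟩
    · have e := congrArg (ZMod.castHom hM (ZMod (N * q))) g00
      rwa [map_intCast, map_one] at e
    · have e := congrArg (ZMod.castHom hM (ZMod (N * q))) g11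
      rwa [map_intCast, map_one] at e
    · have e := congrArg (ZMod.castHom hM (ZMod (N * q))) g10
      rwa [map_intCast, map_zero] at e
  have hle : ∀ {M M' : ℕ} {g : SL(2, ℤ)}, M ∣ M' → g ∈ Gamma M' → g ∈ Gamma M := by
    intro M M' g hM hg
    obtain ⟨g00, g01, g10, g11⟩ := Gamma_mem.mp hg
    refine Gamma_mem.mpr ⟨?_, ?_, ?_, ?_⟩
    · have e := congrArg (ZMod.castHom hM (ZMod M)) g00
      rwa [map_intCast, map_one] at e
    · have e := congrArg (ZMod.castHom hM (ZMod M)) g01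
      rwa [map_intCast, map_zero] at e
    · have e := congrArg (ZMod.castHom hM (ZMod M)) g10
      rwa [map_intCast, map_zero] at e
    · have e := congrArg (ZMod.castHom hM (ZMod M)) g11
      rwa [map_intCast, map_one] at e
  -- translating the twisted sum
  have hshift : ∀ (g : Gamma1 (N * q)) (b : ℤ) (g' : Gamma1 (N * q)),
      shiftMx q b * mat g = mat g' * shiftMx q b →
      ∀ a : ZMod q, Φ g' a = Φ g (a + b) := by
    intro g b g' h a
    refine Eq.trans (congrArg (fun x => φ.1 (Additive.ofMul x))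
      (show conjShift hqN (a.val : ℤ) g' = conjShift hqN ((a.val : ℤ) + b) g from ?_))
      (apply_conjShift_congr hqN φ.1 ?_ g)
    · refine (eq_conjShift hqN ?_)
      have hW : shiftMx q (a.val : ℤ) * shiftMx q b = (q : ℤ) • shiftMx q ((a.val : ℤ) + b) := by
        simp [shiftMx]
        ring
      have h1 := congrArg (fun Z => shiftMx q (a.val : ℤ) * Z) h
      simp only [← mul_assoc, hW, Matrix.smul_mul] at h1
      have h2 : (q : ℤ) • (shiftMx q (a.val : ℤ) * mat g') * shiftMx q b =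
          (q : ℤ) • (mat (conjShift hqN ((a.val : ℤ) + b) g) * shiftMx q (a.val : ℤ)) *
            shiftMx q b := by
        rw [Matrix.smul_mul, ← h1, conjShift_rel hqN ((a.val : ℤ) + b) g, Matrix.smul_mul,
          mul_assoc (mat _) (shiftMx q (a.val : ℤ)), hW, Matrix.mul_smul]
      exact smul_right_injective M2 (Int.natCast_ne_zero.mpr hq.out.ne_zero)
        (mul_shiftMx_cancel h2)
    · rw [← ZMod.intCast_zmod_eq_zero_iff_dvd]
      simp
  have hconv : ∀ g : Gamma1 (N * q), (g : SL(2, ℤ)) ∈ Gamma (N * q * (q * q)) → ∀ c : ℤ,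
      ∑ a : (ZMod q)ˣ, (η a : A) • Φ g ((a : ZMod q) + c) = 0 := by
    intro g hg c
    have hg' : (g : SL(2, ℤ)) ∈ Gamma1 (N * q * q) := by
      obtain ⟨g00, -, g10, g11⟩ := Gamma_mem.mp hg
      have hM : N * q * q ∣ N * q * (q * q) := ⟨q, by ring⟩
      refine (Gamma1_mem _ _).mpr ⟨?_, ?_, ?_⟩
      · have e := congrArg (ZMod.castHom hM (ZMod (N * q * q))) g00
        rwa [map_intCast, map_one] at e
      · have e := congrArg (ZMod.castHom hM (ZMod (N * q * q))) g11
        rwa [map_intCast, map_one] at e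
      · have e := congrArg (ZMod.castHom hM (ZMod (N * q * q))) g10
        rwa [map_intCast, map_zero] at e
    have h := conjShift_rel (hqN.mul_right q) c (⟨g, hg'⟩ : Gamma1 (N * q * q))
    rw [← hzero (conjShift (hqN.mul_right q) c ⟨g, hg'⟩)]
    exact Finset.sum_congr rfl fun a _ => by rw [hshift g c _ h]
  -- the invariant combination
  set σ : A := ∑ a : (ZMod q)ˣ, (η a : A) with hσ
  have hσm : ∀ b, (η b : A) * σ = σ := fun b => by
    rw [hσ, Finset.mul_sum]
    exact Fintype.sum_equiv (Equiv.mulLeft b) _ _ fun a => by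
      simp [← Units.val_mul]
  have hηneg : η (-1) = 1 := odd_pow_eq hn (hη _) (by rw [← map_pow]; simp)
  let y : Gamma1 (N * q) → ZMod q → V := fun g x => ((q : A) - σ) • Φ g x
  have hmain : ∀ g : Gamma1 (N * q), (g : SL(2, ℤ)) ∈ Gamma (N * q * (q * q)) → ∀ x : ZMod q,
      ((q : A) - σ) • Φ g x + (σ - 1) • ∑ z, Φ g z = 0 := by
    intro g hg x
    have hsum : ∑ b : (ZMod q)ˣ, ((η b⁻¹ : Aˣ) : A) •
        ∑ a : (ZMod q)ˣ, (η a : A) • Φ g ((a : ZMod q) + (x + b)) = 0 :=
      Finset.sum_eq_zero fun b _ => by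
        have h := hconv g hg (((x + b : ZMod q).val : ℕ) : ℤ)
        simp only [Int.cast_natCast, ZMod.natCast_zmod_val] at h
        rw [h, smul_zero]
    simp only [Finset.smul_sum, smul_smul, ← Units.val_mul, ← map_mul] at hsum
    rw [Finset.sum_comm] at hsum
    -- group by the ratio
    have hre : ∑ u : (ZMod q)ˣ, ∑ b : (ZMod q)ˣ, (η u : A) • Φ g (x + (u + 1) * b) = 0 := by
      rw [Finset.sum_comm, ← hsum]
      conv_rhs => rw [Finset.sum_comm]
      refine Finset.sum_congr rfl fun b _ => ?_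
      refine Fintype.sum_equiv (Equiv.mulRight b) _ _ fun u => ?_
      simp only [Equiv.coe_mulRight, mul_comm u b, inv_mul_cancel_left, Units.val_mul]
      congr 2
      ring
    rw [← Finset.add_sum_erase _ _ (Finset.mem_univ (-1 : (ZMod q)ˣ))] at hre
    simp only [Units.val_neg, Units.val_one, neg_add_cancel, zero_mul, add_zero, hηneg, one_smul,
      Finset.sum_const, Finset.card_univ, ZMod.card_units] at hre
    have hinner : ∀ u ∈ Finset.univ.erase (-1 : (ZMod q)ˣ),
        ∑ b : (ZMod q)ˣ, (η u : A) • Φ g (x + ((u : ZMod q) + 1) * b) =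
          (η u : A) • ((∑ z, Φ g z) - Φ g x) := by
      intro u hu
      have hu' : (u : ZMod q) + 1 ≠ 0 := fun h => (Finset.ne_of_mem_erase hu)
        (Units.ext (by rw [Units.val_neg, Units.val_one]; exact eq_neg_of_add_eq_zero_left h))
      rw [← Finset.smul_sum]
      congr 1
      rw [← Equiv.sum_comp (Equiv.addLeft x) (fun z => Φ g z),
        ← Finset.add_sum_erase _ _ (Finset.mem_univ (0 : ZMod q))]
      simp only [Equiv.coe_addLeft, add_zero, add_sub_cancel_left]
      refine Finset.sum_bij (fun b _ => ((u : ZMod q) + 1) * b)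
        (fun b _ => Finset.mem_erase.mpr ⟨mul_ne_zero hu' b.ne_zero, Finset.mem_univ _⟩)
        (fun b _ b' _ h => Units.ext (mul_left_cancel₀ hu' h))
        (fun z hz => ⟨Units.mk0 (((u : ZMod q) + 1)⁻¹ * z)
          (mul_ne_zero (inv_ne_zero hu') (Finset.ne_of_mem_erase hz)), Finset.mem_univ _,
          mul_inv_cancel_left₀ hu' z⟩)
        (fun b _ => rfl)
    rw [Finset.sum_congr rfl hinner, ← Finset.sum_smul,
      Finset.sum_erase_eq_sub (Finset.mem_univ _), hηneg, Units.val_one, ← hσ,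
      ← Nat.cast_smul_eq_nsmul A, Nat.cast_sub hq.out.one_le, Nat.cast_one] at hre
    rw [← hre]
    simp only [smul_sub, sub_smul, one_smul]
    abel
  have hyinv : ∀ g : Gamma1 (N * q), (g : SL(2, ℤ)) ∈ Gamma (N * q * (q * q)) → ∀ x : ZMod q,
      y g x = y g 0 := fun g hg x =>
    add_right_cancel ((hmain g hg x).trans (hmain g hg 0).symm)
  -- the diamonds at `q` through translations
  have hη1 : ∀ d : (ZMod q)ˣ, ∀ v : V, ((η d : A) * (η d : A)) • v = v → (η d : A) • v = v := by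
    intro d v h2
    obtain ⟨j, rfl⟩ := hn
    have h3 : ∀ i : ℕ, ((η d : A) ^ (2 * i)) • v = v := fun i => by
      induction i with
      | zero => simp
      | succ i ih => rw [mul_add, mul_one, pow_add, mul_smul, sq, h2, ih]
    have h4 : (η d : A) * (η d : A) ^ (2 * j) = 1 := by
      rw [← pow_succ', ← Units.val_pow_eq_pow_val, hη, Units.val_one]
    calc (η d : A) • v = (η d : A) • ((η d : A) ^ (2 * j)) • v := by rw [h3]
      _ = v := by rw [smul_smul, h4, one_smul]
  let φy : Additive (Gamma1 N) →+ V :=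
    (DistribSMul.toAddMonoidHom V ((q : A) - σ)).comp φ.1
  have hy0 : ∀ g : Gamma1 (N * q), ∀ g₁ : Gamma1 N, (g : SL(2, ℤ)) = (g₁ : SL(2, ℤ)) →
      y g 0 = φy (Additive.ofMul g₁) := fun g g₁ h => by
    show ((q : A) - σ) • φ.1 (Additive.ofMul (conjShift hqN ((0 : ZMod q).val : ℤ) g)) =
      ((q : A) - σ) • φ.1 (Additive.ofMul g₁)
    congr 3
    refine eq_conjShift hqN ?_
    rw [show mat g = mat g₁ from congrArg (fun z : SL(2, ℤ) => (z : M2)) h, ZMod.val_zero,
      Nat.cast_zero, show shiftMx q (0 : ℤ) = (q : ℤ) • (1 : M2) by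
        simp [shiftMx, Matrix.smul_one_eq_diagonal, Matrix.diagonal_fin_two],
      Matrix.smul_mul, Matrix.mul_smul, one_mul, mul_one]
  have hdia : ∀ d : (ZMod q)ˣ, ((η d : A) * (η d : A) - 1) • φy = 0 := by
    intro d
    haveI : NeZero (N * q * (q * q) * (q * q)) := ⟨by
      simp [NeZero.ne N, hq.out.ne_zero]⟩
    refine eq_zero_of_principal (M := N * q * (q * q) * (q * q)) htf fun h hh => ?_
    set a : ZMod q := ((d⁻¹ : (ZMod q)ˣ) : ZMod q)
    have hN₀ne : (N₀ : ZMod q) ≠ 0 := by rwa [Ne, ZMod.natCast_eq_zero_iff]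
    set x : ℤ := (((a - 1) / (N₀ : ZMod q)).val : ℤ)
    set x' : ℤ := ((-((a - 1) / (N₀ : ZMod q)) / a).val : ℤ)
    have hxa : ((1 + x * N₀ : ℤ) : ZMod q) = a := by
      simp only [x]
      push_cast
      rw [ZMod.natCast_zmod_val, div_mul_cancel₀ _ hN₀ne]
      ring
    have hane : a ≠ 0 := Units.ne_zero _
    obtain ⟨k, hk⟩ : (q : ℤ) ∣ x' * (1 + x * N₀) + x := by
      rw [← ZMod.intCast_zmod_eq_zero_iff_dvd, Int.cast_add, Int.cast_mul, hxa]
      simp only [x, x']
      push_cast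
      rw [ZMod.natCast_zmod_val, ZMod.natCast_zmod_val, div_mul_cancel₀ _ hane]
      ring
    have hN' : (N : ℤ) = q * N₀ := by exact_mod_cast hN₀
    set γ : Gamma0 N := gamma0Mk N (1 + x * N₀) k N (1 + x' * N₀)
      (by linear_combination (N₀ : ℤ) * hk - k * hN') dvd_rfl with hγdef
    have hd1 : ((mat γ 1 1 : ℤ) : ZMod N₀) = 1 := by simp [hγdef]
    have hdd : ((mat γ 1 1 : ℤ) : ZMod q) = d := by
      have h1 : ((mat γ 1 1 : ℤ) : ZMod q) * a = 1 := by
        have h2 := congrArg (Int.cast : ℤ → ZMod q)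
          (show (1 + x * (N₀ : ℤ)) * (1 + x' * N₀) - k * N = 1 by
            linear_combination (N₀ : ℤ) * hk - k * hN')
        rw [Int.cast_sub, Int.cast_mul, hxa, Int.cast_mul k, hN', Int.cast_mul (q : ℤ),
          Int.cast_natCast, ZMod.natCast_self, zero_mul, mul_zero, sub_zero, Int.cast_one] at h2
        rw [mul_comm, ← h2]
        simp [hγdef]
      calc ((mat γ 1 1 : ℤ) : ZMod q) = ((mat γ 1 1 : ℤ) : ZMod q) * (a * d) := by
            rw [← Units.val_mul, inv_mul_cancel, Units.val_one, mul_one]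
        _ = d := by rw [← mul_assoc, h1, one_mul]
    -- the conjugate of `h` as an iterated translate
    have hN1 : N * q ∣ N * q * (q * q) := dvd_mul_right _ _
    have hN2 : N * q ∣ N * q * (q * q) * (q * q) := hN1.mul_right _
    set g0 : Gamma1 (N * q) := ⟨h, hinc hN2 hh⟩
    set g1 : Gamma1 N := conjShift hqN x' g0
    have hg1 : (g1 : SL(2, ℤ)) ∈ Gamma (N * q * (q * q)) := conjShift_principal hqN x' g0 hh
    set g2 : SL(2, ℤ) := ((lower1 * g1 * lower1⁻¹ : Gamma1 N) : SL(2, ℤ))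
    have hg2 : g2 ∈ Gamma (N * q * (q * q)) := by
      show (lower1 (N := N) : SL(2, ℤ)) * (g1 : SL(2, ℤ)) * (lower1 (N := N) : SL(2, ℤ))⁻¹ ∈ _
      exact (Gamma_normal _).conj_mem _ hg1 _
    set g3 : Gamma1 N := conjShift hqN x ⟨g2, hinc hN1 hg2⟩
    have hconj : g3 = conjGamma1 N γ h := by
      refine eq_conjShift hqN ?_
      show shiftMx q x * (mat (lower1 (N := N)) * mat g1 * mat (lower1 (N := N))⁻¹) =
        mat γ * mat h * mat γ⁻¹ * shiftMx q x
      have hWLW : shiftMx q x * mat (lower1 (N := N)) * shiftMx q x' =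
          ((q : ℤ) * q) • mat γ := by
        rw [hγdef, mat_gamma0Mk]
        show shiftMx q x * !![1, 0; (N : ℤ), 1] * shiftMx q x' = _
        ext i j
        fin_cases i <;> fin_cases j <;> simp [shiftMx, Matrix.mul_apply, Fin.sum_univ_two]
        · linear_combination (q : ℤ) * x * hN'
        · linear_combination (q : ℤ) * hk + x' * x * hN'
        · ring
        · linear_combination (q : ℤ) * x' * hN'
      have h1 : shiftMx q x' * mat h = mat g1 * shiftMx q x' := conjShift_rel hqN x' g0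
      have h2 : shiftMx q x * mat (lower1 (N := N)) * mat g1 * shiftMx q x' =
          ((q : ℤ) * q) • (mat γ * mat h) := by
        rw [mul_assoc _ (mat g1), ← h1, ← mul_assoc, hWLW, Matrix.smul_mul]
      refine smul_right_injective M2
        (mul_ne_zero (NeZero.ne (q : ℤ)) (NeZero.ne (q : ℤ))) ?_
      show ((q : ℤ) * q) • _ = ((q : ℤ) * q) • _
      have h3 : ∀ X Y : M2, X * shiftMx q x' = Y * shiftMx q x' → X = Y := fun X Y e =>
        mul_shiftMx_cancel e
      have h4 : shiftMx q x * mat (lower1 (N := N)) * mat g1 * shiftMx q x' =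
          mat γ * mat h * mat γ⁻¹ * (shiftMx q x * mat (lower1 (N := N))) * shiftMx q x' := by
        rw [h2, mul_assoc _ (shiftMx q x * _), hWLW, Matrix.mul_smul, mul_assoc (mat γ * mat h),
          ← mat_mul, inv_mul_cancel, mat_one, mul_one]
      have h5 := h3 _ _ h4
      rw [← mul_assoc (shiftMx q x), ← mul_assoc (shiftMx q x), h5, mul_assoc _ (mat γ⁻¹),
        mul_assoc (mat γ * mat h)]
      simp only [mul_assoc, ← mat_mul, mul_inv_cancel, mat_one, mul_one]
    have hval : φy (Additive.ofMul g3) = φy (Additive.ofMul h) := by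
      have e1 : φy (Additive.ofMul g3) = y ⟨g2, hinc hN1 hg2⟩ (x : ZMod q) := by
        show ((q : A) - σ) • φ.1 (Additive.ofMul g3) =
          ((q : A) - σ) • φ.1 (Additive.ofMul (conjShift hqN _ _))
        refine congrArg (((q : A) - σ) • ·) ?_
        refine (apply_conjShift_congr hqN φ.1 ?_ _).symm
        rw [← ZMod.intCast_zmod_eq_zero_iff_dvd]
        simp
      have e2 : y g0 (x' : ZMod q) = φy (Additive.ofMul g1) := by
        show ((q : A) - σ) • φ.1 (Additive.ofMul (conjShift hqN _ _)) =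
          ((q : A) - σ) • φ.1 (Additive.ofMul g1)
        refine congrArg (((q : A) - σ) • ·) ?_
        refine apply_conjShift_congr hqN φ.1 ?_ _
        rw [← ZMod.intCast_zmod_eq_zero_iff_dvd]
        simp
      have hh' : (g0 : SL(2, ℤ)) ∈ Gamma (N * q * (q * q)) :=
        hle (dvd_mul_right _ _) hh
      rw [e1, hyinv _ hg2, hy0 _ (lower1 * g1 * lower1⁻¹) rfl, ← hy0 g0 h rfl, ← hyinv g0 hh' x',
        e2]
      simp only [ofMul_mul, ofMul_inv, map_add, map_neg]
      abel
    have e := hφ γ d hd1 hdd (Additive.ofMul h)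
    rw [diamond_apply] at e
    rw [hconj] at hval
    show ((η d : A) * (η d : A) - 1) • φy (Additive.ofMul h) = 0
    rw [sub_smul, one_smul, sub_eq_zero]
    show _ • ((q : A) - σ) • φ.1 (Additive.ofMul h) = _
    rw [smul_comm, ← e]
    exact hval
  -- conclusion
  have hfix : ∀ x, σ • φy x = ((q : A) - 1) • φy x := fun x => by
    have hd : ∀ d : (ZMod q)ˣ, (η d : A) • φy x = φy x := fun d => hη1 d _ (by
      have h := DFunLike.congr_fun (hdia d) x
      rwa [AddMonoidHom.smul_apply, sub_smul, one_smul, AddMonoidHom.zero_apply, sub_eq_zero] at h)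
    rw [hσ, Finset.sum_smul, Finset.sum_congr rfl fun d _ => hd d, Finset.sum_const,
      Finset.card_univ, ZMod.card_units, ← Nat.cast_smul_eq_nsmul A, Nat.cast_sub hq.out.one_le,
      Nat.cast_one]
  have hσσ : σ * σ = ((q : A) - 1) * σ := by
    conv_lhs => rw [hσ, Finset.sum_mul, Finset.sum_congr rfl fun a _ => hσm a]
    rw [Finset.sum_const, Finset.card_univ, ZMod.card_units, nsmul_eq_mul,
      Nat.cast_sub hq.out.one_le, Nat.cast_one]
  have hσφ : ∀ x, σ • φ.1 x = ((q : A) - 1) • φ.1 x := fun x => by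
    have h1 : σ • ((q : A) - σ) • φ.1 x = ((q : A) - 1) • ((q : A) - σ) • φ.1 x := hfix x
    rw [smul_smul, smul_smul, mul_sub, hσσ] at h1
    have h2 : q • (σ • φ.1 x - ((q : A) - 1) • φ.1 x) = 0 := by
      rw [← Nat.cast_smul_eq_nsmul A, ← sub_smul, smul_smul]
      rw [← sub_eq_zero, ← sub_smul] at h1
      rw [← h1]
      congr 1
      ring
    exact sub_eq_zero.mp (htf q _ hq.out.ne_zero h2)
  haveI : NeZero (N * q * (q * q)) := ⟨by simp [NeZero.ne N, hq.out.ne_zero]⟩
  refine Subtype.ext (eq_zero_of_principal (M := N * q * (q * q)) htf fun h hh => ?_)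
  set g0 : Gamma1 (N * q) := ⟨h, hinc (dvd_mul_right _ _) hh⟩
  have hz : ∀ z, Φ g0 z = φ.1 (Additive.ofMul h) := fun z => by
    have h1 : ∀ w, y g0 w = Φ g0 w := fun w => by
      show ((q : A) - σ) • Φ g0 w = _
      rw [sub_smul, hσφ, ← sub_smul, sub_sub_cancel, one_smul]
    rw [← h1, hyinv g0 hh, hy0 g0 h rfl]
    show ((q : A) - σ) • φ.1 _ = _
    rw [sub_smul, hσφ, ← sub_smul, sub_sub_cancel, one_smul]
  have h' := hmain g0 hh 0
  simp only [hz, Finset.sum_const, Finset.card_univ, ZMod.card] at h'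
  set v := φ.1 (Additive.ofMul h) with hv
  rw [sub_smul, hσφ, ← sub_smul, sub_sub_cancel, one_smul, smul_comm, sub_smul, hσφ] at h'
  refine htf ((q - 1) ^ 2) _ (pow_ne_zero _ (Nat.sub_ne_zero_of_lt hq.out.one_lt)) ?_
  rw [← h', ← Nat.cast_smul_eq_nsmul A, ← Nat.cast_smul_eq_nsmul A, Nat.cast_pow,
    Nat.cast_sub hq.out.one_le, Nat.cast_one]
  module

end FLTAgent.ModLift
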